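import Fermat.Agent.ModCurve.Points.Genus
import Fermat.Agent.Curve.Diff.Differential
import Fermat.Prelude.Def_ModularCurve_ArithmeticGalois

/-!
# Genus of `X₀(N)` over `ℚ̄`

Constant field extension from any embedded subfield of `ℂ`.
-/

set_option autoImplicit false
set_option linter.style.haveILetI false
set_option synthInstance.maxHeartbeats 200000
set_option maxHeartbeats 1000000

noncomputable section

open AlgebraicCurve IntermediateField
open ModularCurve (coeffMap coeffEmb laurentBaseChange modularFunctionFieldFull coeffMap_coeffMap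
  coeffMap_congr coeffEmb_mem_laurentBaseChange mem_laurentBaseChange_iff)

namespace FermatAgent.ModCurve.Points

open FermatAgent.Curve (IsFunctionField1)

variable (N : ℕ) [NeZero N]

/-- The function field of `X₀(N)` over any field of characteristic zero is a function field. -/
theorem isFunctionField1_laurentBaseChange (L : Type*) [Field L] [Algebra ℚ L] :
    IsFunctionField1 L (laurentBaseChange L (modularFunctionFieldFull N)) :=
  ⟨⟨FermatAgent.ModFun.jBar L N, FermatAgent.ModFun.transcendental_jBar L N,
    FermatAgent.ModFun.finiteDimensional_adjoin_jBar L N⟩⟩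

instance instIsFunctionField1Bar :
    IsFunctionField1 (AlgebraicClosure ℚ) (ModularCurve.modularFunctionFieldBar N) :=
  isFunctionField1_laurentBaseChange N (AlgebraicClosure ℚ)

section Extend

variable {K K' : Type*} [Field K] [Field K'] [Algebra ℚ K] [Algebra ℚ K']
variable {F₀ : IntermediateField ℚ (LaurentSeries ℚ)}

omit N [NeZero N] in
theorem coeffMap_coeffEmb_ringHom (φ : K →+* K') (x : LaurentSeries ℚ) :
    coeffMap φ (coeffEmb K x) = coeffEmb K' x := by
  rw [coeffEmb, coeffEmb, coeffMap_coeffMap]
  exact coeffMap_congr (Subsingleton.elim _ _) x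

omit N [NeZero N] [Algebra ℚ K] [Algebra ℚ K'] in
theorem coeffMap_const (φ : K →+* K') (c : K) :
    coeffMap φ (algebraMap K (LaurentSeries K) c) =
      algebraMap K' (LaurentSeries K') (φ c) := by
  rw [ModularCurve.algebraMap_laurentSeries_eq_single,
    ModularCurve.algebraMap_laurentSeries_eq_single, ModularCurve.coeffMap_single]

omit N [NeZero N] in
theorem coeffMap_mem_laurentBaseChange_ringHom (φ : K →+* K') {x : LaurentSeries K}
    (hx : x ∈ laurentBaseChange K F₀) : coeffMap φ x ∈ laurentBaseChange K' F₀ := by
  rw [mem_laurentBaseChange_iff] at hx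
  induction hx using Subfield.closure_induction with
  | mem y hy =>
    rcases hy with ⟨a, rfl⟩ | ⟨z, hz, rfl⟩
    · rw [coeffMap_const]; exact (laurentBaseChange K' F₀).algebraMap_mem _
    · rw [coeffMap_coeffEmb_ringHom]; exact coeffEmb_mem_laurentBaseChange K' hz
  | one => simp
  | add x y _ _ hx hy => simpa using add_mem hx hy
  | neg x _ hx => simpa using neg_mem hx
  | inv x _ hx => simpa using inv_mem hx
  | mul x y _ _ hx hy => simpa using mul_mem hx hy

variable (F₀) in
/-- Extension of constants on base-changed Laurent subfields. -/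
def extendConstants (φ : K →+* K') : laurentBaseChange K F₀ →+* laurentBaseChange K' F₀ :=
  ((coeffMap φ).comp (algebraMap (laurentBaseChange K F₀) (LaurentSeries K))).codRestrict
    (laurentBaseChange K' F₀) fun x => coeffMap_mem_laurentBaseChange_ringHom φ x.2

omit N [NeZero N] in
@[simp]
theorem coe_extendConstants (φ : K →+* K') (x : laurentBaseChange K F₀) :
    (extendConstants F₀ φ x : LaurentSeries K') = coeffMap φ (x : LaurentSeries K) := rfl

omit N [NeZero N] in
theorem extendConstants_algebraMap (φ : K →+* K') (c : K) :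
    extendConstants F₀ φ (algebraMap K _ c) = algebraMap K' _ (φ c) :=
  Subtype.ext (coeffMap_const φ c)

end Extend

/-- The genus of `X₀(N)` over an algebraically closed subfield of `ℂ`. -/
theorem genusFF_laurentBaseChange_eq {K : Type} [Field K] [Algebra ℚ K] [IsAlgClosed K]
    (φ : K →+* ℂ) [IsFunctionField1 K (laurentBaseChange K (modularFunctionFieldFull N))] :
    genusFF ℂ (FieldC N) = genusFF K (laurentBaseChange K (modularFunctionFieldFull N)) := by
  haveI : CharZero K := charZero_of_injective_algebraMap (algebraMap ℚ K).injective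
  let F := laurentBaseChange K (modularFunctionFieldFull N)
  let ψ : F →+* FieldC N := extendConstants (modularFunctionFieldFull N) φ
  letI : Algebra K ℂ := φ.toAlgebra
  letI : Algebra F (FieldC N) := ψ.toAlgebra
  letI : Algebra K (FieldC N) := ((algebraMap ℂ (FieldC N)).comp φ).toAlgebra
  haveI : IsScalarTower K ℂ (FieldC N) := IsScalarTower.of_algebraMap_eq fun _ => rfl
  haveI : IsScalarTower K F (FieldC N) :=
    IsScalarTower.of_algebraMap_eq fun c =>
      (extendConstants_algebraMap (F₀ := modularFunctionFieldFull N) φ c).symm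
  have hj : algebraMap F (FieldC N) (FermatAgent.ModFun.jBar K N) = FermatAgent.ModFun.jBar ℂ N := by
    refine Subtype.ext ?_
    show coeffMap φ (ModularCurve.jqModC K) = ModularCurve.jqModC ℂ
    exact ModularCurve.coeffMap_jqModC φ
  have hjN : algebraMap F (FieldC N) (FermatAgent.ModFun.jNBar K N) =
      FermatAgent.ModFun.jNBar ℂ N := by
    refine Subtype.ext ?_
    show coeffMap φ (ModularCurve.jqNModC K N) = ModularCurve.jqNModC ℂ N
    exact ModularCurve.coeffMap_jqNModC φ N
  haveI : Curve.Descent.IsConstantExtension K ℂ F (FieldC N) := by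
    refine ⟨top_le_iff.1 ?_, ⟨FermatAgent.ModFun.jBar K N, ?_⟩⟩
    · rw [← FermatAgent.ModFun.adjoin_jBar_jNBar ℂ N, IntermediateField.adjoin_le_iff]
      rintro x (rfl | rfl)
      · exact IntermediateField.subset_adjoin _ _ ⟨_, hj⟩
      · exact IntermediateField.subset_adjoin _ _ ⟨_, hjN⟩
    · rw [hj]; exact FermatAgent.ModFun.transcendental_jBar ℂ N
  exact Curve.Descent.genusFF_eq K ℂ F (FieldC N)

/-- The genus of `X₀(N)` over `ℚ̄`. -/
theorem genusFF_bar :
    (genusFF (AlgebraicClosure ℚ) (ModularCurve.modularFunctionFieldBar N) : ℚ) =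
      ModularCurve.genusFormula N := by
  haveI : Algebra.IsAlgebraic ℚ (AlgebraicClosure ℚ) := AlgebraicClosure.isAlgebraic ℚ
  rw [← genusFF_laurentBaseChange_eq N (IsAlgClosed.lift : AlgebraicClosure ℚ →ₐ[ℚ] ℂ).toRingHom,
    genusFF_fieldC]

end FermatAgent.ModCurve.Points
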