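import Mathlib

/-!
# Point stabilisers of `SL(2, ℤ)` acting on the upper half plane
-/

set_option autoImplicit false

noncomputable section

open UpperHalfPlane Filter Topology
open scoped MatrixGroups

namespace FermatAgent.ModCurve.Points

/-- The automorphy factor `c z + d`. -/
def autFactor (g : SL(2, ℤ)) (z : ℂ) : ℂ := (g 1 0 : ℂ) * z + g 1 1

theorem autFactor_eq_denom (g : SL(2, ℤ)) (z : ℂ) :
    autFactor g z = denom (g : GL (Fin 2) ℝ) z := rfl

theorem autFactor_ne_zero (g : SL(2, ℤ)) (z : ℍ) : autFactor g z ≠ 0 := by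
  rw [autFactor_eq_denom]; exact denom_ne_zero _ z

/-- The Möbius transformation as a function on `ℂ`. -/
def moeb (g : SL(2, ℤ)) (z : ℂ) : ℂ := ((g 0 0 : ℂ) * z + g 0 1) / autFactor g z

theorem moeb_coe (g : SL(2, ℤ)) (z : ℍ) : moeb g z = ((g • z : ℍ) : ℂ) := by
  rw [UpperHalfPlane.coe_specialLinearGroup_apply]
  simp [moeb, autFactor]

theorem autFactor_mul (g h : SL(2, ℤ)) (z : ℍ) :
    autFactor (g * h) z = autFactor g (h • z : ℍ) * autFactor h z := by
  rw [← moeb_coe h z, moeb, autFactor, autFactor, autFactor]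
  simp only [Matrix.SpecialLinearGroup.coe_mul, Matrix.mul_apply, Fin.sum_univ_two]
  have hne : (h 1 0 : ℂ) * z + h 1 1 ≠ 0 := autFactor_ne_zero h z
  push_cast
  have key : ∀ u v w x y : ℂ, u ≠ 0 → (w * (v / u) + x) * u = w * v + x * u := fun u v w x y hu => by
    field_simp
  rw [key _ _ _ _ 0 hne]
  ring

theorem autFactor_one (z : ℂ) : autFactor 1 z = 1 := by simp [autFactor]

theorem autFactor_neg (g : SL(2, ℤ)) (z : ℂ) : autFactor (-g) z = -autFactor g z := by
  simp [autFactor]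
  ring

theorem autFactor_pow {g : SL(2, ℤ)} {z : ℍ} (hg : g • z = z) (n : ℕ) :
    autFactor (g ^ n) z = autFactor g z ^ n := by
  induction n with
  | zero => simp [autFactor_one]
  | succ n ih => rw [pow_succ, autFactor_mul, hg, ih, pow_succ]

theorem eq_one_or_neg_one_of_autFactor_sq {g : SL(2, ℤ)} {z : ℍ} (hg : g • z = z)
    (h : autFactor g z ^ 2 = 1) : g = 1 ∨ g = -1 := by
  have hfix := moeb_coe g z
  rw [hg, moeb, div_eq_iff (autFactor_ne_zero g z)] at hfix
  unfold autFactor at h hfix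
  have hc : g 1 0 = 0 := by
    have h2 := sq_eq_one_iff.1 h
    have him : ((g 1 0 : ℝ)) * z.im = 0 := by
      rcases h2 with h2 | h2 <;> · have := congrArg Complex.im h2; simpa using this
    exact_mod_cast (mul_eq_zero.1 him).resolve_right z.im_ne_zero
  have hdet := g.2
  rw [Matrix.det_fin_two, hc, mul_zero, sub_zero] at hdet
  rw [hc] at hfix h
  push_cast at hfix h
  simp only [zero_mul, zero_add] at hfix h
  rcases Int.eq_one_or_neg_one_of_mul_eq_one' hdet with ⟨ha, hd⟩ | ⟨ha, hd⟩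
  · left
    rw [ha, hd] at hfix
    have hb : g 0 1 = 0 := by
      have h1 : ((g 0 1 : ℤ) : ℂ) = 0 := by push_cast at hfix ⊢; linear_combination hfix
      exact_mod_cast h1
    ext i j
    fin_cases i <;> fin_cases j <;> simp [ha, hd, hb, hc]
  · right
    rw [ha, hd] at hfix
    have hb : g 0 1 = 0 := by
      have h1 : ((g 0 1 : ℤ) : ℂ) = 0 := by push_cast at hfix ⊢; linear_combination hfix
      exact_mod_cast h1
    ext i j
    fin_cases i <;> fin_cases j <;> simp [ha, hd, hb, hc]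

/-- A generator of the stabiliser of `z` modulo `±1`, with its order and rotation number. -/
structure LocalMonodromy (z : ℍ) where
  /-- The order of the stabiliser modulo `±1`. -/
  M : ℕ
  M_pos : 0 < M
  /-- A generator. -/
  g : SL(2, ℤ)
  fix : g • z = z
  spec : ∀ γ : SL(2, ℤ), γ • z = z → ∃ k, k < M ∧ (γ = g ^ k ∨ γ = -g ^ k)
  pow_M : g ^ M = 1 ∨ g ^ M = -1
  min : ∀ k, 0 < k → k < M → g ^ k ≠ 1 ∧ g ^ k ≠ -1

theorem pow_smul_eq {g : SL(2, ℤ)} {z : ℍ} (hg : g • z = z) (n : ℕ) : (g ^ n) • z = z := by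
  induction n with
  | zero => simp
  | succ n ih => rw [pow_succ, mul_smul, hg, ih]

namespace LocalMonodromy

variable {z : ℍ} (D : LocalMonodromy z)

/-- The rotation number, i.e. the derivative of the generator at the fixed point. -/
def rot : ℂ := ((autFactor D.g z) ^ 2)⁻¹

theorem rot_pow_eq (k : ℕ) : D.rot ^ k = ((autFactor (D.g ^ k) z) ^ 2)⁻¹ := by
  rw [rot, autFactor_pow D.fix, inv_pow, ← pow_mul, ← pow_mul, Nat.mul_comm]

theorem isPrimitiveRoot_rot : IsPrimitiveRoot D.rot D.M := by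
  refine IsPrimitiveRoot.iff D.M_pos |>.2 ⟨?_, fun k hk0 hkM h => ?_⟩
  · rw [D.rot_pow_eq]
    rcases D.pow_M with h | h <;> simp [h, autFactor_one, autFactor_neg]
  · rw [D.rot_pow_eq, inv_eq_one] at h
    rcases eq_one_or_neg_one_of_autFactor_sq (pow_smul_eq D.fix k) h with h' | h'
    · exact (D.min k hk0 hkM).1 h'
    · exact (D.min k hk0 hkM).2 h'

/-- Transport the monodromy datum along `h`. -/
def map (h : SL(2, ℤ)) : LocalMonodromy (h • z) where
  M := D.M
  M_pos := D.M_pos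
  g := h * D.g * h⁻¹
  fix := by rw [mul_smul, mul_smul, inv_smul_smul, D.fix]
  spec γ hγ := by
    obtain ⟨k, hk, hk'⟩ := D.spec (h⁻¹ * γ * h) (by rw [mul_smul, mul_smul, hγ, inv_smul_smul])
    refine ⟨k, hk, ?_⟩
    rw [conj_pow]
    rcases hk' with hk' | hk'
    · left; rw [← hk']; group
    · right
      have : γ = h * (h⁻¹ * γ * h) * h⁻¹ := by group
      rw [this, hk']
      simp
  pow_M := by
    rw [conj_pow]
    rcases D.pow_M with h' | h' <;> simp [h']
  min k hk hkM := by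
    rw [conj_pow]
    obtain ⟨h1, h2⟩ := D.min k hk hkM
    constructor <;> intro h'
    · exact h1 (by simpa using conj_eq_one_iff.1 h')
    · refine h2 ?_
      have : D.g ^ k = h⁻¹ * (h * D.g ^ k * h⁻¹) * h := by group
      rw [this, h']
      simp

end LocalMonodromy

open ModularGroup

/-- The monodromy at `i`. -/
def monodromyI : LocalMonodromy UpperHalfPlane.I where
  M := 2
  M_pos := two_pos
  g := S
  fix := stabilizer_I.2 (by simp)
  spec γ hγ := by
    have h := stabilizer_I.1 hγ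
    simp only [Finset.mem_insert, Finset.mem_singleton] at h
    rcases h with rfl | rfl | rfl | rfl
    · exact ⟨0, by norm_num, Or.inl (by simp)⟩
    · exact ⟨0, by norm_num, Or.inr (by simp)⟩
    · exact ⟨1, by norm_num, Or.inl (by simp)⟩
    · exact ⟨1, by norm_num, Or.inr (by simp)⟩
  pow_M := by right; decide
  min k hk hk' := by
    obtain rfl : k = 1 := by omega
    constructor <;> decide

/-- The monodromy at `ρ`. -/
def monodromyRho : LocalMonodromy ρ where
  M := 3
  M_pos := three_pos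
  g := S * T
  fix := stabilizer_ρ.2 (by simp)
  spec γ hγ := by
    have h := stabilizer_ρ.1 hγ
    simp only [Finset.mem_insert, Finset.mem_singleton] at h
    rcases h with rfl | rfl | rfl | rfl | rfl | rfl
    · exact ⟨0, by norm_num, Or.inl (by simp)⟩
    · exact ⟨0, by norm_num, Or.inr (by simp)⟩
    · exact ⟨1, by norm_num, Or.inl (by simp)⟩
    · exact ⟨1, by norm_num, Or.inr (by simp)⟩
    · exact ⟨2, by norm_num, Or.inl (by decide)⟩
    · exact ⟨2, by norm_num, Or.inr (by decide)⟩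
  pow_M := by right; decide
  min k hk hk' := by
    interval_cases k <;> constructor <;> decide

/-- The monodromy at a point with trivial stabiliser. -/
def monodromyTrivial {z : ℍ} (h : ∀ γ : SL(2, ℤ), γ • z = z → γ = 1 ∨ γ = -1) :
    LocalMonodromy z where
  M := 1
  M_pos := one_pos
  g := 1
  fix := one_smul _ z
  spec γ hγ := ⟨0, one_pos, by simpa using h γ hγ⟩
  pow_M := by simp
  min k hk hk' := by omega

/-- Classification of points: orbit of `i`, orbit of `ρ`, or trivial stabiliser. -/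
theorem point_trichotomy (z : ℍ) :
    (∃ h : SL(2, ℤ), h • UpperHalfPlane.I = z) ∨ (∃ h : SL(2, ℤ), h • ρ = z) ∨
      ∀ γ : SL(2, ℤ), γ • z = z → γ = 1 ∨ γ = -1 := by
  obtain ⟨g, hg⟩ := exists_smul_mem_fd z
  by_cases hI : g • z = UpperHalfPlane.I
  · exact Or.inl ⟨g⁻¹, by rw [← hI, inv_smul_smul]⟩
  by_cases hρ : g • z = ρ
  · exact Or.inr (Or.inl ⟨g⁻¹, by rw [← hρ, inv_smul_smul]⟩)
  by_cases hρ' : g • z = (1 : ℝ) +ᵥ ρ
  · refine Or.inr (Or.inl ⟨g⁻¹ * T, ?_⟩)
    rw [mul_smul, modular_T_smul, ← hρ', inv_smul_smul]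
  refine Or.inr (Or.inr fun γ hγ => ?_)
  have hfix : (g * γ * g⁻¹) • (g • z) = g • z := by rw [mul_smul, mul_smul, inv_smul_smul, hγ]
  have h := stabilizer_of_ne hg hfix hI hρ hρ'
  rcases h with h | h
  · exact Or.inl (conj_eq_one_iff.1 h)
  · refine Or.inr ?_
    have : γ = g⁻¹ * (g * γ * g⁻¹) * g := by group
    rw [this, h]
    simp

theorem nonempty_localMonodromy (z : ℍ) : Nonempty (LocalMonodromy z) := by
  rcases point_trichotomy z with ⟨h, rfl⟩ | ⟨h, rfl⟩ | h
  · exact ⟨monodromyI.map h⟩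
  · exact ⟨monodromyRho.map h⟩
  · exact ⟨monodromyTrivial h⟩

/-- A chosen monodromy datum. -/
def localMonodromy (z : ℍ) : LocalMonodromy z := (nonempty_localMonodromy z).some

/-- Points near `z` are equivalent only under the stabiliser of `z`. -/
theorem exists_nhds_smul_eq (z : ℍ) :
    ∃ U ∈ 𝓝 z, ∀ γ : SL(2, ℤ), ∀ x ∈ U, γ • x ∈ U → γ • z = z := by
  obtain ⟨K, hK, hKz⟩ := exists_compact_mem_nhds z
  have hfin0 := ProperlyDiscontinuousSMul.finite_disjoint_inter_image (Γ := 𝒮ℒ) hK hK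
  let f : SL(2, ℤ) → 𝒮ℒ := fun γ => ⟨(γ : GL (Fin 2) ℝ), γ, rfl⟩
  have hf : Function.Injective f := fun a b h =>
    Matrix.SpecialLinearGroup.mapGL_injective (congrArg Subtype.val h)
  have hfin : {γ : SL(2, ℤ) | ∃ x ∈ K, γ • x ∈ K}.Finite := by
    refine (hfin0.preimage hf.injOn).subset fun γ hγ => ?_
    obtain ⟨x, hx, hx'⟩ := hγ
    simp only [Set.mem_preimage, Set.mem_ofPred_eq]
    exact ⟨γ • x, ⟨x, hx, rfl⟩, hx'⟩
  classical
  set B := hfin.toFinset.filter fun γ => γ • z ≠ z with hB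
  have hsep : ∀ γ ∈ B, ∀ᶠ p in 𝓝 z ×ˢ 𝓝 z, γ • p.1 ≠ p.2 := by
    intro γ hγ
    have hne : γ • z ≠ z := (Finset.mem_filter.1 hγ).2
    have hcont : Continuous fun p : ℍ × ℍ => (γ • p.1, p.2) :=
      ((continuous_const_smul (γ : GL (Fin 2) ℝ)).comp continuous_fst).prodMk continuous_snd
    rw [← nhds_prod_eq]
    exact (hcont.tendsto (z, z)).eventually (isClosed_diagonal.isOpen_compl.mem_nhds hne)
  obtain ⟨V, hV, hVsub⟩ := (Filter.eventually_prod_self_iff
    (r := fun a b => ∀ γ ∈ B, γ • a ≠ b)).1 ((B.eventually_all).2 hsep)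
  refine ⟨K ∩ V, inter_mem hKz hV, fun γ x hx hx' => ?_⟩
  by_contra hne
  have hγB : γ ∈ B := Finset.mem_filter.2 ⟨hfin.mem_toFinset.2 ⟨x, hx.1, hx'.1⟩, hne⟩
  exact hVsub x hx.2 _ hx'.2 γ hγB rfl

end FermatAgent.ModCurve.Points
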