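import Fermat.Agent.ModCurve.Points.MeroGerm
import Fermat.Agent.ModCurve.Points.Stabilizer
import Fermat.Agent.ModCurve.Forms.Separation
import Fermat.Agent.ModCurve.Fun.JFun

/-!
# The function `j` on the upper half plane: fibres and local orders
-/

set_option autoImplicit false

noncomputable section

open UpperHalfPlane hiding I
open Filter Topology
open scoped MatrixGroups Manifold

namespace FermatAgent.ModCurve.Points

open FermatAgent.ModFun (jFun)

/-! ### Surjectivity -/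

theorem tendsto_jFun_atImInfty : Tendsto jFun atImInfty (Bornology.cobounded ℂ) := by
  rw [← tendsto_norm_atTop_iff_cobounded]
  have h1 := FermatAgent.ModFun.norm_jFun_mul_exp_tendsto
  have h2 : Tendsto (fun τ : ℍ => Real.exp (2 * Real.pi * τ.im)) atImInfty atTop :=
    Real.tendsto_exp_atTop.comp (tendsto_comap.const_mul_atTop (by positivity))
  refine (h1.pos_mul_atTop one_pos h2).congr fun τ => ?_
  rw [mul_assoc, ← Real.exp_add, show -2 * Real.pi * τ.im + 2 * Real.pi * τ.im = 0 by ring,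
    Real.exp_zero, mul_one]

theorem jFun_surjective : Function.Surjective jFun := by
  intro c
  by_contra h
  push Not at h
  set f : ℍ → ℂ := fun τ => (jFun τ - c)⁻¹ with hf
  have hfd : MDiff f := by
    rw [UpperHalfPlane.mdifferentiable_iff]
    refine DifferentiableOn.inv ((UpperHalfPlane.mdifferentiable_iff.mp
      FermatAgent.ModFun.jFun_mdiff).sub_const c) fun z _ => sub_ne_zero.2 (h _)
  have hinv : ∀ (γ : SL(2, ℤ)) (τ : ℍ), f (γ • τ) = f τ := fun γ τ => by
    simp only [hf, FermatAgent.ModFun.jFun_smul]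
  have htame : FermatAgent.ModFun.IsTame f := by
    refine .of_bounded ?_
    have h0 : Tendsto f atImInfty (𝓝 0) :=
      tendsto_inv₀_cobounded.comp ((tendsto_sub_const_cobounded c).comp tendsto_jFun_atImInfty)
    exact h0.isBigO_one ℝ
  obtain ⟨P, hP⟩ := FermatAgent.ModFun.exists_eq_aeval_jFun hfd hinv htame
  have hroot : ∀ τ, (P * (Polynomial.X - Polynomial.C c) - 1).eval (jFun τ) = 0 := by
    intro τ
    rw [Polynomial.eval_sub, Polynomial.eval_mul, ← hP τ, Polynomial.eval_sub, Polynomial.eval_X,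
      Polynomial.eval_C, Polynomial.eval_one, hf, inv_mul_cancel₀ (sub_ne_zero.2 (h τ)), sub_self]
  have hzero : P * (Polynomial.X - Polynomial.C c) - 1 = 0 := by
    apply Polynomial.eq_zero_of_infinite_isRoot
    intro hfin
    have hb : Bornology.IsBounded (Set.range jFun) :=
      hfin.isBounded.subset (by rintro _ ⟨τ, rfl⟩; exact hroot τ)
    obtain ⟨τ, hτ⟩ := (tendsto_jFun_atImInfty.eventually
      (Bornology.IsBounded.compl hb : (Set.range jFun)ᶜ ∈ Bornology.cobounded ℂ)).exists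
    exact hτ ⟨τ, rfl⟩
  have := congrArg (fun Q => Polynomial.eval c Q) hzero
  simp at this

/-! ### Injectivity modulo `SL(2, ℤ)` -/

theorem disc_eq' (τ : ℍ) :
    ModularForm.discriminant τ = (ModularForm.E₄ τ ^ 3 - ModularForm.E₆ τ ^ 2) / 1728 :=
  ModularForm.discriminant_eq_E₄_cube_sub_E₆_sq τ

theorem jFun_sub_1728 (τ : ℍ) :
    jFun τ - 1728 = ModularForm.E₆ τ ^ 2 / ModularForm.discriminant τ := by
  have h := ModularForm.discriminant_ne_zero τ
  rw [jFun, eq_div_iff h, sub_mul, div_mul_cancel₀ _ h, disc_eq']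
  ring

theorem exists_scale (a b a' b' : ℂ) (h : a ^ 3 * b' ^ 2 = a' ^ 3 * b ^ 2)
    (hnd : a ^ 3 ≠ b ^ 2) (hnd' : a' ^ 3 ≠ b' ^ 2) :
    ∃ w : ℂ, w ≠ 0 ∧ w ^ 4 * a = a' ∧ w ^ 6 * b = b' := by
  rcases eq_or_ne a 0 with ha | ha
  · subst ha
    have hb : b ≠ 0 := fun hb => hnd (by simp [hb])
    have ha' : a' = 0 := by
      have h1 : a' ^ 3 * b ^ 2 = 0 := by rw [← h]; ring
      exact pow_eq_zero_iff (by norm_num) |>.1 ((mul_eq_zero.1 h1).resolve_right (pow_ne_zero _ hb))
    have hb' : b' ≠ 0 := fun hb' => hnd' (by simp [hb', ha'])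
    obtain ⟨w, hw⟩ := IsAlgClosed.exists_pow_nat_eq (b' / b) (show 0 < 6 by norm_num)
    refine ⟨w, fun h0 => ?_, by simp [ha'], by rw [hw, div_mul_cancel₀ _ hb]⟩
    rw [h0, zero_pow (by norm_num)] at hw
    exact div_ne_zero hb' hb hw.symm
  rcases eq_or_ne b 0 with hb | hb
  · subst hb
    have hb' : b' = 0 := by
      have h1 : a ^ 3 * b' ^ 2 = 0 := by rw [h]; ring
      exact pow_eq_zero_iff (by norm_num) |>.1 ((mul_eq_zero.1 h1).resolve_left (pow_ne_zero _ ha))
    have ha' : a' ≠ 0 := fun ha' => hnd' (by simp [hb', ha'])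
    obtain ⟨w, hw⟩ := IsAlgClosed.exists_pow_nat_eq (a' / a) (show 0 < 4 by norm_num)
    refine ⟨w, fun h0 => ?_, by rw [hw, div_mul_cancel₀ _ ha], by simp [hb']⟩
    rw [h0, zero_pow (by norm_num)] at hw
    exact div_ne_zero ha' ha hw.symm
  have ha' : a' ≠ 0 := by
    intro h0
    have h1 : a ^ 3 * b' ^ 2 = 0 := by rw [h, h0]; ring
    exact hnd' (by simp [h0, pow_eq_zero_iff (by norm_num : (2 : ℕ) ≠ 0) |>.1
      ((mul_eq_zero.1 h1).resolve_left (pow_ne_zero _ ha))])
  have hb' : b' ≠ 0 := by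
    intro h0
    have h1 : a' ^ 3 * b ^ 2 = 0 := by rw [← h, h0]; ring
    exact ha' (pow_eq_zero_iff (by norm_num) |>.1 ((mul_eq_zero.1 h1).resolve_right (pow_ne_zero _ hb)))
  -- `w² = (b'/b)/(a'/a)`
  obtain ⟨w, hw⟩ := IsAlgClosed.exists_pow_nat_eq ((b' / b) / (a' / a)) (show 0 < 2 by norm_num)
  refine ⟨w, fun h0 => ?_, ?_, ?_⟩
  · rw [h0, zero_pow (by norm_num)] at hw
    exact div_ne_zero (div_ne_zero hb' hb) (div_ne_zero ha' ha) hw.symm
  · rw [show w ^ 4 = (w ^ 2) ^ 2 by ring, hw]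
    field_simp
    linear_combination h
  · rw [show w ^ 6 = (w ^ 2) ^ 3 by ring, hw]
    field_simp
    linear_combination h

open FermatAgent.ModCurve.Forms in
theorem exists_smul_of_jFun_eq {z w : ℍ} (h : jFun z = jFun w) :
    ∃ γ : SL(2, ℤ), γ • z = w := by
  have hz := ModularForm.discriminant_ne_zero z
  have hw := ModularForm.discriminant_ne_zero w
  have h4 : ModularForm.E₄ z ^ 3 * ModularForm.discriminant w =
      ModularForm.E₄ w ^ 3 * ModularForm.discriminant z := (div_eq_div_iff hz hw).1 h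
  have hnd : ∀ τ : ℍ, ModularForm.E₄ τ ^ 3 ≠ ModularForm.E₆ τ ^ 2 := fun τ h0 =>
    ModularForm.discriminant_ne_zero τ (by rw [disc_eq', h0]; simp)
  obtain ⟨c, hc, hc4, hc6⟩ := exists_scale (ModularForm.E₄ z) (ModularForm.E₆ z)
    (ModularForm.E₄ w) (ModularForm.E₆ w) (by
      rw [disc_eq', disc_eq'] at h4; linear_combination (-1728) * h4) (hnd z) (hnd w)
  -- scale the lattice of `w`
  set L₁ := pairOf z 1 one_ne_zero with hL₁
  set L₂ := pairOf w c hc with hL₂
  have hE : ∀ k : ℕ, ∀ hk : 3 ≤ k, c ^ k * ModularForm.E hk z = ModularForm.E hk w →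
      L₁.G k = L₂.G k := by
    intro k hk hE
    rw [hL₁, hL₂, G_pairOf hk, G_pairOf hk, one_zpow, one_mul, ← hE, zpow_neg, zpow_natCast]
    field_simp [pow_ne_zero k hc]
  have hlat : L₁.lattice = L₂.lattice := by
    refine lattice_eq_of_g₂_eq_of_g₃_eq _ _ ?_ ?_
    · rw [PeriodPair.g₂, PeriodPair.g₂, hE 4 (by norm_num) hc4]
    · rw [PeriodPair.g₃, PeriodPair.g₃, hE 6 (by norm_num) hc6]
  obtain ⟨p, q, hpq⟩ := PeriodPair.mem_lattice.1 (hlat ▸ L₂.ω₁_mem_lattice : L₂.ω₁ ∈ L₁.lattice)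
  obtain ⟨r, s, hrs⟩ := PeriodPair.mem_lattice.1 (hlat ▸ L₂.ω₂_mem_lattice : L₂.ω₂ ∈ L₁.lattice)
  obtain ⟨a, b, hab⟩ := PeriodPair.mem_lattice.1 (hlat ▸ L₁.ω₁_mem_lattice : L₁.ω₁ ∈ L₂.lattice)
  obtain ⟨u, v, huv⟩ := PeriodPair.mem_lattice.1 (hlat ▸ L₁.ω₂_mem_lattice : L₁.ω₂ ∈ L₂.lattice)
  simp only [hL₁, hL₂, pairOf, one_mul, mul_one] at hpq hrs hab huv
  have coef : ∀ A B A' B' : ℤ, (A : ℂ) * z + B = A' * z + B' → A = A' ∧ B = B' := by
    intro A B A' B' h
    have him := congrArg Complex.im h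
    simp at him
    have hA : A = A' := by
      exact_mod_cast him.resolve_right z.im_ne_zero
    subst hA
    exact ⟨rfl, by exact_mod_cast add_left_cancel h⟩
  have e1 := coef 1 0 (a * p + b * r) (a * q + b * s) (by
    push_cast; linear_combination -hab - (a : ℂ) * hpq - (b : ℂ) * hrs)
  have e2 := coef 0 1 (u * p + v * r) (u * q + v * s) (by
    push_cast; linear_combination -huv - (u : ℂ) * hpq - (v : ℂ) * hrs)
  have hprod : (a * v - b * u) * (p * s - q * r) = 1 := by
    have : (a * v - b * u) * (p * s - q * r) =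
        (a * p + b * r) * (u * q + v * s) - (a * q + b * s) * (u * p + v * r) := by ring
    rw [this, ← e1.1, ← e1.2, ← e2.1, ← e2.2]
    norm_num
  have hwz : (w : ℂ) * ((r : ℂ) * z + s) = p * z + q := by
    linear_combination (w : ℂ) * hrs - hpq
  have hsign : (p * s - q * r : ℤ) = 1 := by
    rcases Int.eq_one_or_neg_one_of_mul_eq_one' hprod with ⟨_, h'⟩ | ⟨_, h'⟩
    · exact h'
    exfalso
    have hden : (r : ℂ) * z + s ≠ 0 := by
      intro h0
      rw [h0] at hrs
      exact hc hrs.symm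
    have hwdiv : (w : ℂ) = (p * z + q) / ((r : ℂ) * z + s) := by rw [eq_div_iff hden, hwz]
    have him := congrArg Complex.im hwdiv
    rw [Complex.div_im, div_sub_div_same] at him
    simp at him
    have hnorm : 0 < Complex.normSq ((r : ℂ) * z + s) := Complex.normSq_pos.2 hden
    have hdet : ((p * s - q * r : ℤ) : ℝ) = -1 := by rw [h']; norm_num
    push_cast at hdet
    have hpos := w.im_pos
    rw [him, div_pos_iff_of_pos_right hnorm] at hpos
    nlinarith [z.im_pos]
  refine ⟨⟨!![p, q; r, s], by rw [Matrix.det_fin_two_of]; linarith⟩, UpperHalfPlane.ext ?_⟩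
  rw [← moeb_coe, moeb, div_eq_iff (autFactor_ne_zero _ z)]
  simp [autFactor]
  linear_combination -hwz

/-! ### Special values -/

theorem E_eq_zero_of_fix {k : ℕ} (hk : 3 ≤ k) {z : ℍ} {g : SL(2, ℤ)} (hg : g • z = z)
    (h : autFactor g z ^ k ≠ 1) : ModularForm.E hk z = 0 := by
  have h1 := FermatAgent.ModFun.modularForm_smul_eq (ModularForm.E hk) g z
  rw [hg, zpow_natCast, ← autFactor_eq_denom] at h1
  by_contra h0
  exact h (mul_right_cancel₀ h0 (by rw [one_mul]; exact h1.symm))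

theorem jFun_rho : jFun UpperHalfPlane.ρ = 0 := by
  have hp := monodromyRho.isPrimitiveRoot_rot
  have h := E_eq_zero_of_fix (k := 4) (by norm_num) monodromyRho.fix (fun h => ?_)
  · rw [jFun]
    rw [show ModularForm.E₄ UpperHalfPlane.ρ = ModularForm.E (k := 4) (by norm_num) UpperHalfPlane.ρ
      from rfl, h]
    simp
  · have h2 : monodromyRho.rot ^ 2 = 1 := by
      rw [LocalMonodromy.rot, inv_pow, ← pow_mul]; simp [h]
    exact hp.pow_ne_one_of_pos_of_lt two_ne_zero (by show 2 < 3; norm_num) h2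

theorem jFun_I : jFun UpperHalfPlane.I = 1728 := by
  have hp := monodromyI.isPrimitiveRoot_rot
  have h := E_eq_zero_of_fix (k := 6) (by norm_num) monodromyI.fix (fun h => ?_)
  · have := jFun_sub_1728 UpperHalfPlane.I
    rw [show ModularForm.E₆ UpperHalfPlane.I = ModularForm.E (k := 6) (by norm_num) UpperHalfPlane.I
      from rfl, h] at this
    simpa [sub_eq_zero] using this
  · have h3 : monodromyI.rot ^ 3 = 1 := by
      rw [LocalMonodromy.rot, inv_pow, ← pow_mul, show 2 * 3 = 6 from rfl, h, inv_one]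
    have h2 := hp.pow_eq_one
    have h1 : monodromyI.rot ^ 1 = 1 := by
      rw [pow_one]
      calc monodromyI.rot = monodromyI.rot ^ 3 / monodromyI.rot ^ monodromyI.M := by
            rw [show monodromyI.M = 2 from rfl, pow_succ _ 2, mul_div_assoc, mul_div_cancel₀]
            exact pow_ne_zero _ (hp.ne_zero (by decide))
        _ = 1 := by rw [h3, h2, div_one]
    exact hp.pow_ne_one_of_pos_of_lt one_ne_zero (by show 1 < 2; norm_num) h1

/-! ### Local order of `j - j(z)` -/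

/-- `j` as a function on `ℂ`. -/
def jC : ℂ → ℂ := jFun ∘ ofComplex

theorem jC_coe (z : ℍ) : jC z = jFun z := by simp [jC]

theorem analyticAt_jC (z : ℍ) : AnalyticAt ℂ jC z :=
  (UpperHalfPlane.mdifferentiable_iff.mp FermatAgent.ModFun.jFun_mdiff).analyticAt
    (isOpen_upperHalfPlaneSet.mem_nhds z.im_pos)

theorem eventually_im_pos (z : ℍ) : ∀ᶠ w in 𝓝 (z : ℂ), 0 < w.im :=
  isOpen_upperHalfPlaneSet.mem_nhds z.im_pos

theorem jC_moeb (g : SL(2, ℤ)) {w : ℂ} (hw : 0 < w.im) : jC (moeb g w) = jC w := by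
  have h := moeb_coe g ⟨w, hw⟩
  exact (congrArg jC h).trans ((jC_coe _).trans
    ((FermatAgent.ModFun.jFun_smul _ _).trans (jC_coe ⟨w, hw⟩).symm))

theorem analyticAt_moeb (g : SL(2, ℤ)) (z : ℍ) : AnalyticAt ℂ (moeb g) z := by
  have h := autFactor_ne_zero g z
  unfold autFactor at h
  unfold moeb autFactor
  fun_prop (disch := assumption)

theorem hasDerivAt_moeb (g : SL(2, ℤ)) (z : ℍ) :
    HasDerivAt (moeb g) ((autFactor g z ^ 2)⁻¹) (z : ℂ) := by
  have h := autFactor_ne_zero g z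
  have h1 : HasDerivAt (fun w : ℂ => (g 0 0 : ℂ) * w + g 0 1) (g 0 0 : ℂ) z := by
    simpa using ((hasDerivAt_id (z : ℂ)).const_mul (g 0 0 : ℂ)).add_const (g 0 1 : ℂ)
  have h2 : HasDerivAt (fun w : ℂ => (g 1 0 : ℂ) * w + g 1 1) (g 1 0 : ℂ) z := by
    simpa using ((hasDerivAt_id (z : ℂ)).const_mul (g 1 0 : ℂ)).add_const (g 1 1 : ℂ)
  refine (h1.fun_div h2 h).congr_deriv ?_
  have hdet := g.2
  rw [Matrix.det_fin_two] at hdet
  have hdet' : (g 0 0 : ℂ) * g 1 1 - g 0 1 * g 1 0 = 1 := by exact_mod_cast hdet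
  unfold autFactor at h ⊢
  rw [inv_eq_one_div]
  congr 1
  linear_combination hdet'

namespace LocalMonodromy

variable {z : ℍ} (D : LocalMonodromy z)

theorem moeb_self : moeb D.g z = z := by rw [moeb_coe, D.fix]

theorem deriv_moeb : deriv (moeb D.g) z = D.rot := (hasDerivAt_moeb D.g z).deriv

theorem deriv_moeb_ne_zero : deriv (moeb D.g) z ≠ 0 := by
  rw [D.deriv_moeb]; exact D.isPrimitiveRoot_rot.ne_zero D.M_pos.ne'

/-- The monodromy on germs at `z`. -/
def σ : MeroGerm (z : ℂ) →ₐ[ℂ] MeroGerm (z : ℂ) :=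
  MeroGerm.compHom (moeb D.g) (analyticAt_moeb D.g z) D.moeb_self D.deriv_moeb_ne_zero

theorem σ_lead (a : MeroGerm (z : ℂ)) (n : ℤ) (ha : (MeroGerm.valTarget (z : ℂ)).v a = n) :
    (n : WithTop ℤ) < (MeroGerm.valTarget (z : ℂ)).v (D.σ a - D.rot ^ n • a) := by
  rw [← D.deriv_moeb]
  exact MeroGerm.compHom_lead _ _ _ a n ha

end LocalMonodromy

theorem meromorphicAt_jC_sub (z : ℍ) (c : ℂ) :
    MeromorphicAt (fun w => jC w - c) (z : ℂ) :=
  ((analyticAt_jC z).sub analyticAt_const).meromorphicAt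

theorem not_eventually_jC_eq (z : ℍ) (c : ℂ) : ¬ ∀ᶠ w in 𝓝 (z : ℂ), jC w = c := by
  intro h
  have han : AnalyticOnNhd ℂ jC UpperHalfPlane.upperHalfPlaneSet :=
    fun w hw => analyticAt_jC ⟨w, hw⟩
  have heq := han.eqOn_of_preconnected_of_eventuallyEq analyticOnNhd_const
    ((convex_halfSpace_im_gt 0).isPreconnected) z.im_pos h
  obtain ⟨τ, hτ⟩ := (tendsto_jFun_atImInfty.eventually
    (Bornology.IsBounded.compl (Bornology.isBounded_singleton (x := c)) :
      ({c} : Set ℂ)ᶜ ∈ Bornology.cobounded ℂ)).exists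
  exact hτ (by rw [← jC_coe]; exact heq τ.im_pos)

/-- The order of `j - j(z)` at `z` is the order of the stabiliser modulo `±1`. -/
theorem order_jC_sub {z : ℍ} (D : LocalMonodromy z) :
    meromorphicOrderAt (fun w => jC w - jFun z) (z : ℂ) = (D.M : ℤ) := by
  set c := jFun z with hc
  set f : ℂ → ℂ := fun w => jC w - c with hf
  have hfa : AnalyticAt ℂ f z := (analyticAt_jC z).sub analyticAt_const
  have hne : analyticOrderAt f z ≠ ⊤ := by
    rw [Ne, analyticOrderAt_eq_top]
    exact fun h => not_eventually_jC_eq z c (h.mono fun w hw => sub_eq_zero.1 hw)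
  obtain ⟨n, hn⟩ := ENat.ne_top_iff_exists.1 hne
  have hord : meromorphicOrderAt f z = (n : ℤ) := by
    rw [hfa.meromorphicOrderAt_eq, ← hn]; simp
  rw [hord]
  obtain ⟨h, hha, hhz, hfh⟩ := (hfa.analyticOrderAt_eq_natCast).1 hn.symm
  have hnpos : 0 < n := by
    rcases Nat.eq_zero_or_pos n with h0 | h0
    · have h1 := hfh.self_of_nhds
      simp [h0, hf, jC_coe, hc] at h1
      exact absurd h1.symm hhz
    · exact h0
  -- divisibility from the monodromy
  have hdvd : D.M ∣ n := by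
    set a : MeroGerm (z : ℂ) := MeroGerm.mk f hfa.meromorphicAt with ha
    have hva : (MeroGerm.valTarget (z : ℂ)).v a = (n : ℤ) := by
      rw [show (MeroGerm.valTarget (z : ℂ)).v = MeroGerm.ord from rfl, ha, MeroGerm.ord_mk, hord]
    have hσ : D.σ a = a := by
      rw [ha, LocalMonodromy.σ, MeroGerm.compHom_mk, MeroGerm.mk_eq_mk]
      filter_upwards [nhdsWithin_le_nhds (eventually_im_pos z)] with w hw
      simp [hf, jC_moeb D.g hw]
    have hl := D.σ_lead a n hva
    rw [hσ, zpow_natCast] at hl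
    apply D.isPrimitiveRoot_rot.dvd_of_pow_eq_one
    by_contra h1
    have e : a - D.rot ^ n • a = (1 - D.rot ^ n) • a := by rw [sub_smul, one_smul]
    rw [e, (MeroGerm.valTarget (z : ℂ)).v_smul (sub_ne_zero.2 (Ne.symm h1)), hva] at hl
    exact lt_irrefl _ hl
  -- upper bound from nearby points
  have hnM : n ≤ D.M := by
    set φ : ℂ → ℂ := fun w => (w - z) * Complex.exp (Complex.log (h w / h z) / n) with hφ
    have hua : AnalyticAt ℂ (fun w => Complex.exp (Complex.log (h w / h z) / n)) z :=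
      ((((hha.div analyticAt_const hhz)).clog (by simp [div_self hhz])).div_const).cexp
    have hd : HasStrictDerivAt φ 1 (z : ℂ) := by
      have h0 : HasStrictDerivAt (fun w : ℂ => w - (z : ℂ)) 1 (z : ℂ) :=
        (hasStrictDerivAt_id (z : ℂ)).sub_const (z : ℂ)
      have h1 := h0.mul hua.hasStrictDerivAt
      refine h1.congr_deriv ?_
      simp [div_self hhz]
    have hpow : ∀ᶠ w in 𝓝 (z : ℂ), φ w ^ n * h z = f w := by
      filter_upwards [hfh, hha.continuousAt.eventually_ne hhz] with w hw hw0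
      rw [hw, hφ, mul_pow, ← Complex.exp_nat_mul, mul_div_cancel₀ _ (by exact_mod_cast hnpos.ne'),
        Complex.exp_log (div_ne_zero hw0 hhz), smul_eq_mul, mul_assoc, div_mul_cancel₀ _ hhz]
    obtain ⟨U, hU, hUstab⟩ := exists_nhds_smul_eq z
    have hU' : ∀ᶠ w in 𝓝 (z : ℂ), 0 < w.im ∧ ofComplex w ∈ U := by
      refine (eventually_im_pos z).and ?_
      have hcont : ContinuousAt ofComplex (z : ℂ) :=
        (contMDiffAt_ofComplex (n := 0) z.im_pos).continuousAt
      exact hcont.eventually (by rw [ofComplex_apply]; exact hU)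
    have himage : φ '' {w | φ w ^ n * h z = f w ∧ 0 < w.im ∧ ofComplex w ∈ U} ∈ 𝓝 (0 : ℂ) := by
      have h1 := Filter.image_mem_map (m := φ) (hpow.and hU')
      rw [hd.map_nhds_eq one_ne_zero] at h1
      simpa [hφ] using h1
    set ω := Complex.exp (2 * Real.pi * Complex.I / n) with hω
    have hω' : IsPrimitiveRoot ω n := Complex.isPrimitiveRoot_exp n hnpos.ne'
    obtain ⟨ε, hε, hball⟩ := Metric.mem_nhds_iff.1 himage
    set ε₀ : ℂ := ((ε / 2 : ℝ) : ℂ) with hε₀
    have hε0 : ε₀ ≠ 0 := by rw [hε₀]; exact_mod_cast (half_pos hε).ne'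
    have hmem : ∀ i : Fin n, ε₀ * ω ^ (i : ℕ) ∈ Metric.ball (0 : ℂ) ε := by
      intro i
      rw [mem_ball_zero_iff, norm_mul, norm_pow,
        Complex.norm_eq_one_of_pow_eq_one hω'.pow_eq_one hnpos.ne', one_pow, mul_one, hε₀,
        Complex.norm_real, Real.norm_of_nonneg (half_pos hε).le]
      linarith
    choose w hw hwφ using fun i => hball (hmem i)
    let p : Fin n → ℍ := fun i => ⟨w i, (hw i).2.1⟩
    have hpU : ∀ i, p i ∈ U := fun i => by
      have := (hw i).2.2
      rwa [ofComplex_apply_of_im_pos (hw i).2.1] at this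
    have hpj : ∀ i, jFun (p i) = c + ε₀ ^ n * h z := fun i => by
      have h1 := (hw i).1
      rw [hwφ i, mul_pow, ← pow_mul, mul_comm (i : ℕ) n, pow_mul, hω'.pow_eq_one, one_pow,
        mul_one] at h1
      rw [h1]
      simp [hf, jC, p, ofComplex_apply_of_im_pos (hw i).2.1]
    have hsub : ∀ i, ∃ k : Fin D.M, p i = (D.g ^ (k : ℕ)) • p ⟨0, hnpos⟩ := by
      intro i
      obtain ⟨γ, hγ⟩ := exists_smul_of_jFun_eq ((hpj ⟨0, hnpos⟩).trans (hpj i).symm)
      obtain ⟨k, hk, hk'⟩ := D.spec γ (hUstab γ _ (hpU _) (hγ ▸ hpU i))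
      refine ⟨⟨k, hk⟩, ?_⟩
      rcases hk' with rfl | rfl
      · exact hγ.symm
      · rw [← hγ, ModularGroup.SL_neg_smul]
    choose k hk using hsub
    have hinj : Function.Injective k := by
      intro i j hij
      have h1 : p i = p j := by rw [hk i, hk j, hij]
      have h2 : ε₀ * ω ^ (i : ℕ) = ε₀ * ω ^ (j : ℕ) := by
        rw [← hwφ i, ← hwφ j]
        exact congrArg (fun q : ℍ => φ (q : ℂ)) h1
      exact Fin.ext (hω'.pow_inj i.2 j.2 (mul_left_cancel₀ hε0 h2))
    simpa using Fintype.card_le_of_injective k hinj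
  exact_mod_cast congrArg (fun m : ℕ => ((m : ℤ) : WithTop ℤ))
    (le_antisymm hnM (Nat.le_of_dvd hnpos hdvd))

/-- The order of the stabiliser does not depend on the chosen generator. -/
theorem LocalMonodromy.M_unique {z : ℍ} (D D' : LocalMonodromy z) : D.M = D'.M := by
  have h := (order_jC_sub D).symm.trans (order_jC_sub D')
  exact_mod_cast h

theorem localMonodromy_M_eq_three {z : ℍ} (h : jFun z = 0) : (localMonodromy z).M = 3 := by
  obtain ⟨γ, rfl⟩ := exists_smul_of_jFun_eq (jFun_rho.trans h.symm)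
  exact LocalMonodromy.M_unique _ (monodromyRho.map γ)

theorem localMonodromy_M_eq_two {z : ℍ} (h : jFun z = 1728) : (localMonodromy z).M = 2 := by
  obtain ⟨γ, rfl⟩ := exists_smul_of_jFun_eq (jFun_I.trans h.symm)
  exact LocalMonodromy.M_unique _ (monodromyI.map γ)

theorem localMonodromy_M_eq_one {z : ℍ} (h0 : jFun z ≠ 0) (h1 : jFun z ≠ 1728) :
    (localMonodromy z).M = 1 := by
  rcases point_trichotomy z with ⟨γ, rfl⟩ | ⟨γ, rfl⟩ | ht
  · exact absurd ((FermatAgent.ModFun.jFun_smul γ _).trans jFun_I) h1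
  · exact absurd ((FermatAgent.ModFun.jFun_smul γ _).trans jFun_rho) h0
  · exact LocalMonodromy.M_unique _ (monodromyTrivial ht)

end FermatAgent.ModCurve.Points
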