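import Fermat.Agent.ModCurve.Points.CuspSheets
import Fermat.Agent.ModCurve.Fun.Degree
import Fermat.Agent.Curve.Basics.Degree
import Fermat.Agent.Curve.Basics.Value

/-!
# Points of `X₀(N)(ℂ)`: places of the function field and `Γ₀(N)`-orbits

`pointPlace N z` is the place under `z : ℍ`, `cuspPlace N h` the place under the cusp `h ∞`.
-/

set_option autoImplicit false

noncomputable section

open scoped MatrixGroups Manifold
open UpperHalfPlane hiding I
open Filter Topology CongruenceSubgroup AlgebraicCurve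

namespace FermatAgent.ModCurve.Points

open FermatAgent.ModFun (jFun jd dil jBar)
open FermatAgent.ModCurveGroup (Edge)

variable (N : ℕ) [NeZero N]

instance instIsFunctionField1FieldC : FermatAgent.Curve.IsFunctionField1 ℂ (FieldC N) :=
  ⟨⟨jBar ℂ N, FermatAgent.ModFun.transcendental_jBar ℂ N,
    FermatAgent.ModFun.finiteDimensional_adjoin_jBar ℂ N⟩⟩

theorem toField_jElt : toField N (jElt N) = jBar ℂ N :=
  Subtype.ext FermatAgent.ModFun.qLaurent_jFun

theorem jSubC_eq (c : ℂ) : jSubC N c = jBar ℂ N - algebraMap ℂ (FieldC N) c := by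
  show toField N (jElt N - algebraMap ℂ (regRing N) c) = _
  erw [map_sub (toField N)]
  rw [AlgHom.commutes, toField_jElt]

theorem invJ_eq : invJ N = (jBar ℂ N)⁻¹ := by rw [invJ, toField_jElt]

theorem transcendental_jSubC (c : ℂ) : Transcendental ℂ (jSubC N c) := by
  rw [jSubC_eq]
  exact FermatAgent.Curve.transcendental_sub_const (FermatAgent.ModFun.transcendental_jBar ℂ N) c

theorem card_edge : Fintype.card (Edge (Gamma0 N)) = (Gamma0 N).index := by
  rw [Subgroup.index, Nat.card_eq_fintype_card]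

theorem sum_ord_le_of_finrank {x : FieldC N} (hx : Transcendental ℂ x)
    (hdeg : Module.finrank (IntermediateField.adjoin ℂ {x}) (FieldC N) = (Gamma0 N).index)
    (s : Finset (Place ℂ (FieldC N))) (hs : ∀ P ∈ s, 0 < P.ord x) :
    ∑ P ∈ s, P.ord x ≤ Fintype.card (Edge (Gamma0 N)) := by
  have h := FermatAgent.Curve.sum_toNat_ord_le_finrank hx s hs
  rw [hdeg, ← card_edge] at h
  calc ∑ P ∈ s, P.ord x = ((∑ P ∈ s, (P.ord x).toNat : ℕ) : ℤ) := by
        push_cast
        exact Finset.sum_congr rfl fun P hP => by have := hs P hP; omega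
    _ ≤ _ := by exact_mod_cast h

/-! ### Points of the upper half plane -/

/-- The base coset. -/
abbrev baseCoset : Edge (Gamma0 N) := ((1 : SL(2, ℤ)) : Edge (Gamma0 N))

/-- The place of `ℂ(X₀(N))` under a point of `ℍ`. -/
def pointPlace (z : ℍ) : Place ℂ (FieldC N) := (affineSheets N z).place (baseCoset N)

/-- The order at `z` of the meromorphic function attached to `f`. -/
def ordAt (z : ℍ) (f : FieldC N) : ℤ :=
  (MeroGerm.valTarget (z : ℂ)).ordZ (pointHom N z 1 f)

/-- The order of the stabiliser of `z` in `Γ₀(N)` modulo `±1`. -/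
def ellIndex (z : ℍ) : ℕ := (affineSheets N z).step (baseCoset N)

theorem ellIndex_pos (z : ℍ) : 0 < ellIndex N z := (affineSheets N z).step_pos _

theorem ordAt_eq (z : ℍ) (f : FieldC N) :
    ordAt N z f = ellIndex N z * (pointPlace N z).ord f := by
  have h := (affineSheets N z).ordZ_ι (baseCoset N) f
  have e : (affineSheets N z).ι (baseCoset N) = pointHom N z 1 :=
    (sheet_mk N z (1 : SL(2, ℤ))).trans (by rw [inv_one])
  rw [e] at h
  exact h

omit [NeZero N] in
theorem exists_div_ne_zero {f : FieldC N} (hf : f ≠ 0) :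
    ∃ a b : regRing N, a ≠ 0 ∧ b ≠ 0 ∧ f = toField N a / toField N b := by
  obtain ⟨a, b, hb, h⟩ := exists_div N f
  exact ⟨a, b, fun ha => hf (by rw [h, ha, map_zero, zero_div]), hb, h⟩

omit [NeZero N] in
theorem v_germHom_smul (h : SL(2, ℤ)) (z : ℍ) (a : regRing N) :
    (MeroGerm.valTarget (z : ℂ)).v (germHom z h a) =
      (MeroGerm.valTarget ((h • z : ℍ) : ℂ)).v (germHom (h • z) 1 a) := by
  show MeroGerm.ord (germHom z h a) = MeroGerm.ord (germHom (h • z) 1 a)
  rw [germHom_apply, germHom_apply, MeroGerm.ord_mk, MeroGerm.ord_mk, ← moeb_coe,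
    ← meromorphicOrderAt_comp_of_deriv_ne_zero (analyticAt_moeb h z)
      (by rw [(hasDerivAt_moeb h z).deriv]; exact inv_ne_zero (pow_ne_zero _ (autFactor_ne_zero h z)))]
  apply meromorphicOrderAt_congr
  filter_upwards [nhdsWithin_le_nhds (eventually_im_pos z)] with w hw
  simp [evalC, ofComplex_moeb h hw]

omit [NeZero N] in
theorem v_pointHom_smul (h : SL(2, ℤ)) (z : ℍ) (f : FieldC N) :
    (MeroGerm.valTarget (z : ℂ)).v (pointHom N z h f) =
      (MeroGerm.valTarget ((h • z : ℍ) : ℂ)).v (pointHom N (h • z) 1 f) := by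
  obtain ⟨a, b, -, rfl⟩ := exists_div N f
  rw [map_div₀ (pointHom N z h), map_div₀ (pointHom N (h • z) 1), AddValuation.map_div,
    AddValuation.map_div, pointHom_toField,
    pointHom_toField, pointHom_toField, pointHom_toField, v_germHom_smul N h z a,
    v_germHom_smul N h z b]

theorem place_affineSheets (z : ℍ) (a : SL(2, ℤ)) :
    (affineSheets N z).place (a : Edge (Gamma0 N)) = pointPlace N (a⁻¹ • z) := by
  apply Place.ext
  ext f
  rw [SheetData.mem_place_iff, pointPlace, SheetData.mem_place_iff]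
  show 0 ≤ _ ↔ 0 ≤ _
  rw [show (affineSheets N z).ι (a : Edge (Gamma0 N)) = pointHom N z a⁻¹ from sheet_mk N z a,
    show (affineSheets N (a⁻¹ • z)).ι (baseCoset N) = pointHom N (a⁻¹ • z) 1⁻¹ from sheet_mk N _ _,
    inv_one, v_pointHom_smul]

theorem ord_jSubC_pointPlace (z : ℍ) :
    0 < (pointPlace N z).ord (jSubC N (jFun z)) := (affineSheets N z).ord_J_pos _

omit [NeZero N] in
theorem smul_base_eq_iff (g : SL(2, ℤ)) (x : Edge (Gamma0 N)) (i : ℕ) :
    (fun y : Edge (Gamma0 N) => g⁻¹ • y)^[i] x = ((g ^ i)⁻¹ : SL(2, ℤ)) • x := by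
  rw [smul_iterate, inv_pow]

theorem ellIndex_mul_ram (z : ℍ) :
    ellIndex N z * (affineSheets N z).ram (baseCoset N) = (localMonodromy z).M :=
  (affineSheets N z).step_mul_ram _

theorem ellIndex_dvd (z : ℍ) : ellIndex N z ∣ (localMonodromy z).M :=
  Dvd.intro _ (ellIndex_mul_ram N z)

theorem pow_mem_Gamma0_iff (z : ℍ) (i : ℕ) :
    (localMonodromy z).g ^ i ∈ Gamma0 N ↔ (affineSheets N z).ram (baseCoset N) ∣ i := by
  rw [← (affineSheets N z).iterate_eq_iff,
    show (affineSheets N z).π = fun y => (localMonodromy z).g⁻¹ • y from rfl,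
    smul_base_eq_iff, baseCoset, MulAction.Quotient.smul_coe, smul_eq_mul, mul_one,
    QuotientGroup.eq, inv_inv, mul_one]

/-- Every place at which `j` takes the value `c` is a point. -/
theorem exists_pointPlace_of_ord_pos {c : ℂ} {P : Place ℂ (FieldC N)}
    (hP : 0 < P.ord (jSubC N c)) : ∃ z, jFun z = c ∧ pointPlace N z = P := by
  obtain ⟨z, rfl⟩ := jFun_surjective c
  have hdeg : Module.finrank (IntermediateField.adjoin ℂ {jSubC N (jFun z)}) (FieldC N)
      = (Gamma0 N).index := by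
    rw [jSubC_eq, FermatAgent.Curve.adjoin_simple_sub_const]
    exact FermatAgent.ModFun.finrank_adjoin_jBar ℂ N
  obtain ⟨x, hx⟩ := (affineSheets N z).place_surjective
    (sum_ord_le_of_finrank N (transcendental_jSubC N _) hdeg) hP
  induction x using QuotientGroup.induction_on with | _ a => ?_
  exact ⟨a⁻¹ • z, FermatAgent.ModFun.jFun_smul _ _, by rw [← place_affineSheets]; exact hx⟩

/-! ### Cusps -/

/-- The place under the cusp `h ∞`. -/
def cuspPlace (h : SL(2, ℤ)) : Place ℂ (FieldC N) :=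
  (cuspSheets N).place ((h⁻¹ : SL(2, ℤ)) : Edge (Gamma0 N))

/-- The width of the cusp `h ∞`. -/
def cuspWidth (h : SL(2, ℤ)) : ℕ := (cuspSheets N).ram ((h⁻¹ : SL(2, ℤ)) : Edge (Gamma0 N))

/-- The order in `q^(1/N)` of `f(h τ)` at infinity. -/
def ordCusp (h : SL(2, ℤ)) (f : FieldC N) : ℤ :=
  (MeroGerm.valTarget (0 : ℂ)).ordZ (cuspHom N h f)

theorem cuspWidth_pos (h : SL(2, ℤ)) : 0 < cuspWidth N h := (cuspSheets N).ram_pos _

theorem cuspWidth_dvd (h : SL(2, ℤ)) : cuspWidth N h ∣ N :=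
  Dvd.intro_left _ ((cuspSheets N).step_mul_ram _)

theorem ordCusp_eq (h : SL(2, ℤ)) (f : FieldC N) :
    (cuspWidth N h : ℤ) * ordCusp N h f = N * (cuspPlace N h).ord f := by
  have h1 := (cuspSheets N).ordZ_ι ((h⁻¹ : SL(2, ℤ)) : Edge (Gamma0 N)) f
  rw [show (cuspSheets N).ι ((h⁻¹ : SL(2, ℤ)) : Edge (Gamma0 N)) = cuspHom N h⁻¹⁻¹ from
    cuspSheet_mk N _, inv_inv] at h1
  rw [ordCusp, h1]
  have h2 : ((cuspSheets N).step ((h⁻¹ : SL(2, ℤ)) : Edge (Gamma0 N)) : ℤ) * cuspWidth N h = N := by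
    exact_mod_cast (cuspSheets N).step_mul_ram ((h⁻¹ : SL(2, ℤ)) : Edge (Gamma0 N))
  conv_rhs => rw [← h2]
  show (cuspWidth N h : ℤ) * (_ * (cuspPlace N h).ord f) = _
  ring

theorem ord_invJ_cuspPlace (h : SL(2, ℤ)) :
    (cuspPlace N h).ord (invJ N) = cuspWidth N h := ((cuspSheets N).coe_ram _).symm

theorem ord_jBar_cuspPlace (h : SL(2, ℤ)) :
    (cuspPlace N h).ord (jBar ℂ N) = -(cuspWidth N h : ℤ) := by
  rw [← ord_invJ_cuspPlace, invJ_eq, Place.ord_inv, neg_neg]

theorem cusp_π_iterate (x : Edge (Gamma0 N)) (i : ℕ) :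
    (cuspSheets N).π^[i] x = ((ModularGroup.T ^ i)⁻¹ : SL(2, ℤ)) • x :=
  smul_base_eq_iff N ModularGroup.T x i

/-- The width is the least positive `i` with `h Tⁱ h⁻¹ ∈ Γ₀(N)`. -/
theorem conj_T_pow_mem_iff (h : SL(2, ℤ)) (i : ℕ) :
    h * ModularGroup.T ^ i * h⁻¹ ∈ Gamma0 N ↔ cuspWidth N h ∣ i := by
  rw [cuspWidth, ← (cuspSheets N).iterate_eq_iff, cusp_π_iterate, MulAction.Quotient.smul_coe,
    smul_eq_mul, QuotientGroup.eq]
  rw [show ((ModularGroup.T ^ i)⁻¹ * h⁻¹)⁻¹ * h⁻¹ = h * ModularGroup.T ^ i * h⁻¹ by group]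

theorem cuspPlace_eq_iff {h h' : SL(2, ℤ)} :
    cuspPlace N h = cuspPlace N h' ↔
      ∃ i : ℕ, ∃ γ ∈ Gamma0 N, h' = γ * h * ModularGroup.T ^ i := by
  unfold cuspPlace
  rw [(cuspSheets N).place_eq_iff]
  refine exists_congr fun i => ?_
  rw [cusp_π_iterate, MulAction.Quotient.smul_coe, smul_eq_mul, QuotientGroup.eq]
  constructor
  · intro hm
    refine ⟨(((ModularGroup.T ^ i)⁻¹ * h⁻¹)⁻¹ * h'⁻¹)⁻¹, inv_mem hm, ?_⟩
    group
  · rintro ⟨γ, hγ, rfl⟩
    rw [show ((ModularGroup.T ^ i)⁻¹ * h⁻¹)⁻¹ * (γ * h * ModularGroup.T ^ i)⁻¹ = γ⁻¹ by group]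
    exact inv_mem hγ

theorem exists_cuspPlace_of_ord_neg {P : Place ℂ (FieldC N)} (hP : P.ord (jBar ℂ N) < 0) :
    ∃ h, cuspPlace N h = P := by
  have hdeg : Module.finrank (IntermediateField.adjoin ℂ {invJ N}) (FieldC N)
      = (Gamma0 N).index := by
    rw [invJ_eq, FermatAgent.Curve.adjoin_simple_inv]
    exact FermatAgent.ModFun.finrank_adjoin_jBar ℂ N
  have htr : Transcendental ℂ (invJ N) := by
    rw [invJ_eq]
    exact fun halg => FermatAgent.ModFun.transcendental_jBar ℂ N (IsAlgebraic.inv_iff.1 halg)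
  have hP' : 0 < P.ord (invJ N) := by rw [invJ_eq, Place.ord_inv]; omega
  obtain ⟨x, hx⟩ := (cuspSheets N).place_surjective (sum_ord_le_of_finrank N htr hdeg) hP'
  induction x using QuotientGroup.induction_on with | _ a => ?_
  exact ⟨a⁻¹, by rw [cuspPlace, inv_inv]; exact hx⟩

theorem pointPlace_ne_cuspPlace (z : ℍ) (h : SL(2, ℤ)) : pointPlace N z ≠ cuspPlace N h := by
  intro he
  have h1 := ord_jSubC_pointPlace N z
  rw [he, jSubC_eq] at h1
  have h2 := ord_jBar_cuspPlace N h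
  have h3 := cuspWidth_pos N h
  set P := cuspPlace N h
  rcases eq_or_ne (algebraMap ℂ (FieldC N) (jFun z)) 0 with h0 | h0
  · rw [h0, sub_zero] at h1; omega
  · have hj : jBar ℂ N ≠ 0 := fun h4 => by simp [h4] at h2; omega
    have h4 := FermatAgent.Curve.ord_add_eq_left P (f := jBar ℂ N)
      (g := -algebraMap ℂ (FieldC N) (jFun z)) hj
      (Or.inr (by rw [FermatAgent.Curve.ord_neg, FermatAgent.Curve.ord_algebraMap_const]; omega))
    rw [← sub_eq_add_neg] at h4
    omega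

/-- Every place is a point or a cusp. -/
theorem exists_point_or_cusp (P : Place ℂ (FieldC N)) :
    (∃ z, pointPlace N z = P) ∨ ∃ h, cuspPlace N h = P := by
  rcases lt_or_ge (P.ord (jBar ℂ N)) 0 with hneg | hnn
  · exact Or.inr (exists_cuspPlace_of_ord_neg N hneg)
  · refine Or.inl ?_
    have hmem : jBar ℂ N ∈ P.toValuationSubring :=
      (FermatAgent.Curve.mem_iff_ord_nonneg' P).2 hnn
    have hne : jBar ℂ N - algebraMap ℂ (FieldC N) (FermatAgent.Curve.valueAt P (jBar ℂ N)) ≠ 0 :=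
      fun h0 => transcendental_jSubC N (FermatAgent.Curve.valueAt P (jBar ℂ N))
        (by rw [jSubC_eq, h0]; exact isAlgebraic_zero)
    have hpos : 0 < P.ord (jSubC N (FermatAgent.Curve.valueAt P (jBar ℂ N))) := by
      rw [jSubC_eq]
      exact (FermatAgent.Curve.valueAt_spec P hmem).resolve_left (sub_ne_zero.1 hne)
    obtain ⟨z, -, hz⟩ := exists_pointPlace_of_ord_pos N hpos
    exact ⟨z, hz⟩

end FermatAgent.ModCurve.Points
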