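import Fermat.Agent.ModCurve.Points.AffineSheets

/-!
# The sheets of `X₀(N) → X(1)` over the cusp
-/

set_option autoImplicit false

noncomputable section

open scoped MatrixGroups Manifold
open UpperHalfPlane hiding I
open Filter Topology CongruenceSubgroup Function

namespace FermatAgent.ModCurve.Points

open FermatAgent.ModFun (cuspRing jFun jd dil)
open FermatAgent.ModCurveGroup (Edge)

local notation "𝕢" => Periodic.qParam

theorem cuspFunction_apply_of_ne (f : ℍ → ℂ) {q : ℂ} (hq : q ≠ 0) :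
    cuspFunction 1 f q = f (ofComplex (Periodic.invQParam 1 q)) :=
  Periodic.cuspFunction_eq_of_nonzero _ _ hq

theorem eventually_invQParam_im_pos :
    ∀ᶠ q in 𝓝[≠] (0 : ℂ), q ≠ 0 ∧ 0 < (Periodic.invQParam 1 q).im := by
  have h := (Periodic.invQParam_tendsto (h := (1 : ℝ)) one_pos)
  rw [tendsto_comap_iff] at h
  filter_upwards [self_mem_nhdsWithin, h.eventually (eventually_gt_atTop (0 : ℝ))] with q hq hq'
  exact ⟨hq, hq'⟩

theorem cuspFunction_qParam {f : ℍ → ℂ} (hf : f ∈ cuspRing) (τ : ℍ) :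
    cuspFunction 1 f (𝕢 1 (τ : ℂ)) = f τ :=
  UpperHalfPlane.eq_cuspFunction τ one_ne_zero (FermatAgent.ModFun.periodic_iff.mpr hf.2.1)

theorem analyticAt_cuspFunction_discriminant :
    AnalyticAt ℂ (cuspFunction 1 ModularForm.discriminant) 0 :=
  FermatAgent.ModFun.analyticAt_cuspFunction_of_mem FermatAgent.ModFun.discriminant_mem_cuspRing
    ModularForm.discriminant_isZeroAtImInfty.isBoundedAtImInfty

/-- Functions of the cusp ring are meromorphic in `q` at `0`. -/
theorem meromorphicAt_cuspFunction {f : ℍ → ℂ} (hf : f ∈ cuspRing) :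
    MeromorphicAt (cuspFunction 1 f) 0 := by
  obtain ⟨n, hn⟩ := FermatAgent.ModFun.isTame_iff.mp hf.2.2
  have h1 := FermatAgent.ModFun.analyticAt_cuspFunction_of_mem
    (mul_mem hf (pow_mem FermatAgent.ModFun.discriminant_mem_cuspRing n)) hn
  refine (h1.meromorphicAt.div (analyticAt_cuspFunction_discriminant.meromorphicAt.pow n)).congr ?_
  filter_upwards [eventually_invQParam_im_pos] with q hq
  simp only [Pi.div_apply, Pi.pow_apply, cuspFunction_apply_of_ne _ hq.1, Pi.mul_apply,
    mul_div_cancel_right₀ _ (pow_ne_zero _ (ModularForm.discriminant_ne_zero _))]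

variable {N : ℕ} [NeZero N]

/-- A member of the regular ring at the cusp `h ∞`, in the parameter `τ` with period one. -/
def evalCusp (h : SL(2, ℤ)) (f : regRing N) : ℍ → ℂ := fun τ => evalH f (h • dil N τ)

theorem evalCusp_mem (h : SL(2, ℤ)) (f : regRing N) : evalCusp h f ∈ cuspRing :=
  FermatAgent.ModFun.mem_cuspRing_at_cusp (evalH_mem_levelRing f) h

/-- The germ in `q^(1/N)` at the cusp `h ∞`. -/
def cuspGermHom (h : SL(2, ℤ)) : regRing N →ₐ[ℂ] MeroGerm (0 : ℂ) where
  toFun f := MeroGerm.mk (cuspFunction 1 (evalCusp h f))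
    (meromorphicAt_cuspFunction (evalCusp_mem h f))
  map_one' := by
    rw [MeroGerm.one_eq, MeroGerm.mk_eq_mk]
    filter_upwards [eventually_invQParam_im_pos] with q hq
    rw [cuspFunction_apply_of_ne _ hq.1]
    rfl
  map_mul' f g := by
    rw [MeroGerm.mk_mul, MeroGerm.mk_eq_mk]
    filter_upwards [eventually_invQParam_im_pos] with q hq
    simp only [Pi.mul_apply, cuspFunction_apply_of_ne _ hq.1]
    rfl
  map_zero' := by
    rw [MeroGerm.zero_eq, MeroGerm.mk_eq_mk]
    filter_upwards [eventually_invQParam_im_pos] with q hq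
    rw [cuspFunction_apply_of_ne _ hq.1]
    rfl
  map_add' f g := by
    rw [MeroGerm.mk_add, MeroGerm.mk_eq_mk]
    filter_upwards [eventually_invQParam_im_pos] with q hq
    simp only [Pi.add_apply, cuspFunction_apply_of_ne _ hq.1]
    rfl
  commutes' c := by
    rw [MeroGerm.algebraMap_eq, MeroGerm.mk_eq_mk]
    filter_upwards [eventually_invQParam_im_pos] with q hq
    rw [cuspFunction_apply_of_ne _ hq.1]
    rfl

theorem cuspGermHom_apply (h : SL(2, ℤ)) (f : regRing N) :
    cuspGermHom h f = MeroGerm.mk (cuspFunction 1 (evalCusp h f))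
      (meromorphicAt_cuspFunction (evalCusp_mem h f)) := rfl

theorem evalCusp_eq_of_germ {h h' : SL(2, ℤ)} {f g : regRing N}
    (he : cuspGermHom h f = cuspGermHom h' g) :
    ∀ τ : ℍ, evalH f (h • τ) = evalH g (h' • τ) := by
  rw [cuspGermHom_apply, cuspGermHom_apply, MeroGerm.mk_eq_mk] at he
  have h1 : ∀ᶠ τ in atImInfty, evalCusp h f τ = evalCusp h' g τ := by
    have ht : Tendsto (fun τ : ℍ => 𝕢 1 (τ : ℂ)) atImInfty (𝓝[≠] 0) :=
      tendsto_nhdsWithin_iff.2 ⟨qParam_tendsto_atImInfty one_pos,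
        Eventually.of_forall fun τ => Complex.exp_ne_zero _⟩
    filter_upwards [ht.eventually he] with τ hτ
    rwa [cuspFunction_qParam (evalCusp_mem h f), cuspFunction_qParam (evalCusp_mem h' g)] at hτ
  obtain ⟨A, hA⟩ := (atImInfty_mem _).1 h1
  set B : ℝ := max A 1 with hB
  let τ₀ : ℍ := ⟨⟨0, B + 1⟩, by
    show 0 < B + 1
    linarith [le_max_right A 1]⟩
  set z : ℍ := dil N τ₀ with hz
  have hNpos : (0 : ℝ) < N := Nat.cast_pos.2 (NeZero.pos N)
  have hne : evalC h f =ᶠ[𝓝[≠] (z : ℂ)] evalC h' g := by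
    have hev : ∀ᶠ w in 𝓝 (z : ℂ), 0 < w.im ∧ (N : ℝ) * A < w.im := by
      refine (eventually_im_pos z).and
        ((Complex.continuous_im.tendsto _).eventually (eventually_gt_nhds ?_))
      show (N : ℝ) * A < (dil N τ₀).im
      rw [FermatAgent.ModFun.dil_im]
      refine mul_lt_mul_of_pos_left ?_ hNpos
      show A < B + 1
      linarith [le_max_left A 1]
    filter_upwards [nhdsWithin_le_nhds hev] with w hw
    let σ : ℍ := ⟨w / N, by rw [Complex.div_natCast_im]; exact div_pos hw.1 hNpos⟩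
    have hσ : dil N σ = ofComplex w := by
      rw [ofComplex_apply_of_im_pos hw.1]
      ext
      rw [FermatAgent.ModFun.coe_dil]
      show (N : ℂ) * (w / N) = w
      rw [mul_div_cancel₀ _ (NeZero.ne _)]
    have hσA : A ≤ σ.im := by
      show A ≤ (w / N).im
      rw [Complex.div_natCast_im, le_div_iff₀ hNpos]
      linarith [hw.2]
    have h3 := hA σ hσA
    simp only [Set.mem_ofPred_eq, evalCusp, hσ] at h3
    exact h3
  exact evalH_eq_of_germ hne

theorem cuspGermHom_injective (h : SL(2, ℤ)) :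
    Function.Injective (cuspGermHom (N := N) h) := by
  intro f g he
  refine evalH_injective (funext fun τ => ?_)
  have := evalCusp_eq_of_germ he (h⁻¹ • τ)
  rwa [smul_inv_smul] at this

variable (N)

/-- The embedding of the function field at the cusp `h ∞`. -/
def cuspHom (h : SL(2, ℤ)) : FieldC N →ₐ[ℂ] MeroGerm (0 : ℂ) :=
  extendHom (cuspGermHom h) (cuspGermHom_injective h)

theorem cuspHom_toField (h : SL(2, ℤ)) (f : regRing N) :
    cuspHom N h (toField N f) = cuspGermHom h f := extendHom_toField _ _ _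

theorem cuspHom_mul_left {γ : SL(2, ℤ)} (hγ : γ ∈ Gamma0 N) (h : SL(2, ℤ)) :
    cuspHom N (γ * h) = cuspHom N h := by
  refine algHom_ext fun f => ?_
  rw [cuspHom_toField, cuspHom_toField, cuspGermHom_apply, cuspGermHom_apply, MeroGerm.mk_eq_mk]
  have : evalCusp (γ * h) f = evalCusp h f :=
    funext fun τ => by simp only [evalCusp, mul_smul, evalH_smul f hγ]
  rw [this]

/-- The rotation `q ↦ e^(2πi/N) q`. -/
def cuspRot : ℂ := Complex.exp (2 * Real.pi * Complex.I / N)

theorem isPrimitiveRoot_cuspRot : IsPrimitiveRoot (cuspRot N) N :=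
  Complex.isPrimitiveRoot_exp N (NeZero.ne N)

omit [NeZero N] in
theorem deriv_mul_cuspRot : deriv (fun q : ℂ => cuspRot N * q) 0 = cuspRot N := by
  simp

/-- The monodromy at the cusp on germs. -/
def cuspσ : MeroGerm (0 : ℂ) →ₐ[ℂ] MeroGerm (0 : ℂ) :=
  MeroGerm.compHom (fun q => cuspRot N * q) (by fun_prop) (mul_zero _)
    (by rw [deriv_mul_cuspRot]; exact Complex.exp_ne_zero _)

omit [NeZero N] in
theorem cuspσ_lead (a : MeroGerm (0 : ℂ)) (n : ℤ) (ha : (MeroGerm.valTarget (0 : ℂ)).v a = n) :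
    (n : WithTop ℤ) < (MeroGerm.valTarget (0 : ℂ)).v (cuspσ N a - cuspRot N ^ n • a) := by
  have h := MeroGerm.compHom_lead (g := fun q => cuspRot N * q) (z := (0 : ℂ)) (by fun_prop)
    (mul_zero _) (by rw [deriv_mul_cuspRot]; exact Complex.exp_ne_zero _) a n ha
  simp only [deriv_mul_cuspRot] at h
  exact h

theorem dil_inv_natCast_vadd (τ : ℍ) :
    dil N ((1 / N : ℝ) +ᵥ τ) = ModularGroup.T • dil N τ := by
  rw [FermatAgent.ModFun.dil_vadd, modular_T_smul,
    mul_one_div_cancel (Nat.cast_ne_zero.2 (NeZero.ne N))]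

theorem cuspσ_comp_cuspHom (h : SL(2, ℤ)) :
    (cuspσ N).comp (cuspHom N h) = cuspHom N (h * ModularGroup.T) := by
  refine algHom_ext fun f => ?_
  rw [AlgHom.comp_apply, cuspHom_toField, cuspHom_toField, cuspGermHom_apply, cuspGermHom_apply,
    cuspσ, MeroGerm.compHom_mk, MeroGerm.mk_eq_mk]
  filter_upwards [eventually_invQParam_im_pos] with q hq
  set τ : ℍ := ⟨Periodic.invQParam 1 q, hq.2⟩ with hτ
  have hqτ : 𝕢 1 (τ : ℂ) = q := Periodic.qParam_right_inv one_ne_zero hq.1
  have hrot : cuspRot N * q = 𝕢 1 (((1 / N : ℝ) +ᵥ τ : ℍ) : ℂ) := by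
    rw [FermatAgent.ModFun.qParam_vadd, hqτ, cuspRot]
    congr 2
    push_cast
    ring
  rw [Function.comp_apply, hrot, cuspFunction_qParam (evalCusp_mem h f)]
  rw [← hqτ, cuspFunction_qParam (evalCusp_mem _ f)]
  simp only [evalCusp, dil_inv_natCast_vadd, mul_smul]

/-- The order of `j` at a cusp in `q^(1/N)`. -/
theorem meromorphicOrderAt_cuspFunction_jd :
    meromorphicOrderAt (cuspFunction 1 (jd N)) 0 = ((-(N : ℤ) : ℤ) : WithTop ℤ) := by
  have hmem : jd N ∈ cuspRing :=
    FermatAgent.ModFun.mem_cuspRing_comp_dil FermatAgent.ModFun.jFun_mem_cuspRing N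
  set G := cuspFunction 1 (jd N) with hG
  have hGm : MeromorphicAt G 0 := meromorphicAt_cuspFunction hmem
  have hpm : MeromorphicAt (fun q : ℂ => q ^ (N : ℕ)) 0 := by fun_prop
  have hlim : Tendsto (fun q => ‖(G * fun q : ℂ => q ^ (N : ℕ)) q‖) (𝓝[≠] 0) (𝓝 1) := by
    have h1 := FermatAgent.ModFun.norm_jFun_comp_tendsto (g := dil N)
      (Nat.cast_pos.2 (NeZero.pos N)) (FermatAgent.ModFun.dil_im N)
    have ht : Tendsto (fun q : ℂ => ofComplex (Periodic.invQParam 1 q)) (𝓝[≠] 0) atImInfty :=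
      tendsto_comap_im_ofComplex.comp (Periodic.invQParam_tendsto one_pos)
    refine (h1.comp ht).congr' ?_
    filter_upwards [eventually_invQParam_im_pos] with q hq
    simp only [Function.comp_apply, Pi.mul_apply, norm_mul, norm_pow, hG,
      cuspFunction_apply_of_ne _ hq.1]
    congr 1
    conv_rhs => rw [← Periodic.qParam_right_inv (h := (1 : ℝ)) one_ne_zero hq.1]
    rw [Periodic.norm_qParam, ← Real.exp_nat_mul, ofComplex_apply_of_im_pos hq.2]
    simp only [UpperHalfPlane.im]
    ring_nf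
  have hprod : meromorphicOrderAt (G * fun q : ℂ => q ^ (N : ℕ)) 0 = 0 := by
    have hm := hGm.mul hpm
    refine le_antisymm (le_of_not_gt fun hpos => ?_) (le_of_not_gt fun hneg => ?_)
    · have h0 := (tendsto_zero_of_meromorphicOrderAt_pos hpos).norm
      rw [norm_zero] at h0
      exact zero_ne_one (tendsto_nhds_unique h0 hlim)
    · exact not_tendsto_atTop_of_tendsto_nhds hlim
        (tendsto_norm_atTop_iff_cobounded.2 (tendsto_cobounded_of_meromorphicOrderAt_neg hneg))
  have hord : meromorphicOrderAt (fun q : ℂ => q ^ (N : ℕ)) 0 = ((N : ℤ) : WithTop ℤ) := by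
    have := meromorphicOrderAt_pow_id_sub_const (𝕜 := ℂ) (n := N) (x := (0 : ℂ))
    simp only [sub_zero] at this
    exact this
  rw [meromorphicOrderAt_mul hGm hpm, hord] at hprod
  obtain ⟨m, hm⟩ : ∃ m : ℤ, meromorphicOrderAt G 0 = m := by
    cases hc : meromorphicOrderAt G 0 with
    | top => rw [hc, top_add] at hprod; exact absurd hprod WithTop.top_ne_zero
    | coe m => exact ⟨m, rfl⟩
  rw [hm, ← WithTop.coe_add, WithTop.coe_eq_zero] at hprod
  rw [hm, WithTop.coe_inj]
  omega

/-- The element `1/j` of the function field. -/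
def invJ : FieldC N := (toField N (jElt N))⁻¹

theorem cuspHom_invJ (h : SL(2, ℤ)) :
    cuspHom N h (invJ N) = (MeroGerm.mk (cuspFunction 1 (jd N))
      (meromorphicAt_cuspFunction
        (FermatAgent.ModFun.mem_cuspRing_comp_dil FermatAgent.ModFun.jFun_mem_cuspRing N)))⁻¹ := by
  rw [invJ, map_inv₀, cuspHom_toField, cuspGermHom_apply]
  refine congrArg Inv.inv (MeroGerm.mk_eq_mk.2 ?_)
  have : evalCusp h (jElt N) = jd N := funext fun τ => by
    simp only [evalCusp, evalH_jElt, FermatAgent.ModFun.jFun_smul, jd, Function.comp_apply]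
  rw [this]

/-- The sheet over the cusp attached to a coset `h Γ₀(N)`. -/
def cuspSheet : Edge (Gamma0 N) → (FieldC N →ₐ[ℂ] MeroGerm (0 : ℂ)) :=
  fun x => Quotient.liftOn' x (fun h => cuspHom N h⁻¹) fun a b hab => by
    rw [QuotientGroup.leftRel_apply] at hab
    show cuspHom N a⁻¹ = cuspHom N b⁻¹
    rw [show a⁻¹ = (a⁻¹ * b) * b⁻¹ by group]
    exact cuspHom_mul_left N hab _

theorem cuspSheet_mk (h : SL(2, ℤ)) : cuspSheet N (h : Edge (Gamma0 N)) = cuspHom N h⁻¹ := rfl

theorem cuspSheet_injective : Function.Injective (cuspSheet N) := by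
  intro x y hxy
  induction x using QuotientGroup.induction_on with | _ a => ?_
  induction y using QuotientGroup.induction_on with | _ b => ?_
  rw [cuspSheet_mk, cuspSheet_mk] at hxy
  have h1 := congrArg (fun φ : FieldC N →ₐ[ℂ] MeroGerm (0 : ℂ) => φ (toField N (jNElt N))) hxy
  simp only [cuspHom_toField] at h1
  have h2 := evalCusp_eq_of_germ h1
  rw [QuotientGroup.eq]
  refine (FermatAgent.ModFun.jd_smul_eq_iff N _).1 fun τ => ?_
  have h3 := h2 (b • τ)
  rw [inv_smul_smul, smul_smul, evalH_jNElt] at h3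
  exact h3

/-- The sheets over the cusp with their monodromy. -/
def cuspSheets : SheetData (MeroGerm.valTarget (0 : ℂ)) (FieldC N) (Edge (Gamma0 N)) where
  ι := cuspSheet N
  inj := cuspSheet_injective N
  J := invJ N
  M := N
  M_pos := NeZero.pos N
  hJ x := by
    induction x using QuotientGroup.induction_on with | _ a => ?_
    rw [cuspSheet_mk, cuspHom_invJ, AddValuation.map_inv,
      show (MeroGerm.valTarget (0 : ℂ)).v = MeroGerm.ord from rfl, MeroGerm.ord_mk,
      meromorphicOrderAt_cuspFunction_jd, ← WithTop.LinearOrderedAddCommGroup.coe_neg, neg_neg]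
  common x y := by
    induction x using QuotientGroup.induction_on with | _ a => ?_
    induction y using QuotientGroup.induction_on with | _ b => ?_
    rw [cuspSheet_mk, cuspSheet_mk, cuspHom_invJ, cuspHom_invJ]
  σ := cuspσ N
  ζ := cuspRot N
  hζ := isPrimitiveRoot_cuspRot N
  lead := cuspσ_lead N
  π x := ModularGroup.T⁻¹ • x
  π_spec x := by
    induction x using QuotientGroup.induction_on with | _ a => ?_
    rw [MulAction.Quotient.smul_coe, smul_eq_mul, cuspSheet_mk, cuspSheet_mk, cuspσ_comp_cuspHom,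
      mul_inv_rev, inv_inv]

end FermatAgent.ModCurve.Points
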