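import Fermat.Agent.ModCurve.Points.Rigidity

/-!
# Places above a point of the `J`-line as orbits of the local monodromy

Abstract situation: finitely many embeddings `ι x : F → Λ` (one for each sheet) which agree on
`J`, and a rotation `σ` of `Λ` permuting the sheets. The places of `F` above the zero of `J` are
in bijection with the `σ`-orbits of sheets, and the ramification index is the length of the orbit.
-/

set_option autoImplicit false

noncomputable section

open AlgebraicCurve

namespace FermatAgent.ModCurve.Points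

variable {K F Λ : Type*} [Field K] [Field F] [Field Λ] [Algebra K F] [Algebra K Λ]

/-- Sheets above a point of the `J`-line together with the local monodromy. -/
structure SheetData (V : ValTarget K Λ) (F : Type*) [Field F] [Algebra K F] (X : Type*) where
  ι : X → (F →ₐ[K] Λ)
  inj : Function.Injective ι
  J : F
  M : ℕ
  M_pos : 0 < M
  hJ : ∀ x, V.v (ι x J) = (M : ℤ)
  common : ∀ x y, ι x J = ι y J
  σ : Λ →ₐ[K] Λ
  ζ : K
  hζ : IsPrimitiveRoot ζ M
  lead : ∀ (a : Λ) (n : ℤ), V.v a = n → (n : WithTop ℤ) < V.v (σ a - ζ ^ n • a)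
  π : X → X
  π_spec : ∀ x, σ.comp (ι x) = ι (π x)

namespace SheetData

variable {V : ValTarget K Λ} {X : Type*} (S : SheetData V F X)

theorem ζ_ne_zero : S.ζ ≠ 0 := S.hζ.ne_zero S.M_pos.ne'

theorem v_σ (a : Λ) : V.v (S.σ a) = V.v a := by
  rcases eq_or_ne a 0 with rfl | ha
  · simp
  have h := S.lead a _ (V.coe_ordZ ha).symm
  have h2 : V.v (S.ζ ^ V.ordZ a • a) = V.v a := V.v_smul (zpow_ne_zero _ S.ζ_ne_zero) a
  rw [← h2]
  apply AddValuation.map_eq_of_lt_sub
  rwa [h2, ← V.coe_ordZ ha]

theorem ι_π_iterate (i : ℕ) (x : X) (f : F) : S.ι (S.π^[i] x) f = (⇑S.σ)^[i] (S.ι x f) := by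
  induction i with
  | zero => simp
  | succ i ih =>
    rw [Function.iterate_succ_apply', Function.iterate_succ_apply', ← S.π_spec,
      AlgHom.comp_apply, ih]

theorem v_iterate (i : ℕ) (a : Λ) : V.v ((⇑S.σ)^[i] a) = V.v a := by
  induction i with
  | zero => simp
  | succ i ih => rw [Function.iterate_succ_apply', S.v_σ, ih]

theorem lead_iterate (i : ℕ) {a : Λ} {n : ℤ} (ha : V.v a = n) :
    (n : WithTop ℤ) < V.v ((⇑S.σ)^[i] a - (S.ζ ^ n) ^ i • a) := by
  induction i with
  | zero => simp
  | succ i ih =>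
    have heq : (⇑S.σ)^[i + 1] a - (S.ζ ^ n) ^ (i + 1) • a =
        S.σ ((⇑S.σ)^[i] a - (S.ζ ^ n) ^ i • a) + (S.ζ ^ n) ^ i • (S.σ a - S.ζ ^ n • a) := by
      rw [Function.iterate_succ_apply', map_sub, map_smul, smul_sub, smul_smul, ← pow_succ]
      abel
    rw [heq]
    refine V.v.map_lt_add ?_ ?_
    · rwa [S.v_σ]
    · rw [V.v_smul (pow_ne_zero _ (zpow_ne_zero _ S.ζ_ne_zero))]
      exact S.lead a n ha

theorem π_injective : Function.Injective S.π := by
  intro x y h
  apply S.inj
  ext f
  have h2 := congrArg (fun z => S.ι z f) h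
  simp only [← S.π_spec, AlgHom.comp_apply] at h2
  exact S.σ.toRingHom.injective h2

theorem nontriv (x : X) : Nontriv V (S.ι x) := by
  refine ⟨S.J, fun h => ?_, ?_⟩
  · have h2 := S.hJ x
    rw [h] at h2
    simp at h2
  · rw [V.ordZ_eq (S.hJ x)]
    have := S.M_pos
    omega

/-- The place under a sheet. -/
def place (x : X) : Place K F := placeOfVal (S.nontriv x)

/-- The index of the value group of a sheet. -/
def step (x : X) : ℕ := valStep (S.nontriv x)

theorem ordZ_ι (x : X) (f : F) : V.ordZ (S.ι x f) = S.step x * (S.place x).ord f :=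
  ordZ_eq_ord _ _

theorem step_pos (x : X) : 0 < S.step x := valStep_pos _

theorem M_eq (x : X) : (S.M : ℤ) = S.step x * (S.place x).ord S.J := by
  rw [← ordZ_ι, V.ordZ_eq (S.hJ x)]

theorem ord_J_pos (x : X) : 0 < (S.place x).ord S.J := by
  by_contra h
  push Not at h
  have := S.M_eq x
  have := S.M_pos
  have : (S.step x : ℤ) * (S.place x).ord S.J ≤ 0 :=
    mul_nonpos_of_nonneg_of_nonpos (by omega) h
  omega

/-- The ramification index of the place under a sheet. -/
def ram (x : X) : ℕ := ((S.place x).ord S.J).toNat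

theorem coe_ram (x : X) : (S.ram x : ℤ) = (S.place x).ord S.J :=
  Int.toNat_of_nonneg (S.ord_J_pos x).le

theorem ram_pos (x : X) : 0 < S.ram x := by
  have := S.coe_ram x; have := S.ord_J_pos x; omega

theorem step_mul_ram (x : X) : S.step x * S.ram x = S.M := by
  have h := S.M_eq x
  rw [← S.coe_ram] at h
  exact_mod_cast h.symm

theorem exists_uniformizer (x : X) :
    ∃ t : F, V.v (S.ι x t) = (S.step x : ℤ) := by
  obtain ⟨t, ht, h⟩ := exists_valStep (S.nontriv x)
  exact ⟨t, by rw [← V.coe_ordZ (map_ne_zero_of_ne ht), h]; rfl⟩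

variable [CharZero K]

omit [CharZero K] in
theorem primitive_pow_step (x : X) : IsPrimitiveRoot (S.ζ ^ S.step x) (S.ram x) :=
  S.hζ.pow S.M_pos (S.step_mul_ram x).symm

theorem iterate_ram (x : X) : S.π^[S.ram x] x = x := by
  apply S.inj
  obtain ⟨t, ht⟩ := S.exists_uniformizer x
  refine algHom_eq_of_leading (V := V) _ _ (fun f => ?_) (t := t) (S.step_pos x) ?_ (fun f => ?_) ?_
    (s := S.J) (S.common _ _) ?_
  · rw [S.ι_π_iterate, S.v_iterate]
  · rw [S.ι_π_iterate, S.v_iterate, ht]
  · rw [S.ι_π_iterate, ValTarget.ordZ, S.v_iterate]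
    exact valStep_dvd (S.nontriv x) f
  · rw [S.ι_π_iterate]
    have h := S.lead_iterate (S.ram x) ht
    rwa [zpow_natCast, (S.primitive_pow_step x).pow_eq_one, one_smul] at h
  · rw [V.ordZ_eq (S.hJ _)]
    have := S.M_pos
    omega

omit [CharZero K] in
theorem dvd_of_iterate_eq {x : X} {i : ℕ} (h : S.π^[i] x = x) : S.ram x ∣ i := by
  obtain ⟨t, ht⟩ := S.exists_uniformizer x
  have hl := S.lead_iterate i ht
  rw [← S.ι_π_iterate, h, zpow_natCast] at hl
  apply (S.primitive_pow_step x).dvd_of_pow_eq_one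
  by_contra hne
  have heq : S.ι x t - ((S.ζ ^ S.step x) ^ i) • S.ι x t =
      (1 - (S.ζ ^ S.step x) ^ i) • S.ι x t := by rw [sub_smul, one_smul]
  rw [heq, V.v_smul (sub_ne_zero.2 (Ne.symm hne)), ht] at hl
  exact lt_irrefl _ hl

theorem iterate_eq_iff {x : X} {i : ℕ} : S.π^[i] x = x ↔ S.ram x ∣ i := by
  refine ⟨S.dvd_of_iterate_eq, ?_⟩
  rintro ⟨q, rfl⟩
  induction q with
  | zero => simp
  | succ q ih => rw [Nat.mul_succ, Function.iterate_add_apply, S.iterate_ram, ih]

omit [CharZero K] in
theorem mem_place_iff (x : X) {f : F} :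
    f ∈ (S.place x).toValuationSubring ↔ 0 ≤ V.v (S.ι x f) := Iff.rfl

omit [CharZero K] in
theorem place_iterate (i : ℕ) (x : X) : S.place (S.π^[i] x) = S.place x := by
  apply Place.ext
  ext f
  rw [S.mem_place_iff, S.mem_place_iff, S.ι_π_iterate, S.v_iterate]

omit [CharZero K] in
theorem step_eq_of_place_eq {x y : X} (h : S.place x = S.place y) : S.step x = S.step y := by
  have h1 := S.step_mul_ram x
  have h2 := S.step_mul_ram y
  have hr : S.ram x = S.ram y := by unfold ram; rw [h]
  rw [hr, ← h2] at h1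
  exact Nat.eq_of_mul_eq_mul_right (S.ram_pos y) h1

omit [CharZero K] in
theorem ordZ_eq_of_place_eq {x y : X} (h : S.place x = S.place y) (f : F) :
    V.ordZ (S.ι x f) = V.ordZ (S.ι y f) := by
  rw [S.ordZ_ι, S.ordZ_ι, S.step_eq_of_place_eq h, h]

omit [CharZero K] in
theorem v_eq_of_place_eq {x y : X} (h : S.place x = S.place y) (f : F) :
    V.v (S.ι x f) = V.v (S.ι y f) := by
  rcases eq_or_ne f 0 with rfl | hf
  · simp
  · rw [← V.coe_ordZ (map_ne_zero_of_ne hf), ← V.coe_ordZ (map_ne_zero_of_ne hf),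
      S.ordZ_eq_of_place_eq h]

theorem exists_iterate_of_place_eq {x y : X} (h : S.place x = S.place y) :
    ∃ i < S.ram x, S.π^[i] x = y := by
  obtain ⟨t, ht⟩ := S.exists_uniformizer x
  have ht' : V.v (S.ι y t) = (S.step x : ℤ) := by rw [← S.v_eq_of_place_eq h, ht]
  have hax : S.ι x t ≠ 0 := V.ne_zero_of_v_eq ht
  have hay : S.ι y t ≠ 0 := V.ne_zero_of_v_eq ht'
  set m := S.ram x with hm
  have hmk := S.step_mul_ram x
  set w := S.J / t ^ m with hw
  have hvw : ∀ z, V.v (S.ι z t) = (S.step x : ℤ) → V.v (S.ι z w) = 0 := by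
    intro z hz
    rw [hw, map_div₀, map_pow, AddValuation.map_div, AddValuation.map_pow, hz, S.hJ,
      ← WithTop.coe_nsmul, ← WithTop.LinearOrderedAddCommGroup.coe_sub, nsmul_eq_mul]
    have h' : (S.M : ℤ) - (m : ℤ) * (S.step x : ℤ) = 0 := by
      rw [← hmk]; push_cast; ring
    rw [h', WithTop.coe_zero]
  have hvx := hvw x ht
  have hvy := hvw y ht'
  obtain ⟨c, hc⟩ := V.exists_residue (S.ι x w) hvx.ge
  have hc' : 0 < V.v (S.ι y w - algebraMap K Λ c) := by
    have h1 := S.v_eq_of_place_eq h (w - algebraMap K F c)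
    simp only [map_sub, AlgHom.commutes] at h1
    rwa [← h1]
  have hwx : S.ι x w ≠ 0 := fun h0 => by simp [h0] at hvx
  have hwy : S.ι y w ≠ 0 := fun h0 => by simp [h0] at hvy
  set r := S.ι y t / S.ι x t with hr
  have hvr : V.v r = 0 := by
    rw [hr, AddValuation.map_div, ht, ht', ← WithTop.LinearOrderedAddCommGroup.coe_sub, sub_self,
      WithTop.coe_zero]
  obtain ⟨d, hd⟩ := V.exists_residue r hvr.ge
  have hJw : r ^ m = S.ι x w / S.ι y w := by
    rw [hr, div_pow, eq_div_iff hwy, div_mul_eq_mul_div, div_eq_iff (pow_ne_zero _ hax)]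
    have hJ : t ^ m * w = S.J := by
      rw [hw]
      have : t ≠ 0 := fun h0 => hax (by simp [h0])
      field_simp
    have h1 := S.common y x
    rw [← hJ, map_mul, map_mul, map_pow, map_pow] at h1
    rw [h1, mul_comm]
  have hdm : d ^ m = 1 := by
    refine V.eq_of_residue (a := r ^ m) ?_ ?_
    · have hstep : ∀ n : ℕ, 0 < V.v (r ^ n - algebraMap K Λ (d ^ n)) := by
        intro n
        induction n with
        | zero => simp
        | succ n ih =>
          have e : r ^ (n + 1) - algebraMap K Λ (d ^ (n + 1)) =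
              (r ^ n - algebraMap K Λ (d ^ n)) * r +
                algebraMap K Λ (d ^ n) * (r - algebraMap K Λ d) := by
            rw [pow_succ d n, map_mul]; ring
          rw [e]
          refine V.v.map_lt_add ?_ ?_
          · rwa [V.v.map_mul, hvr, add_zero]
          · rw [V.v.map_mul]
            exact hd.trans_le (le_add_of_nonneg_left (V.v_const_nonneg _))
      exact hstep m
    · rw [map_one, hJw, div_sub_one hwy, AddValuation.map_div, hvy, sub_zero]
      have hsub := (lt_min hc hc').trans_le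
        (V.v.map_sub (S.ι x w - algebraMap K Λ c) (S.ι y w - algebraMap K Λ c))
      rwa [sub_sub_sub_cancel_right] at hsub
  have : NeZero m := ⟨(S.ram_pos x).ne'⟩
  obtain ⟨i, hi, hid⟩ := (S.primitive_pow_step x).eq_pow_of_pow_eq_one hdm
  refine ⟨i, hi, S.inj ?_⟩
  refine algHom_eq_of_leading (V := V) _ _ (fun f => ?_) (t := t) (S.step_pos x) ?_ (fun f => ?_) ?_
    (s := S.J) (S.common _ _) ?_
  · rw [S.ι_π_iterate, S.v_iterate, S.v_eq_of_place_eq h]
  · rw [S.ι_π_iterate, S.v_iterate, ht]
  · rw [S.ι_π_iterate, ValTarget.ordZ, S.v_iterate]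
    exact valStep_dvd (S.nontriv x) f
  · rw [S.ι_π_iterate]
    have h1 := S.lead_iterate i ht
    rw [zpow_natCast, hid] at h1
    have h2 : ((S.step x : ℤ) : WithTop ℤ) < V.v (d • S.ι x t - S.ι y t) := by
      have e : d • S.ι x t - S.ι y t = -((r - algebraMap K Λ d) * S.ι x t) := by
        rw [Algebra.smul_def, hr]; field_simp; ring
      rw [e, AddValuation.map_neg, V.v.map_mul, ht]
      have hlt := WithTop.add_lt_add_right
        (WithTop.coe_ne_top (a := (S.step x : ℤ))) hd
      rwa [zero_add] at hlt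
    have h3 := V.v.map_lt_add h1 h2
    rwa [sub_add_sub_cancel] at h3
  · rw [V.ordZ_eq (S.hJ _)]
    have := S.M_pos
    omega

theorem place_eq_iff {x y : X} : S.place x = S.place y ↔ ∃ i, S.π^[i] x = y := by
  refine ⟨fun h => (S.exists_iterate_of_place_eq h).imp fun i hi => hi.2, ?_⟩
  rintro ⟨i, rfl⟩
  exact (S.place_iterate i x).symm

theorem card_fibre [Fintype X] [DecidableEq (Place K F)] (x : X) :
    (Finset.univ.filter fun y => S.place y = S.place x).card = S.ram x := by
  classical
  have heq : (Finset.univ.filter fun y => S.place y = S.place x) =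
      (Finset.range (S.ram x)).image fun i => S.π^[i] x := by
    ext y
    simp only [Finset.mem_filter, Finset.mem_univ, true_and, Finset.mem_image, Finset.mem_range]
    refine ⟨fun h => S.exists_iterate_of_place_eq h.symm, ?_⟩
    rintro ⟨i, -, rfl⟩
    exact S.place_iterate i x
  rw [heq, Finset.card_image_of_injOn, Finset.card_range]
  intro i hi j hj hij
  simp only [Finset.coe_range, Set.mem_Iio] at hi hj
  have key : ∀ i q : ℕ, i + q < S.ram x → S.π^[i] x = S.π^[i + q] x → q = 0 := by
    intro i q hlt he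
    rw [Function.iterate_add_apply] at he
    exact Nat.eq_zero_of_dvd_of_lt (S.dvd_of_iterate_eq ((S.π_injective.iterate i he).symm))
      (by omega)
  simp only at hij
  rcases le_total i j with hle | hle
  · obtain ⟨q, rfl⟩ := Nat.exists_eq_add_of_le hle
    have := key i q hj hij
    omega
  · obtain ⟨q, rfl⟩ := Nat.exists_eq_add_of_le hle
    have := key j q hi hij.symm
    omega

/-- The finite set of places under the sheets. -/
def places [Fintype X] : Finset (Place K F) := by
  classical exact Finset.univ.image S.place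

omit [CharZero K] in
theorem mem_places [Fintype X] {P : Place K F} : P ∈ S.places ↔ ∃ x, S.place x = P := by
  classical simp [places]

theorem sum_ord_places [Fintype X] :
    ∑ P ∈ S.places, P.ord S.J = Fintype.card X := by
  classical
  have h : (Fintype.card X : ℤ) =
      ∑ P ∈ S.places, ((Finset.univ.filter fun y => S.place y = P).card : ℤ) := by
    rw [← Finset.card_univ]
    exact_mod_cast Finset.card_eq_sum_card_fiberwise (f := S.place) (t := S.places)
      fun x _ => S.mem_places.2 ⟨x, rfl⟩
  rw [h]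
  refine Finset.sum_congr rfl fun P hP => ?_
  obtain ⟨x, rfl⟩ := S.mem_places.1 hP
  rw [S.card_fibre x, S.coe_ram]

/-- If no finite set of zeros of `J` has total multiplicity exceeding the number of sheets then
every zero of `J` lies under a sheet. -/
theorem place_surjective [Fintype X]
    (hn : ∀ s : Finset (Place K F), (∀ P ∈ s, 0 < P.ord S.J) →
      ∑ P ∈ s, P.ord S.J ≤ Fintype.card X)
    {P : Place K F} (hP : 0 < P.ord S.J) : ∃ x, S.place x = P := by
  classical
  by_contra hne
  have hnot : P ∉ S.places := fun h => hne (S.mem_places.1 h)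
  have := hn (insert P S.places) (by
    intro Q hQ
    rcases Finset.mem_insert.1 hQ with rfl | hQ
    · exact hP
    · obtain ⟨x, rfl⟩ := S.mem_places.1 hQ; exact S.ord_J_pos x)
  rw [Finset.sum_insert hnot, S.sum_ord_places] at this
  omega

/-- The number of distinct places under the sheets equals the number of orbits. -/
theorem sum_ord_sub_one [Fintype X] :
    ∑ P ∈ S.places, (P.ord S.J - 1) = Fintype.card X - (S.places.card : ℤ) := by
  rw [Finset.sum_sub_distrib, S.sum_ord_places]; simp

end SheetData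

end FermatAgent.ModCurve.Points
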