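import Fermat.Agent.ModCurve.Points.Invariance
import Fermat.Agent.ModCurve.Points.Orbits
import Fermat.Agent.ModCurve.Points.JLine
import Fermat.Agent.ModCurve.Group.Dessin

/-!
# The sheets of `X₀(N) → X(1)` over a point of the upper half plane
-/

set_option autoImplicit false

noncomputable section

open scoped MatrixGroups Manifold
open UpperHalfPlane hiding I
open Filter Topology CongruenceSubgroup

namespace FermatAgent.ModCurve.Points

open FermatAgent.ModFun (jFun jd)
open FermatAgent.ModCurveGroup (Edge)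

variable {N : ℕ}

/-- A member of the regular ring transformed by `h`, as a function on `ℂ`. -/
def evalC (h : SL(2, ℤ)) (f : regRing N) : ℂ → ℂ := fun w => evalH f (h • ofComplex w)

theorem evalC_coe (h : SL(2, ℤ)) (f : regRing N) (z : ℍ) : evalC h f z = evalH f (h • z) := by
  simp [evalC]

theorem analyticAt_evalC (h : SL(2, ℤ)) (f : regRing N) (z : ℍ) :
    AnalyticAt ℂ (evalC h f) z :=
  (UpperHalfPlane.mdifferentiable_iff.mp
    (FermatAgent.ModFun.mdiff_comp_smul (evalH_mdiff f) h)).analyticAt
    (isOpen_upperHalfPlaneSet.mem_nhds z.im_pos)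

theorem ofComplex_moeb (g : SL(2, ℤ)) {w : ℂ} (hw : 0 < w.im) :
    ofComplex (moeb g w) = g • ofComplex w := by
  have h := moeb_coe g ⟨w, hw⟩
  rw [ofComplex_apply_of_im_pos hw]
  exact (congrArg ofComplex h).trans (ofComplex_apply _)

theorem evalH_eq_of_germ {h h' : SL(2, ℤ)} {f g : regRing N} {z : ℍ}
    (he : evalC h f =ᶠ[𝓝[≠] (z : ℂ)] evalC h' g) :
    ∀ τ : ℍ, evalH f (h • τ) = evalH g (h' • τ) := by
  have h1 : evalC h f =ᶠ[𝓝 (z : ℂ)] evalC h' g :=
    ((analyticAt_evalC h f z).continuousAt.eventuallyEq_nhds_iff_eventuallyEq_nhdsNE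
      (analyticAt_evalC h' g z).continuousAt).1 he
  have han : ∀ (u : SL(2, ℤ)) (v : regRing N),
      AnalyticOnNhd ℂ (evalC u v) UpperHalfPlane.upperHalfPlaneSet :=
    fun u v w hw => analyticAt_evalC u v ⟨w, hw⟩
  have h2 := (han h f).eqOn_of_preconnected_of_eventuallyEq (han h' g)
    ((convex_halfSpace_im_gt 0).isPreconnected) z.im_pos h1
  intro τ
  rw [← evalC_coe, ← evalC_coe]
  exact h2 τ.im_pos

/-- The germ at `z` of a member of the regular ring transformed by `h`. -/
def germHom (z : ℍ) (h : SL(2, ℤ)) : regRing N →ₐ[ℂ] MeroGerm (z : ℂ) where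
  toFun f := MeroGerm.mk (evalC h f) (analyticAt_evalC h f z).meromorphicAt
  map_one' := rfl
  map_mul' _ _ := rfl
  map_zero' := rfl
  map_add' _ _ := rfl
  commutes' _ := rfl

theorem germHom_apply (z : ℍ) (h : SL(2, ℤ)) (f : regRing N) :
    germHom z h f = MeroGerm.mk (evalC h f) (analyticAt_evalC h f z).meromorphicAt := rfl

theorem germHom_injective (z : ℍ) (h : SL(2, ℤ)) :
    Function.Injective (germHom (N := N) z h) := by
  intro f g he
  rw [germHom_apply, germHom_apply, MeroGerm.mk_eq_mk] at he
  refine evalH_injective (funext fun τ => ?_)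
  have := evalH_eq_of_germ he (h⁻¹ • τ)
  rwa [smul_inv_smul] at this

/-- The embedding of the function field given by `h` at `z`. -/
def pointHom (N : ℕ) (z : ℍ) (h : SL(2, ℤ)) : FieldC N →ₐ[ℂ] MeroGerm (z : ℂ) :=
  extendHom (germHom z h) (germHom_injective z h)

theorem pointHom_toField (z : ℍ) (h : SL(2, ℤ)) (f : regRing N) :
    pointHom N z h (toField N f) = germHom z h f := extendHom_toField _ _ _

theorem pointHom_mul_left {z : ℍ} {γ : SL(2, ℤ)} (hγ : γ ∈ Gamma0 N) (h : SL(2, ℤ)) :
    pointHom N z (γ * h) = pointHom N z h := by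
  refine algHom_ext fun f => ?_
  rw [pointHom_toField, pointHom_toField, germHom_apply, germHom_apply, MeroGerm.mk_eq_mk]
  refine Eventually.of_forall fun w => ?_
  simp only [evalC, mul_smul, evalH_smul f hγ]

theorem σ_comp_pointHom {z : ℍ} (D : LocalMonodromy z) (h : SL(2, ℤ)) :
    D.σ.comp (pointHom N z h) = pointHom N z (h * D.g) := by
  refine algHom_ext fun f => ?_
  rw [AlgHom.comp_apply, pointHom_toField, pointHom_toField, germHom_apply, germHom_apply,
    LocalMonodromy.σ, MeroGerm.compHom_mk, MeroGerm.mk_eq_mk]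
  filter_upwards [nhdsWithin_le_nhds (eventually_im_pos z)] with w hw
  simp only [Function.comp_apply, evalC, mul_smul, ofComplex_moeb D.g hw]

variable (N)

/-- The element `j - c` of the function field. -/
def jSubC (c : ℂ) : FieldC N := toField N (jElt N - algebraMap ℂ (regRing N) c)

theorem pointHom_jSubC (z : ℍ) (h : SL(2, ℤ)) (c : ℂ) :
    pointHom N z h (jSubC N c) =
      MeroGerm.mk (fun w => jC w - c) (meromorphicAt_jC_sub z c) := by
  rw [jSubC, pointHom_toField, germHom_apply, MeroGerm.mk_eq_mk]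
  refine Eventually.of_forall fun w => ?_
  show evalH (jElt N) (h • ofComplex w) - c = jC w - c
  rw [evalH_jElt, FermatAgent.ModFun.jFun_smul, jC]
  rfl

variable [NeZero N]

/-- The sheet at `z` attached to a coset `h Γ₀(N)`: `f ↦ f(h⁻¹ τ)`. -/
def sheet (z : ℍ) : Edge (Gamma0 N) → (FieldC N →ₐ[ℂ] MeroGerm (z : ℂ)) :=
  fun x => Quotient.liftOn' x (fun h => pointHom N z h⁻¹) fun a b hab => by
    rw [QuotientGroup.leftRel_apply] at hab
    show pointHom N z a⁻¹ = pointHom N z b⁻¹
    rw [show a⁻¹ = (a⁻¹ * b) * b⁻¹ by group]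
    exact pointHom_mul_left hab _

omit [NeZero N] in
theorem sheet_mk (z : ℍ) (h : SL(2, ℤ)) :
    sheet N z (h : Edge (Gamma0 N)) = pointHom N z h⁻¹ := rfl

theorem sheet_injective (z : ℍ) : Function.Injective (sheet N z) := by
  intro x y hxy
  induction x using QuotientGroup.induction_on with | _ a => ?_
  induction y using QuotientGroup.induction_on with | _ b => ?_
  rw [sheet_mk, sheet_mk] at hxy
  have h1 := congrArg (fun φ : FieldC N →ₐ[ℂ] MeroGerm (z : ℂ) => φ (toField N (jNElt N))) hxy
  simp only [pointHom_toField, germHom_apply, MeroGerm.mk_eq_mk] at h1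
  have h2 := evalH_eq_of_germ h1
  rw [QuotientGroup.eq]
  refine (FermatAgent.ModFun.jd_smul_eq_iff N _).1 fun τ => ?_
  have h3 := h2 (b • τ)
  rw [inv_smul_smul, smul_smul, evalH_jNElt] at h3
  exact h3

/-- The sheets over `z` with their local monodromy. -/
def affineSheets (z : ℍ) :
    SheetData (MeroGerm.valTarget (z : ℂ)) (FieldC N) (Edge (Gamma0 N)) where
  ι := sheet N z
  inj := sheet_injective N z
  J := jSubC N (jFun z)
  M := (localMonodromy z).M
  M_pos := (localMonodromy z).M_pos
  hJ x := by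
    induction x using QuotientGroup.induction_on with | _ a => ?_
    rw [sheet_mk, pointHom_jSubC]
    exact (MeroGerm.ord_mk _ _).trans (order_jC_sub _)
  common x y := by
    induction x using QuotientGroup.induction_on with | _ a => ?_
    induction y using QuotientGroup.induction_on with | _ b => ?_
    rw [sheet_mk, sheet_mk, pointHom_jSubC, pointHom_jSubC]
  σ := (localMonodromy z).σ
  ζ := (localMonodromy z).rot
  hζ := (localMonodromy z).isPrimitiveRoot_rot
  lead := (localMonodromy z).σ_lead
  π x := (localMonodromy z).g⁻¹ • x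
  π_spec x := by
    induction x using QuotientGroup.induction_on with | _ a => ?_
    rw [MulAction.Quotient.smul_coe, smul_eq_mul, sheet_mk, sheet_mk, σ_comp_pointHom,
      mul_inv_rev, inv_inv]

end FermatAgent.ModCurve.Points
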