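import Fermat.Prelude.Def_ModularCurve_LaurentCoeff
import Fermat.Prelude.Def_ModularCurve_X0
import Fermat.Prelude.Thm_ModularCurve_coeffMap_qExpand
import Fermat.Agent.ModCurve.Fun.Maps
import Fermat.Agent.ModCurve.Fun.JFun

/-!
# The complex function field of `X₀(N)` as a field of quotients of holomorphic functions on `ℍ`
-/

set_option autoImplicit false

noncomputable section

open scoped MatrixGroups
open ModularCurve

namespace FermatAgent.ModCurve.Points

open FermatAgent.ModFun (cuspRing qLaurentHom jFun dil)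

/-- The field `ℂ(X₀(N))`. -/
abbrev FieldC (N : ℕ) : Type :=
  ↥(laurentBaseChange ℂ (modularFunctionFieldFull N))

variable (N : ℕ)

/-- The generators `j(dτ)`, `d ∣ N`, inside the ring of functions meromorphic at infinity. -/
def genFuns : Set cuspRing :=
  {f | ∃ (d : ℕ) (_ : NeZero d), d ∣ N ∧ (f : UpperHalfPlane → ℂ) = jFun ∘ dil d}

/-- The `ℂ`-algebra generated by the `j(dτ)`, `d ∣ N`. -/
def regRing : Subalgebra ℂ cuspRing := Algebra.adjoin ℂ (genFuns N)

theorem coeffEmb_jq : coeffEmb ℂ jq = jqModC ℂ := by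
  rw [← jqModC_rat, coeffEmb]
  exact map_jqModC (algebraMap ℚ ℂ)

theorem coeffEmb_qExpand_jq (d : ℕ) [NeZero d] :
    coeffEmb ℂ (qExpand ℚ d jq) = qExpand ℂ d (jqModC ℂ) := by
  rw [coeffEmb, ModularCurve.coeffMap_qExpand, ← coeffEmb, coeffEmb_jq]

theorem qLaurentHom_gen {f : cuspRing} {d : ℕ} [NeZero d]
    (hf : (f : UpperHalfPlane → ℂ) = jFun ∘ dil d) :
    qLaurentHom f = coeffEmb ℂ (qExpand ℚ d jq) := by
  rw [FermatAgent.ModFun.qLaurentHom_apply, hf,
    FermatAgent.ModFun.qLaurent_comp_dil FermatAgent.ModFun.jFun_mem_cuspRing,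
    FermatAgent.ModFun.qLaurent_jFun, coeffEmb_qExpand_jq]

/-- The generating set of `FieldC N`. -/
def genSeries : Set (LaurentSeries ℂ) := coeffEmb ℂ '' divisorExpansions N

theorem laurentBaseChange_eq_adjoin :
    laurentBaseChange ℂ (modularFunctionFieldFull N) =
      IntermediateField.adjoin ℂ (genSeries N) := by
  apply le_antisymm
  · rw [laurentBaseChange, IntermediateField.adjoin_le_iff]
    rintro _ ⟨x, hx, rfl⟩
    induction hx using IntermediateField.adjoin_induction with
    | mem y hy => exact IntermediateField.subset_adjoin _ _ ⟨y, hy, rfl⟩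
    | algebraMap r =>
      rw [algebraMap_apply_eq_single, coeffEmb, coeffMap_single,
        ← algebraMap_laurentSeries_eq_single]
      exact IntermediateField.algebraMap_mem _ _
    | add x y _ _ hx hy => rw [map_add]; exact add_mem hx hy
    | inv x _ hx => rw [map_inv₀]; exact inv_mem hx
    | mul x y _ _ hx hy => rw [map_mul]; exact mul_mem hx hy
  · rw [IntermediateField.adjoin_le_iff]
    rintro _ ⟨y, hy, rfl⟩
    exact coeffEmb_mem_laurentBaseChange ℂ (IntermediateField.subset_adjoin _ _ hy)

theorem qLaurentHom_image_genFuns : qLaurentHom '' genFuns N = genSeries N := by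
  apply Set.Subset.antisymm
  · rintro _ ⟨f, ⟨d, hd, hdN, hf⟩, rfl⟩
    have := hd
    exact ⟨_, mem_divisorExpansions N hdN, (qLaurentHom_gen hf).symm⟩
  · rintro _ ⟨_, ⟨d, hd, hdN, rfl⟩, rfl⟩
    have := hd
    let f : cuspRing := ⟨_, FermatAgent.ModFun.mem_cuspRing_comp_dil
      FermatAgent.ModFun.jFun_mem_cuspRing d⟩
    exact ⟨f, ⟨d, hd, hdN, rfl⟩, qLaurentHom_gen rfl⟩

theorem map_regRing : (regRing N).map qLaurentHom = Algebra.adjoin ℂ (genSeries N) := by
  rw [regRing, AlgHom.map_adjoin, qLaurentHom_image_genFuns]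

theorem qLaurentHom_mem {f : cuspRing} (hf : f ∈ regRing N) :
    qLaurentHom f ∈ laurentBaseChange ℂ (modularFunctionFieldFull N) := by
  rw [laurentBaseChange_eq_adjoin]
  exact IntermediateField.algebra_adjoin_le_adjoin _ _ (map_regRing N ▸ ⟨f, hf, rfl⟩)

/-- The inclusion of the regular ring into the function field. -/
def toField : regRing N →ₐ[ℂ] FieldC N :=
  (qLaurentHom.comp (regRing N).val).codRestrict
    (laurentBaseChange ℂ (modularFunctionFieldFull N)).toSubalgebra fun f => qLaurentHom_mem N f.2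

theorem coe_toField (f : regRing N) :
    (toField N f : LaurentSeries ℂ) = qLaurentHom (f : cuspRing) := rfl

theorem toField_injective : Function.Injective (toField N) := fun _ _ h =>
  Subtype.ext (FermatAgent.ModFun.qLaurentHom_injective (congrArg Subtype.val h))

theorem exists_div (x : FieldC N) :
    ∃ a b : regRing N, b ≠ 0 ∧ x = toField N a / toField N b := by
  have hx : (x : LaurentSeries ℂ) ∈ IntermediateField.adjoin ℂ (genSeries N) :=
    laurentBaseChange_eq_adjoin N ▸ x.2
  obtain ⟨r, hr, s, hs, hrs⟩ := IntermediateField.mem_adjoin_iff_div.1 hx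
  rw [← map_regRing] at hr hs
  obtain ⟨a, ha, rfl⟩ := hr
  obtain ⟨b, hb, rfl⟩ := hs
  rcases eq_or_ne b 0 with rfl | hb0
  · refine ⟨0, 1, one_ne_zero, Subtype.ext ?_⟩
    rw [map_zero, zero_div, hrs, map_zero, div_zero]; rfl
  refine ⟨⟨a, ha⟩, ⟨b, hb⟩, fun h => hb0 (congrArg Subtype.val h), Subtype.ext ?_⟩
  rw [hrs]; rfl

variable {N}

/-- An injective `ℂ`-algebra map on the regular ring extends to the function field. -/
def extendHom {L : Type*} [Field L] [Algebra ℂ L] (φ : regRing N →ₐ[ℂ] L)
    (hφ : Function.Injective φ) : FieldC N →ₐ[ℂ] L :=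
  letI : Algebra (regRing N) (FieldC N) := (toField N).toRingHom.toAlgebra
  haveI : IsScalarTower ℂ (regRing N) (FieldC N) :=
    IsScalarTower.of_algebraMap_eq fun c => ((toField N).commutes c).symm
  haveI : IsFractionRing (regRing N) (FieldC N) := by
    have : FaithfulSMul (regRing N) (FieldC N) :=
      (faithfulSMul_iff_algebraMap_injective _ _).2 (toField_injective N)
    exact IsFractionRing.of_field (regRing N) (FieldC N) fun x => by
      obtain ⟨a, b, -, h⟩ := exists_div N x
      exact ⟨a, b, h⟩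
  IsFractionRing.liftAlgHom (A := regRing N) (K := FieldC N) (L := L) (g := φ) hφ

theorem extendHom_toField {L : Type*} [Field L] [Algebra ℂ L] (φ : regRing N →ₐ[ℂ] L)
    (hφ : Function.Injective φ) (a : regRing N) : extendHom φ hφ (toField N a) = φ a := by
  let : Algebra (regRing N) (FieldC N) := (toField N).toRingHom.toAlgebra
  have : IsScalarTower ℂ (regRing N) (FieldC N) :=
    IsScalarTower.of_algebraMap_eq fun c => ((toField N).commutes c).symm
  have : FaithfulSMul (regRing N) (FieldC N) :=
    (faithfulSMul_iff_algebraMap_injective _ _).2 (toField_injective N)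
  have : IsFractionRing (regRing N) (FieldC N) :=
    IsFractionRing.of_field (regRing N) (FieldC N) fun x => by
      obtain ⟨a, b, -, h⟩ := exists_div N x
      exact ⟨a, b, h⟩
  exact IsFractionRing.lift_algebraMap (K := FieldC N) (g := φ.toRingHom) hφ a

theorem algHom_ext {L : Type*} [Field L] [Algebra ℂ L] {φ ψ : FieldC N →ₐ[ℂ] L}
    (h : ∀ a : regRing N, φ (toField N a) = ψ (toField N a)) : φ = ψ := by
  ext x
  obtain ⟨a, b, -, rfl⟩ := exists_div N x
  rw [map_div₀, map_div₀, h, h]

end FermatAgent.ModCurve.Points
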