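import Fermat.Agent.ModCurve.Points.Places
import Fermat.Agent.ModCurve.Group.Counts
import Fermat.Agent.Curve.Diff.Hurwitz
import Fermat.Agent.Curve.Descent.RiemannRoch
import Fermat.Prelude.Def_ModularCurve_GenusNumerics

/-!
# The genus of `X₀(N)` over `ℂ`

The map `j` is ramified only over `∞`, `1728` and `0`, where the fibres are the orbits of `T`, `S`
and `S * T` on `SL(2,ℤ) ⧸ Γ₀(N)`. Riemann–Hurwitz then gives the genus formula.
-/

set_option autoImplicit false
set_option synthInstance.maxHeartbeats 200000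
set_option maxHeartbeats 1000000

noncomputable section

open scoped MatrixGroups
open UpperHalfPlane hiding I
open CongruenceSubgroup AlgebraicCurve IntermediateField

namespace FermatAgent.ModCurve.Points

open FermatAgent.ModFun (jFun jBar)
open FermatAgent.ModCurveGroup (Edge CycleClass cycleClassMk permT)
open FermatAgent.Curve (IsFunctionField1 zerosFinset mem_zerosFinset)

namespace SheetData

variable {K F Λ X : Type*} [Field K] [Field F] [Field Λ] [Algebra K F] [Algebra K Λ] [CharZero K]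
  {V : ValTarget K Λ} [Fintype X] (S : SheetData V F X)

/-- The places under the sheets correspond to the cycles of any permutation with the same
orbits as the monodromy. -/
theorem card_places_eq (σ : Equiv.Perm X)
    (h : ∀ x y, σ.SameCycle x y ↔ ∃ i, S.π^[i] x = y) :
    S.places.card = Nat.card (CycleClass σ) := by
  classical
  let f : CycleClass σ → S.places :=
    Quotient.lift (fun x => ⟨S.place x, S.mem_places.2 ⟨x, rfl⟩⟩) fun x y hxy =>
      Subtype.ext (S.place_eq_iff.2 ((h x y).1 hxy))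
  have hf : Function.Bijective f := by
    constructor
    · intro a b
      induction a using Quotient.inductionOn with | _ x => ?_
      induction b using Quotient.inductionOn with | _ y => ?_
      intro hab
      exact Quotient.sound ((h x y).2 (S.place_eq_iff.1 (congrArg Subtype.val hab)))
    · rintro ⟨P, hP⟩
      obtain ⟨x, rfl⟩ := S.mem_places.1 hP
      exact ⟨cycleClassMk σ x, rfl⟩
  rw [Nat.card_eq_of_bijective f hf, Nat.card_eq_fintype_card, Fintype.card_coe]

end SheetData

variable (N : ℕ) [NeZero N]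

omit [NeZero N] in
/-- The orbits of any monodromy datum at `z` are those of the stabiliser of `z`. -/
theorem exists_pow_smul_eq_iff {z : ℍ} (D : LocalMonodromy z) (x y : Edge (Gamma0 N)) :
    (∃ i : ℕ, ((D.g ^ i)⁻¹ : SL(2, ℤ)) • x = y) ↔ ∃ h : SL(2, ℤ), h • z = z ∧ h • x = y := by
  constructor
  · rintro ⟨i, hi⟩
    exact ⟨(D.g ^ i)⁻¹, inv_smul_eq_iff.2 (pow_smul_eq D.fix i).symm, hi⟩
  · rintro ⟨h, hz, hxy⟩
    obtain ⟨k, -, hk'⟩ := D.spec h⁻¹ (inv_smul_eq_iff.2 hz.symm)
    refine ⟨k, ?_⟩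
    rcases hk' with hk' | hk'
    · rw [← hk', inv_inv, hxy]
    · have hh : h = (-1) * (D.g ^ k)⁻¹ := by
        rw [← inv_inv h, hk', neg_one_mul]
        exact inv_eq_of_mul_eq_one_right (by simp)
      rw [hh, mul_smul, ModCurveGroup.neg_one_smul_edge] at hxy
      exact hxy

theorem sameCycle_toPerm_iff {z : ℍ} (D : LocalMonodromy z) (x y : Edge (Gamma0 N)) :
    (MulAction.toPerm D.g : Equiv.Perm (Edge (Gamma0 N))).SameCycle x y ↔
      ∃ i : ℕ, ((D.g ^ i)⁻¹ : SL(2, ℤ)) • x = y := by
  rw [← Equiv.Perm.sameCycle_inv]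
  have hinv : ∀ i : ℕ, (((MulAction.toPerm D.g : Equiv.Perm (Edge (Gamma0 N)))⁻¹) ^ i) x =
      ((D.g ^ i)⁻¹ : SL(2, ℤ)) • x := by
    intro i
    rw [inv_pow, ← MulAction.toPermHom_apply, ← map_pow, ← map_inv, MulAction.toPermHom_apply,
      MulAction.toPerm_apply]
  constructor
  · intro h
    obtain ⟨i, -, hi⟩ := h.exists_pow_eq'
    exact ⟨i, by rw [← hinv, hi]⟩
  · rintro ⟨i, hi⟩
    exact ⟨(i : ℤ), by rw [zpow_natCast, hinv, hi]⟩

theorem card_places_affineSheets {z : ℍ} (D : LocalMonodromy z) :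
    (affineSheets N z).places.card =
      Nat.card (CycleClass (MulAction.toPerm D.g : Equiv.Perm (Edge (Gamma0 N)))) := by
  refine (affineSheets N z).card_places_eq _ fun x y => ?_
  rw [sameCycle_toPerm_iff, exists_pow_smul_eq_iff, ← exists_pow_smul_eq_iff N (localMonodromy z)]
  refine exists_congr fun i => ?_
  rw [show (affineSheets N z).π = fun y => (localMonodromy z).g⁻¹ • y from rfl, smul_base_eq_iff]

theorem card_places_affineSheets_of_M {z : ℍ} (hM : (localMonodromy z).M = 1) :
    (affineSheets N z).places.card = Fintype.card (Edge (Gamma0 N)) := by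
  classical
  have h := (affineSheets N z).sum_ord_sub_one
  have h0 : ∑ P ∈ (affineSheets N z).places, (P.ord (affineSheets N z).J - 1) = 0 := by
    refine Finset.sum_eq_zero fun P hP => ?_
    obtain ⟨x, rfl⟩ := (affineSheets N z).mem_places.1 hP
    have h1 : (affineSheets N z).step x * (affineSheets N z).ram x = 1 :=
      ((affineSheets N z).step_mul_ram x).trans hM
    rw [← (affineSheets N z).coe_ram, Nat.eq_one_of_mul_eq_one_left h1]
    simp
  omega

theorem card_places_cuspSheets :
    (cuspSheets N).places.card = ModularCurve.cuspCount N := by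
  rw [← ModCurveGroup.card_cycleClass_T]
  refine (cuspSheets N).card_places_eq _ fun x y => ?_
  rw [← Equiv.Perm.sameCycle_inv]
  have hinv : ∀ i : ℕ, (((permT (Gamma0 N))⁻¹) ^ i) x =
      ((ModularGroup.T ^ i)⁻¹ : SL(2, ℤ)) • x := by
    intro i
    rw [inv_pow, show permT (Gamma0 N) = MulAction.toPermHom SL(2, ℤ) (Edge (Gamma0 N))
      ModularGroup.T from rfl, ← map_pow, ← map_inv, MulAction.toPermHom_apply,
      MulAction.toPerm_apply]
  constructor
  · intro h
    obtain ⟨i, -, hi⟩ := h.exists_pow_eq'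
    exact ⟨i, by rw [cusp_π_iterate, ← hinv, hi]⟩
  · rintro ⟨i, hi⟩
    exact ⟨(i : ℤ), by rw [zpow_natCast, hinv, ← cusp_π_iterate, hi]⟩

/-- Twice the number of points of `X₀(N)` over `j = 1728`. -/
theorem two_mul_card_places_I :
    2 * (affineSheets N UpperHalfPlane.I).places.card =
      Fintype.card (Edge (Gamma0 N)) + ModularCurve.nuTwo N := by
  rw [card_places_affineSheets N monodromyI, ← ModCurveGroup.card_fixed_S]
  exact ModCurveGroup.two_mul_card_cycleClass fun x => ModCurveGroup.S_smul_S_smul _ x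

/-- Thrice the number of points of `X₀(N)` over `j = 0`. -/
theorem three_mul_card_places_rho :
    3 * (affineSheets N ρ).places.card =
      Fintype.card (Edge (Gamma0 N)) + 2 * ModularCurve.nuThree N := by
  rw [card_places_affineSheets N monodromyRho, ← ModCurveGroup.card_fixed_S_mul_T]
  refine ModCurveGroup.three_mul_card_cycleClass fun x => ?_
  show monodromyRho.g • monodromyRho.g • monodromyRho.g • x = x
  have h3 : monodromyRho.g * monodromyRho.g * monodromyRho.g = -1 := by decide
  rw [smul_smul, smul_smul, h3, ModCurveGroup.neg_one_smul_edge]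

/-! ### Ramification of `j` -/

/-- `j` as an element of `ℂ(j)`. -/
abbrev jGen : ℂ⟮jBar ℂ N⟯ := AdjoinSimple.gen ℂ (jBar ℂ N)

theorem isGen_jGen : FermatAgent.Curve.Diff.IsGen ℂ (jGen N) :=
  ⟨fun h => FermatAgent.ModFun.transcendental_jBar ℂ N (h.algebraMap (A := FieldC N)),
    FermatAgent.Curve.Descent.adjoinSimple_gen_eq_top _⟩

theorem algebraMap_jGen : algebraMap ℂ⟮jBar ℂ N⟯ (FieldC N) (jGen N) = jBar ℂ N :=
  AdjoinSimple.algebraMap_gen ℂ _

open FermatAgent.Curve.Diff

theorem zerosAt_jGen (z : ℍ) :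
    zerosAt (F := FieldC N) (jGen N) (jFun z) = (affineSheets N z).places := by
  ext P
  rw [zerosAt, mem_zerosFinset, algebraMap_jGen, ← jSubC_eq, (affineSheets N z).mem_places]
  constructor
  · intro hP
    have hdeg : Module.finrank (IntermediateField.adjoin ℂ {jSubC N (jFun z)}) (FieldC N)
        = (Gamma0 N).index := by
      rw [jSubC_eq, FermatAgent.Curve.adjoin_simple_sub_const]
      exact FermatAgent.ModFun.finrank_adjoin_jBar ℂ N
    exact (affineSheets N z).place_surjective
      (sum_ord_le_of_finrank N (transcendental_jSubC N _) hdeg) hP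
  · rintro ⟨x, rfl⟩
    exact (affineSheets N z).ord_J_pos x

theorem zerosAt_jGen_inv :
    zerosAt (F := FieldC N) (jGen N)⁻¹ (0 : ℂ) = (cuspSheets N).places := by
  ext P
  rw [zerosAt, mem_zerosFinset, map_inv₀, algebraMap_jGen, map_zero, sub_zero, ← invJ_eq,
    (cuspSheets N).mem_places]
  constructor
  · intro hP
    have hneg : P.ord (jBar ℂ N) < 0 := by
      rw [invJ_eq, Place.ord_inv] at hP; omega
    obtain ⟨h, rfl⟩ := exists_cuspPlace_of_ord_neg N hneg
    exact ⟨_, rfl⟩
  · rintro ⟨x, rfl⟩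
    exact (cuspSheets N).ord_J_pos x

instance finiteDimensional_jLine : FiniteDimensional ℂ⟮jBar ℂ N⟯ (FieldC N) :=
  FermatAgent.ModFun.finiteDimensional_adjoin_jBar ℂ N

instance isSeparable_jLine : Algebra.IsSeparable ℂ⟮jBar ℂ N⟯ (FieldC N) :=
  FermatAgent.ModFun.isSeparable_adjoin_jBar ℂ N

theorem finrank_jLine :
    Module.finrank ℂ⟮jBar ℂ N⟯ (FieldC N) = Fintype.card (Edge (Gamma0 N)) := by
  rw [card_edge]
  exact FermatAgent.ModFun.finrank_adjoin_jBar ℂ N

/-- `j` is unramified outside `0`, `1728`, `∞`. -/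
theorem ramIdx_jGen_eq_one {P : Place ℂ (FieldC N)}
    (h1 : P ∉ zerosAt (jGen N) (1728 : ℂ)) (h0 : P ∉ zerosAt (jGen N) (0 : ℂ))
    (hinf : P ∉ zerosAt (jGen N)⁻¹ (0 : ℂ)) : ramIdx ℂ (jGen N) P = 1 := by
  have hfin : FinAt (jGen N) P := by
    by_contra h
    exact hinf ((mem_zerosAt_inv_iff (isGen_jGen N)).2 h)
  have hP := hfin.mem_zerosAt (isGen_jGen N)
  set c := FermatAgent.Curve.valueAt P (algebraMap ℂ⟮jBar ℂ N⟯ (FieldC N) (jGen N))
  obtain ⟨z, hz⟩ := jFun_surjective c
  have hM : (localMonodromy z).M = 1 :=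
    localMonodromy_M_eq_one (fun h => h0 (by rwa [← h, hz]))
      (fun h => h1 (by rwa [← h, hz]))
  rw [ramIdx_of_mem_zerosAt hP]
  rw [← hz] at hP ⊢
  have hsum := sum_eAt (F := FieldC N) (isGen_jGen N) (jFun z)
  rw [finrank_jLine, ← card_places_affineSheets_of_M N hM, ← zerosAt_jGen, Finset.card_eq_sum_ones]
    at hsum
  exact ((Finset.sum_eq_sum_iff_of_le (fun Q hQ => Nat.one_le_iff_ne_zero.2 (eAt_pos hQ).ne')).1
    hsum.symm P hP).symm

theorem sum_ramDivisor_zerosAt (c : ℂ) :
    ∑ Q ∈ zerosAt (F := FieldC N) (jGen N) c, ramDivisor (isGen_jGen N) Q =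
      (Fintype.card (Edge (Gamma0 N)) : ℤ) - (zerosAt (F := FieldC N) (jGen N) c).card := by
  have hsum := sum_eAt (F := FieldC N) (isGen_jGen N) c
  rw [finrank_jLine] at hsum
  rw [← hsum, Nat.cast_sum, Finset.card_eq_sum_ones, Nat.cast_sum, ← Finset.sum_sub_distrib]
  refine Finset.sum_congr rfl fun Q hQ => ?_
  rw [ramDivisor_apply, ramIdx_of_mem_zerosAt hQ]
  simp

theorem sum_ramDivisor_zerosAt_inv :
    ∑ Q ∈ zerosAt (F := FieldC N) (jGen N)⁻¹ (0 : ℂ), ramDivisor (isGen_jGen N) Q =
      (Fintype.card (Edge (Gamma0 N)) : ℤ) -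
        (zerosAt (F := FieldC N) (jGen N)⁻¹ (0 : ℂ)).card := by
  have hsum := sum_eAt (F := FieldC N) (isGen_jGen N).inv (0 : ℂ)
  rw [finrank_jLine] at hsum
  rw [← hsum, Nat.cast_sum, Finset.card_eq_sum_ones, Nat.cast_sum, ← Finset.sum_sub_distrib]
  refine Finset.sum_congr rfl fun Q hQ => ?_
  rw [ramDivisor_apply, ramIdx_of_mem_zerosAt_inv (isGen_jGen N) hQ]
  simp

theorem degree_ramDivisor_jGen :
    Divisor.degree (ramDivisor (F := FieldC N) (isGen_jGen N)) =
      3 * (Fintype.card (Edge (Gamma0 N)) : ℤ) - (cuspSheets N).places.card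
        - (affineSheets N UpperHalfPlane.I).places.card - (affineSheets N ρ).places.card := by
  classical
  set D := ramDivisor (F := FieldC N) (isGen_jGen N) with hD
  set A := zerosAt (F := FieldC N) (jGen N) (1728 : ℂ) with hA
  set B := zerosAt (F := FieldC N) (jGen N) (0 : ℂ) with hB
  set C := zerosAt (F := FieldC N) (jGen N)⁻¹ (0 : ℂ) with hC
  have hAB : Disjoint A B := Finset.disjoint_left.2 fun Q h1 h2 => by
    have e1 := (mem_and_valueAt_eq h1).2
    rw [(mem_and_valueAt_eq h2).2] at e1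
    norm_num at e1
  have hABC : Disjoint (A ∪ B) C := Finset.disjoint_left.2 fun Q h12 h3 => by
    have h := (mem_zerosAt_inv_iff (isGen_jGen N)).1 h3
    rcases Finset.mem_union.1 h12 with h1 | h1 <;> exact h (finAt_of_mem_zerosAt h1)
  have hsub : D.support ⊆ A ∪ B ∪ C := fun Q hQ => by
    by_contra hn
    simp only [Finset.mem_union, not_or] at hn
    rw [Finsupp.mem_support_iff, hD, ramDivisor_apply,
      ramIdx_jGen_eq_one N hn.1.1 hn.1.2 hn.2] at hQ
    simp at hQ
  have e1 := zerosAt_jGen N UpperHalfPlane.I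
  have e0 := zerosAt_jGen N ρ
  rw [jFun_I] at e1
  rw [jFun_rho] at e0
  rw [FermatAgent.Curve.degree_eq_sum, Finsupp.sum_of_support_subset D hsub _ (fun _ _ => rfl),
    Finset.sum_union hABC, Finset.sum_union hAB, hA, hB, hC, hD, sum_ramDivisor_zerosAt,
    sum_ramDivisor_zerosAt, sum_ramDivisor_zerosAt_inv, zerosAt_jGen_inv, e1, e0]
  ring

/-- The genus of `X₀(N)` over `ℂ`. -/
theorem genusFF_fieldC :
    (genusFF ℂ (FieldC N) : ℚ) = ModularCurve.genusFormula N := by
  have h := degree_ramDivisor (F := FieldC N) (isGen_jGen N) (isTame_of_charZero (isGen_jGen N))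
  rw [degree_ramDivisor_jGen, finrank_jLine] at h
  have h2 := two_mul_card_places_I N
  have h3 := three_mul_card_places_rho N
  have hc := card_places_cuspSheets N
  have hn : Fintype.card (Edge (Gamma0 N)) = ModularCurve.dedekindPsi N := by
    rw [card_edge, ModCurveGroup.index_gamma0]
  have hq := congrArg (Int.cast : ℤ → ℚ) h
  have hq2 := congrArg (Nat.cast : ℕ → ℚ) h2
  have hq3 := congrArg (Nat.cast : ℕ → ℚ) h3
  rw [hc] at hq
  rw [hn] at hq hq2 hq3
  push_cast at hq hq2 hq3
  rw [ModularCurve.genusFormula]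
  linarith

end FermatAgent.ModCurve.Points
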