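import Fermat.Agent.ModCurve.Points.Places
import Fermat.Agent.ModCurve.Fun.FieldC

/-!
# The cusp `∞`: its order is the order of the `q`-series; germs of members of `levelRing N`
-/

set_option autoImplicit false

noncomputable section

open scoped MatrixGroups
open UpperHalfPlane hiding I
open CongruenceSubgroup AlgebraicCurve

namespace FermatAgent.ModCurve.Points

open FermatAgent.ModFun (cuspRing qLaurent qLaurentHom toLS dil)

/-- The order of a Laurent series coming from a power series. -/
theorem order_toLS {p : PowerSeries ℂ} (hp : p ≠ 0) :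
    (toLS p).order = (p.order.toNat : ℤ) := by
  have hne : toLS p ≠ 0 := (map_ne_zero_iff _ HahnSeries.ofPowerSeries_injective).mpr hp
  apply le_antisymm
  · apply HahnSeries.order_le_of_coeff_ne_zero
    show ((p : LaurentSeries ℂ)).coeff _ ≠ 0
    rw [PowerSeries.coeff_coe, if_neg (by omega), Int.natAbs_natCast]
    exact PowerSeries.coeff_order hp
  · have h := HahnSeries.coeff_order_eq_zero.not.mpr hne
    by_contra hlt
    refine h ?_
    show ((p : LaurentSeries ℂ)).coeff _ = 0
    rw [PowerSeries.coeff_coe]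
    split_ifs with hneg
    · rfl
    · refine PowerSeries.coeff_of_lt_order_toNat _ ?_
      change ¬ _ < (0 : ℤ) at hneg
      have : ((toLS p).order.natAbs : ℤ) = (toLS p).order := Int.natAbs_of_nonneg (not_lt.1 hneg)
      change _ < p.order.toNat
      have hle := not_le.1 hlt
      exact_mod_cast (this ▸ hle : ((toLS p).order.natAbs : ℤ) < (p.order.toNat : ℤ))

/-- The analytic order of the cusp function is the order of the `q`-expansion. -/
theorem analyticOrderAt_cuspFunction {f : ℍ → ℂ} (hf : f ∈ cuspRing) (hb : IsBoundedAtImInfty f) :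
    analyticOrderAt (cuspFunction 1 f) 0 = (qExpansion 1 f).order := by
  have ha := FermatAgent.ModFun.analyticAt_cuspFunction_of_mem hf hb
  refine ENat.eq_of_forall_natCast_le_iff fun n => ?_
  rw [natCast_le_analyticOrderAt_iff_iteratedDeriv_eq_zero ha]
  constructor
  · intro h
    exact PowerSeries.nat_le_order _ _ fun i hi => by rw [qExpansion_coeff, h i hi, mul_zero]
  · intro h i hi
    have h1 := PowerSeries.coeff_of_lt_order (φ := qExpansion 1 f) i
      (lt_of_lt_of_le (by exact_mod_cast hi) h)
    rw [qExpansion_coeff] at h1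
    exact (mul_eq_zero.1 h1).resolve_left
      (inv_ne_zero (Nat.cast_ne_zero.2 i.factorial_ne_zero))

theorem meromorphicOrderAt_cuspFunction_of_bounded {f : ℍ → ℂ} (hf : f ∈ cuspRing)
    (hb : IsBoundedAtImInfty f) (hf0 : f ≠ 0) :
    meromorphicOrderAt (cuspFunction 1 f) 0 = (((toLS (qExpansion 1 f)).order : ℤ) : WithTop ℤ) := by
  have hne : qExpansion 1 f ≠ 0 := fun h =>
    hf0 ((FermatAgent.ModFun.qExpansion_eq_zero_iff_of_mem hf hb).1 h)
  rw [(FermatAgent.ModFun.analyticAt_cuspFunction_of_mem hf hb).meromorphicOrderAt_eq,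
    analyticOrderAt_cuspFunction hf hb, order_toLS hne,
    ← ENat.natCast_toNat (PowerSeries.order_finite_iff_ne_zero.2 hne).ne, ENat.toNat_natCast]
  rfl

/-- The meromorphic order at `q = 0` is the order of the Laurent expansion. -/
theorem meromorphicOrderAt_cuspFunction {f : ℍ → ℂ} (hf : f ∈ cuspRing) (hf0 : f ≠ 0) :
    meromorphicOrderAt (cuspFunction 1 f) 0 = (((qLaurent f).order : ℤ) : WithTop ℤ) := by
  obtain ⟨n, hn⟩ := FermatAgent.ModFun.isTame_iff.mp hf.2.2
  set D := ModularForm.discriminant with hD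
  have hDn : (fun τ : ℍ => D τ) ^ n ≠ 0 := fun h =>
    pow_ne_zero n (ModularForm.discriminant_ne_zero UpperHalfPlane.I) (congrFun h UpperHalfPlane.I)
  have hgm : f * D ^ n ∈ cuspRing :=
    mul_mem hf (pow_mem FermatAgent.ModFun.discriminant_mem_cuspRing n)
  have hg0 : f * D ^ n ≠ 0 := by
    intro h
    refine hf0 (funext fun τ => ?_)
    simpa [D, ModularForm.discriminant_ne_zero] using congrFun h τ
  have hDm := pow_mem FermatAgent.ModFun.discriminant_mem_cuspRing n
  have hDb := FermatAgent.ModFun.isBounded_discriminant_pow n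
  have hmG : MeromorphicAt (cuspFunction 1 f) 0 := meromorphicAt_cuspFunction hf
  have hmD : MeromorphicAt (cuspFunction 1 (D ^ n)) 0 := meromorphicAt_cuspFunction hDm
  have heq : meromorphicOrderAt (cuspFunction 1 f * cuspFunction 1 (D ^ n)) 0 =
      meromorphicOrderAt (cuspFunction 1 (f * D ^ n)) 0 := by
    apply meromorphicOrderAt_congr
    filter_upwards [eventually_invQParam_im_pos] with q hq
    simp only [Pi.mul_apply, cuspFunction_apply_of_ne _ hq.1]
  rw [meromorphicOrderAt_mul hmG hmD,
    meromorphicOrderAt_cuspFunction_of_bounded hgm hn hg0,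
    meromorphicOrderAt_cuspFunction_of_bounded hDm hDb hDn] at heq
  have hq : qLaurent f * toLS (qExpansion 1 (D ^ n)) = toLS (qExpansion 1 (f * D ^ n)) := by
    rw [FermatAgent.ModFun.qLaurent_eq hf hn, FermatAgent.ModFun.qExpansion_discriminant_pow,
      map_pow, div_mul_cancel₀ _ (pow_ne_zero _ FermatAgent.ModFun.toLS_discriminant_ne_zero)]
  have hq0 : toLS (qExpansion 1 (D ^ n)) ≠ 0 :=
    (map_ne_zero_iff _ HahnSeries.ofPowerSeries_injective).mpr fun h =>
      hDn ((FermatAgent.ModFun.qExpansion_eq_zero_iff_of_mem hDm hDb).1 h)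
  have hfq : qLaurent f ≠ 0 := by
    intro h
    rw [h, zero_mul, eq_comm, map_eq_zero_iff _ HahnSeries.ofPowerSeries_injective] at hq
    exact hg0 ((FermatAgent.ModFun.qExpansion_eq_zero_iff_of_mem hgm hn).1 hq)
  rw [← hq, HahnSeries.order_mul hfq hq0] at heq
  cases h : meromorphicOrderAt (cuspFunction 1 f) 0 with
  | top => rw [h, top_add] at heq; exact absurd heq (WithTop.top_ne_coe)
  | coe a =>
    rw [h, ← WithTop.coe_add, WithTop.coe_inj] at heq
    rw [WithTop.coe_inj]
    exact add_right_cancel heq

variable (N : ℕ) [NeZero N]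

theorem order_qExpand {x : LaurentSeries ℂ} (hx : x ≠ 0) :
    (ModularCurve.qExpand ℂ N x).order = (N : ℤ) * x.order := by
  apply le_antisymm
  · apply HahnSeries.order_le_of_coeff_ne_zero
    rw [ModularCurve.qExpand_coeff_mul]
    exact HahnSeries.coeff_order_eq_zero.not.mpr hx
  · set y := ModularCurve.qExpand ℂ N x with hy
    have hy0 : y ≠ 0 := (map_ne_zero_iff _ (ModularCurve.qExpand_injective (R := ℂ) N)).mpr hx
    have h := HahnSeries.coeff_order_eq_zero.not.mpr hy0
    by_cases hd : (N : ℤ) ∣ y.order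
    · obtain ⟨k, hk⟩ := hd
      rw [hk, hy, ModularCurve.qExpand_coeff_mul] at h
      rw [hk]
      exact mul_le_mul_of_nonneg_left (HahnSeries.order_le_of_coeff_ne_zero h) (by positivity)
    · exact absurd (ModularCurve.qExpand_coeff_of_not_dvd N x hd) h

theorem cuspWidth_one : cuspWidth N 1 = 1 :=
  Nat.dvd_one.1 ((conj_T_pow_mem_iff N 1 1).1 (by simp [Gamma0_mem, ModularGroup.coe_T]))

theorem ord_cuspPlace_one_toField (a : regRing N) (ha : a ≠ 0) :
    (cuspPlace N 1).ord (toField N a) = (toField N a : LaurentSeries ℂ).order := by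
  have h := ordCusp_eq N 1 (toField N a)
  rw [cuspWidth_one, Nat.cast_one, one_mul, ordCusp, ValTarget.ordZ, cuspHom_toField,
    cuspGermHom_apply, show (MeroGerm.valTarget (0 : ℂ)).v = MeroGerm.ord from rfl,
    MeroGerm.ord_mk] at h
  have he : evalCusp 1 a = evalH a ∘ dil N := funext fun τ => by simp [evalCusp]
  have hm : evalH a ∈ cuspRing := (a : cuspRing).2
  have hne : evalH a ∘ dil N ≠ 0 := by
    intro h0
    refine ha (evalH_injective ?_)
    funext τ
    obtain ⟨σ, rfl⟩ := FermatAgent.ModFun.exists_dil_eq N τ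
    exact congrFun h0 σ
  rw [he, meromorphicOrderAt_cuspFunction (he ▸ evalCusp_mem 1 a) hne,
    FermatAgent.ModFun.qLaurent_comp_dil hm, order_qExpand] at h
  · exact (mul_left_cancel₀ (Nat.cast_ne_zero.2 (NeZero.ne N)) h).symm
  · intro h0
    refine ha (toField_injective N (Subtype.ext ?_))
    rw [map_zero]
    exact h0

/-- The order at the cusp `∞` is the order of the `q`-series. -/
theorem ord_cuspPlace_one (f : FieldC N) :
    (cuspPlace N 1).ord f = (f : LaurentSeries ℂ).order := by
  rcases eq_or_ne f 0 with rfl | hf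
  · simp
  obtain ⟨a, b, ha, hb, rfl⟩ := exists_div_ne_zero N hf
  have ha' : toField N a ≠ 0 := (map_ne_zero_iff _ (toField_injective N)).2 ha
  have hb' : toField N b ≠ 0 := (map_ne_zero_iff _ (toField_injective N)).2 hb
  have hcancel : (toField N a / toField N b : LaurentSeries ℂ) * (toField N b : LaurentSeries ℂ)
      = (toField N a : LaurentSeries ℂ) := by
    rw [div_mul_cancel₀]
    exact fun h => hb' (Subtype.ext h)
  have ho := congrArg HahnSeries.order hcancel
  rw [HahnSeries.order_mul (div_ne_zero (fun h => ha' (Subtype.ext h)) fun h => hb' (Subtype.ext h))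
    fun h => hb' (Subtype.ext h)] at ho
  have hd : (cuspPlace N 1).ord (toField N a / toField N b) =
      (cuspPlace N 1).ord (toField N a) - (cuspPlace N 1).ord (toField N b) :=
    FermatAgent.Curve.ord_div _ ha' hb'
  rw [hd, ord_cuspPlace_one_toField N a ha, ord_cuspPlace_one_toField N b hb,
    show ((toField N a / toField N b : FieldC N) : LaurentSeries ℂ)
      = (toField N a : LaurentSeries ℂ) / (toField N b : LaurentSeries ℂ) from rfl]
  omega

end FermatAgent.ModCurve.Points
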