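import Fermat.Agent.ModCurve.Points.FieldC
import Fermat.Agent.ModCurve.Fun.Level

/-!
# The regular ring inside the level ring
-/

set_option autoImplicit false

noncomputable section

open scoped MatrixGroups Manifold
open UpperHalfPlane CongruenceSubgroup

namespace FermatAgent.ModCurve.Points

open FermatAgent.ModFun (cuspRing jFun dil levelRing jd)

variable {N : ℕ}

/-- A member of the regular ring as a function. -/
def evalH (f : regRing N) : ℍ → ℂ := ((f : cuspRing) : ℍ → ℂ)

theorem evalH_injective : Function.Injective (evalH (N := N)) := fun _ _ h =>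
  Subtype.ext (Subtype.ext h)

theorem evalH_mem_levelRing (f : regRing N) : evalH f ∈ levelRing N := by
  obtain ⟨f, hf⟩ := f
  show (f : ℍ → ℂ) ∈ levelRing N
  induction hf using Algebra.adjoin_induction with
  | mem x hx =>
    obtain ⟨d, hd, hdN, hxd⟩ := hx
    have := hd
    rw [hxd]
    exact FermatAgent.ModFun.jd_mem_levelRing hdN
  | algebraMap r => exact (levelRing N).algebraMap_mem r
  | add x y _ _ hx hy => exact add_mem hx hy
  | mul x y _ _ hx hy => exact mul_mem hx hy

theorem evalH_mdiff (f : regRing N) : MDiff (evalH f) := (evalH_mem_levelRing f).1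

theorem evalH_smul (f : regRing N) {γ : SL(2, ℤ)} (hγ : γ ∈ Gamma0 N) (τ : ℍ) :
    evalH f (γ • τ) = evalH f τ := (evalH_mem_levelRing f).2.1 γ hγ τ

variable (N)

/-- The element `j` of the regular ring. -/
def jElt : regRing N :=
  ⟨⟨jFun, FermatAgent.ModFun.jFun_mem_cuspRing⟩, Algebra.subset_adjoin
    ⟨1, ⟨one_ne_zero⟩, one_dvd N, by
      have : NeZero (1 : ℕ) := ⟨one_ne_zero⟩
      funext τ
      simp⟩⟩

theorem evalH_jElt : evalH (jElt N) = jFun := rfl

variable [NeZero N]

/-- The element `j(Nτ)` of the regular ring. -/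
def jNElt : regRing N :=
  ⟨⟨_, FermatAgent.ModFun.mem_cuspRing_comp_dil FermatAgent.ModFun.jFun_mem_cuspRing N⟩,
    Algebra.subset_adjoin ⟨N, inferInstance, dvd_rfl, rfl⟩⟩

theorem evalH_jNElt : evalH (jNElt N) = jd N := rfl

end FermatAgent.ModCurve.Points
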