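import Fermat.Agent.ModCurve.Points.PlaceOfVal

/-!
# The field of germs of meromorphic functions at a point, with its order valuation
-/

set_option autoImplicit false

noncomputable section

open Filter Topology

namespace FermatAgent.ModCurve.Points

/-- Germs at the punctured neighbourhood of `z` of functions meromorphic at `z`. -/
def meroGermSubring (z : ℂ) : Subring ((𝓝[≠] z).Germ ℂ) where
  carrier := {g | ∃ f : ℂ → ℂ, MeromorphicAt f z ∧ (f : (𝓝[≠] z).Germ ℂ) = g}
  mul_mem' := by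
    rintro _ _ ⟨f, hf, rfl⟩ ⟨g, hg, rfl⟩
    exact ⟨f * g, hf.mul hg, rfl⟩
  add_mem' := by
    rintro _ _ ⟨f, hf, rfl⟩ ⟨g, hg, rfl⟩
    exact ⟨f + g, hf.add hg, rfl⟩
  one_mem' := ⟨fun _ => 1, MeromorphicAt.const 1 z, rfl⟩
  zero_mem' := ⟨fun _ => 0, MeromorphicAt.const 0 z, rfl⟩
  neg_mem' := by
    rintro _ ⟨f, hf, rfl⟩
    exact ⟨-f, hf.neg, rfl⟩

/-- The field of meromorphic germs at `z`. -/
abbrev MeroGerm (z : ℂ) : Type := meroGermSubring z

instance instAlgebraMeroGerm (z : ℂ) : Algebra ℂ (MeroGerm z) :=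
  RingHom.toAlgebra
    { toFun := fun c => ⟨((fun _ => c : ℂ → ℂ) : (𝓝[≠] z).Germ ℂ),
        fun _ => c, MeromorphicAt.const c z, rfl⟩
      map_one' := rfl
      map_mul' := fun _ _ => rfl
      map_zero' := rfl
      map_add' := fun _ _ => rfl }

namespace MeroGerm

variable {z : ℂ}

/-- The germ of a function meromorphic at `z`. -/
def mk (f : ℂ → ℂ) (hf : MeromorphicAt f z) : MeroGerm z := ⟨f, f, hf, rfl⟩

theorem exists_mk (a : MeroGerm z) : ∃ f hf, mk f hf = a := by
  obtain ⟨f, hf, hfa⟩ := a.2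
  exact ⟨f, hf, Subtype.ext hfa⟩

theorem mk_eq_mk {f g : ℂ → ℂ} {hf : MeromorphicAt f z} {hg : MeromorphicAt g z} :
    mk f hf = mk g hg ↔ f =ᶠ[𝓝[≠] z] g := by
  constructor
  · intro h; exact Filter.Germ.coe_eq.1 (congrArg Subtype.val h)
  · intro h; exact Subtype.ext (Filter.Germ.coe_eq.2 h)

theorem mk_add {f g : ℂ → ℂ} (hf : MeromorphicAt f z) (hg : MeromorphicAt g z) :
    mk f hf + mk g hg = mk (f + g) (hf.add hg) := rfl

theorem mk_mul {f g : ℂ → ℂ} (hf : MeromorphicAt f z) (hg : MeromorphicAt g z) :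
    mk f hf * mk g hg = mk (f * g) (hf.mul hg) := rfl

theorem mk_sub {f g : ℂ → ℂ} (hf : MeromorphicAt f z) (hg : MeromorphicAt g z) :
    mk f hf - mk g hg = mk (f - g) (hf.sub hg) := rfl

theorem algebraMap_eq (c : ℂ) :
    algebraMap ℂ (MeroGerm z) c = mk (fun _ => c) (MeromorphicAt.const c z) := rfl

theorem smul_mk (c : ℂ) {f : ℂ → ℂ} (hf : MeromorphicAt f z) :
    c • mk f hf = mk ((fun _ => c) * f) ((MeromorphicAt.const c z).mul hf) := by
  rw [Algebra.smul_def, algebraMap_eq, mk_mul]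

theorem zero_eq : (0 : MeroGerm z) = mk 0 (MeromorphicAt.const 0 z) := rfl

theorem one_eq : (1 : MeroGerm z) = mk 1 (MeromorphicAt.const 1 z) := rfl

theorem mk_eq_zero_iff {f : ℂ → ℂ} {hf : MeromorphicAt f z} :
    mk f hf = 0 ↔ meromorphicOrderAt f z = ⊤ := by
  rw [zero_eq, mk_eq_mk, meromorphicOrderAt_eq_top_iff]; rfl

theorem isField : IsField (MeroGerm z) where
  exists_pair_ne := ⟨0, 1, by
    rw [zero_eq, one_eq, Ne, mk_eq_mk]
    intro h
    obtain ⟨w, hw⟩ := h.exists
    exact zero_ne_one hw⟩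
  mul_comm := mul_comm
  mul_inv_cancel := by
    intro a ha
    obtain ⟨f, hf, rfl⟩ := exists_mk a
    refine ⟨mk f⁻¹ hf.inv, ?_⟩
    rw [mk_mul, one_eq, mk_eq_mk]
    have hne : meromorphicOrderAt f z ≠ ⊤ := fun h => ha (mk_eq_zero_iff.2 h)
    filter_upwards [(meromorphicOrderAt_ne_top_iff_eventually_ne_zero hf).1 hne] with w hw
    simp [hw]

instance instField : Field (MeroGerm z) := isField.toField

/-- The order of vanishing as a function on germs. -/
def ordFun (a : MeroGerm z) : WithTop ℤ := meromorphicOrderAt (exists_mk a).choose z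

theorem ordFun_mk (f : ℂ → ℂ) (hf : MeromorphicAt f z) :
    ordFun (mk f hf) = meromorphicOrderAt f z :=
  meromorphicOrderAt_congr (mk_eq_mk.1 (exists_mk (mk f hf)).choose_spec.choose_spec)

theorem meromorphicOrderAt_const_ne {c : ℂ} (hc : c ≠ 0) :
    meromorphicOrderAt (fun _ : ℂ => c) z = 0 := by
  classical rw [meromorphicOrderAt_const, if_neg hc]

/-- The order valuation on germs. -/
def ord : AddValuation (MeroGerm z) (WithTop ℤ) :=
  AddValuation.of ordFun
    (by rw [zero_eq, ordFun_mk, meromorphicOrderAt_eq_top_iff]; simp)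
    (by rw [one_eq, ordFun_mk]; exact meromorphicOrderAt_const_ne one_ne_zero)
    (fun a b => by
      obtain ⟨f, hf, rfl⟩ := exists_mk a
      obtain ⟨g, hg, rfl⟩ := exists_mk b
      rw [mk_add, ordFun_mk, ordFun_mk, ordFun_mk]
      exact meromorphicOrderAt_add hf hg)
    (fun a b => by
      obtain ⟨f, hf, rfl⟩ := exists_mk a
      obtain ⟨g, hg, rfl⟩ := exists_mk b
      rw [mk_mul, ordFun_mk, ordFun_mk, ordFun_mk]
      exact meromorphicOrderAt_mul hf hg)

theorem ord_mk (f : ℂ → ℂ) (hf : MeromorphicAt f z) :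
    ord (mk f hf) = meromorphicOrderAt f z := ordFun_mk f hf

variable (z) in
/-- Germs at `z` as a valued target field. -/
def valTarget : ValTarget ℂ (MeroGerm z) where
  v := ord
  map_const c hc := by
    rw [algebraMap_eq, ord_mk]
    exact meromorphicOrderAt_const_ne hc
  exists_residue a ha := by
    obtain ⟨f, hf, rfl⟩ := exists_mk a
    rw [ord_mk] at ha
    obtain ⟨c, hc⟩ := (tendsto_nhds_iff_meromorphicOrderAt_nonneg hf).2 ha
    refine ⟨c, ?_⟩
    rw [algebraMap_eq, mk_sub, ord_mk]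
    refine (tendsto_zero_iff_meromorphicOrderAt_pos (hf.sub (MeromorphicAt.const c z))).1 ?_
    simpa [Pi.sub_def] using hc.sub_const c

/-- Composition with an analytic map fixing `z` with nonvanishing derivative. -/
def compHom (g : ℂ → ℂ) (hg : AnalyticAt ℂ g z) (hgz : g z = z) (hg' : deriv g z ≠ 0) :
    MeroGerm z →ₐ[ℂ] MeroGerm z :=
  have ht : Tendsto g (𝓝[≠] z) (𝓝[≠] z) := by
    have hnc : ¬ EventuallyConst g (𝓝 z) := by
      rw [eventuallyConst_iff_analyticOrderAt_sub_eq_top,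
        hg.analyticOrderAt_sub_eq_one_of_deriv_ne_zero hg']
      simp
    have h := hg.map_nhdsNE hnc
    rwa [hgz] at h
  { toFun := fun a => ⟨(a : (𝓝[≠] z).Germ ℂ).compTendsto g ht, by
      obtain ⟨f, hf, hfa⟩ := a.2
      refine ⟨f ∘ g, MeromorphicAt.comp_analyticAt (hgz.symm ▸ hf) hg, ?_⟩
      rw [← hfa, Filter.Germ.coe_compTendsto]⟩
    map_one' := rfl
    map_mul' := fun a b => Subtype.ext (by
      obtain ⟨f, hf, rfl⟩ := exists_mk a
      obtain ⟨f₂, hf₂, rfl⟩ := exists_mk b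
      rfl)
    map_zero' := rfl
    map_add' := fun a b => Subtype.ext (by
      obtain ⟨f, hf, rfl⟩ := exists_mk a
      obtain ⟨f₂, hf₂, rfl⟩ := exists_mk b
      rfl)
    commutes' := fun _ => rfl }

theorem compHom_mk {g : ℂ → ℂ} (hg : AnalyticAt ℂ g z) (hgz : g z = z) (hg' : deriv g z ≠ 0)
    {f : ℂ → ℂ} (hf : MeromorphicAt f z) :
    compHom g hg hgz hg' (mk f hf) =
      mk (f ∘ g) (MeromorphicAt.comp_analyticAt (hgz.symm ▸ hf) hg) := rfl

/-- The leading coefficient of `f ∘ g` is that of `f` times the power of `g' z`. -/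
theorem compHom_lead {g : ℂ → ℂ} (hg : AnalyticAt ℂ g z) (hgz : g z = z) (hg' : deriv g z ≠ 0)
    (a : MeroGerm z) (n : ℤ) (ha : ord a = n) :
    (n : WithTop ℤ) < ord (compHom g hg hgz hg' a - deriv g z ^ n • a) := by
  obtain ⟨f, hf, rfl⟩ := exists_mk a
  rw [ord_mk] at ha
  obtain ⟨h, hh, hh0, hfh⟩ := (meromorphicOrderAt_eq_int_iff hf).1 ha
  rw [compHom_mk, smul_mk, mk_sub, ord_mk]
  set u : ℂ → ℂ := dslope g z with hu
  have hua : AnalyticAt ℂ u z := by
    obtain ⟨p, hp⟩ := hg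
    exact hp.has_fpower_series_dslope_fslope.analyticAt
  have huz : u z = deriv g z := dslope_same g z
  have hune : u z ≠ 0 := huz ▸ hg'
  have hgu : ∀ w, g w - z = (w - z) * u w := by
    intro w
    have h1 := sub_smul_dslope g z w
    rw [hgz, smul_eq_mul] at h1
    exact h1.symm
  set d : ℂ → ℂ := fun w => u w ^ n * h (g w) - deriv g z ^ n * h w with hd
  have hda : AnalyticAt ℂ d z :=
    ((hua.zpow hune).mul ((hgz.symm ▸ hh).comp hg)).sub (analyticAt_const.mul hh)
  have hd0 : d z = 0 := by simp [hd, huz, hgz]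
  have ht : Tendsto g (𝓝[≠] z) (𝓝[≠] z) := by
    have hnc : ¬ EventuallyConst g (𝓝 z) := by
      rw [eventuallyConst_iff_analyticOrderAt_sub_eq_top,
        hg.analyticOrderAt_sub_eq_one_of_deriv_ne_zero hg']
      simp
    have h1 := hg.map_nhdsNE hnc
    rwa [hgz] at h1
  have heq : f ∘ g - (fun _ => deriv g z ^ n) * f
      =ᶠ[𝓝[≠] z] fun w => (w - z) ^ n • d w := by
    filter_upwards [hfh, ht.eventually hfh] with w hw hgw
    simp only [Pi.sub_apply, Pi.mul_apply, Function.comp_apply, smul_eq_mul] at hw hgw ⊢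
    rw [hgw, hw, hgu, hd, mul_zpow]
    ring
  rw [meromorphicOrderAt_congr heq]
  have h1 : MeromorphicAt (fun w => (w - z) ^ n) z := by fun_prop
  rw [show (fun w => (w - z) ^ n • d w) = (fun w => (w - z) ^ n) * d from rfl,
    meromorphicOrderAt_mul h1 hda.meromorphicAt,
    show (fun w : ℂ => (w - z) ^ n) = (fun w : ℂ => w - z) ^ n from rfl,
    meromorphicOrderAt_zpow_id_sub_const]
  have hpos : 0 < meromorphicOrderAt d z := by
    refine (tendsto_zero_iff_meromorphicOrderAt_pos hda.meromorphicAt).1 ?_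
    have := hda.continuousAt.tendsto
    rw [hd0] at this
    exact this.mono_left nhdsWithin_le_nhds
  have hlt := WithTop.add_lt_add_left (WithTop.coe_ne_top (a := n)) hpos
  rwa [add_zero] at hlt

end MeroGerm

end FermatAgent.ModCurve.Points
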