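import Mathlib
import Fermat.Prelude.Def_AlgebraicCurve_DivisorClassGroup

/-!
# Places cut out by integer valued valuations

Given a `K`-algebra map `ι : F →ₐ[K] Λ` into a field with a `WithTop ℤ`-valued additive valuation
`v` which is trivial on `K` and nontrivial on the image, we construct the corresponding place of
`F/K` and compare `ord` with `v ∘ ι`.
-/

set_option autoImplicit false

noncomputable section

open AlgebraicCurve

namespace FermatAgent.ModCurve.Points

variable {K F Λ : Type*} [Field K] [Field F] [Field Λ] [Algebra K F] [Algebra K Λ]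

/-- The hypotheses on the valued target field: constants have valuation zero and the residue
field is `K`. -/
structure ValTarget (K : Type*) (Λ : Type*) [Field K] [Field Λ] [Algebra K Λ] where
  v : AddValuation Λ (WithTop ℤ)
  map_const : ∀ c : K, c ≠ 0 → v (algebraMap K Λ c) = 0
  exists_residue : ∀ a : Λ, 0 ≤ v a → ∃ c : K, 0 < v (a - algebraMap K Λ c)

namespace ValTarget

variable (V : ValTarget K Λ)

/-- The integer order of an element of the target field (zero at zero). -/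
def ordZ (a : Λ) : ℤ := (V.v a).untopD 0

theorem coe_ordZ {a : Λ} (ha : a ≠ 0) : (V.ordZ a : WithTop ℤ) = V.v a := by
  have h : V.v a ≠ ⊤ := (AddValuation.ne_top_iff _).2 ha
  obtain ⟨n, hn⟩ := WithTop.ne_top_iff_exists.1 h
  simp [ordZ, ← hn]

theorem ordZ_zero : V.ordZ 0 = 0 := by simp [ordZ]

theorem ordZ_eq {a : Λ} {n : ℤ} (h : V.v a = n) : V.ordZ a = n := by simp [ordZ, h]

theorem ne_zero_of_v_eq {a : Λ} {n : ℤ} (h : V.v a = n) : a ≠ 0 := by
  intro h0
  simp [h0] at h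

theorem ordZ_mul {a b : Λ} (ha : a ≠ 0) (hb : b ≠ 0) : V.ordZ (a * b) = V.ordZ a + V.ordZ b :=
  V.ordZ_eq (by rw [V.v.map_mul, ← V.coe_ordZ ha, ← V.coe_ordZ hb]; norm_cast)

theorem ordZ_one : V.ordZ 1 = 0 := by simp [ordZ]

theorem ordZ_inv (a : Λ) : V.ordZ a⁻¹ = -V.ordZ a := by
  rcases eq_or_ne a 0 with rfl | ha
  · simp [ordZ_zero]
  · have h := V.ordZ_mul ha (inv_ne_zero ha)
    rw [mul_inv_cancel₀ ha, ordZ_one] at h
    omega

theorem ordZ_pow (a : Λ) (n : ℕ) : V.ordZ (a ^ n) = n * V.ordZ a := by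
  rcases eq_or_ne a 0 with rfl | ha
  · rcases n with _ | n <;> simp [ordZ_zero, ordZ_one]
  · induction n with
    | zero => simp [ordZ_one]
    | succ n ih => rw [pow_succ, V.ordZ_mul (pow_ne_zero _ ha) ha, ih]; push_cast; ring

theorem v_nonneg_iff {a : Λ} : 0 ≤ V.v a ↔ a = 0 ∨ 0 ≤ V.ordZ a := by
  rcases eq_or_ne a 0 with rfl | ha
  · simp
  · rw [← V.coe_ordZ ha]; simp [ha]

theorem v_pos_iff {a : Λ} : 0 < V.v a ↔ a = 0 ∨ 0 < V.ordZ a := by
  rcases eq_or_ne a 0 with rfl | ha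
  · simp
  · rw [← V.coe_ordZ ha]; simp [ha]

theorem v_const_nonneg (c : K) : 0 ≤ V.v (algebraMap K Λ c) := by
  rcases eq_or_ne c 0 with rfl | hc
  · simp
  · rw [V.map_const c hc]

theorem v_smul {c : K} (hc : c ≠ 0) (a : Λ) : V.v (c • a) = V.v a := by
  rw [Algebra.smul_def, V.v.map_mul, V.map_const c hc, zero_add]

theorem eq_of_residue {a : Λ} {c d : K} (hc : 0 < V.v (a - algebraMap K Λ c))
    (hd : 0 < V.v (a - algebraMap K Λ d)) : c = d := by
  by_contra hne
  have h := (lt_min hd hc).trans_le (V.v.map_sub (a - algebraMap K Λ d) (a - algebraMap K Λ c))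
  rw [show a - algebraMap K Λ d - (a - algebraMap K Λ c) = algebraMap K Λ (c - d) by
    rw [map_sub]; ring, V.map_const _ (sub_ne_zero.2 hne)] at h
  exact lt_irrefl _ h

end ValTarget

variable (V : ValTarget K Λ) (ι : F →ₐ[K] Λ)

/-- The valuation pulled back to `F` is nontrivial. -/
def Nontriv : Prop := ∃ x : F, x ≠ 0 ∧ V.ordZ (ι x) ≠ 0

variable {V ι}

theorem Nontriv.exists_pos (h : Nontriv V ι) :
    ∃ n : ℕ, 0 < n ∧ ∃ x : F, x ≠ 0 ∧ V.ordZ (ι x) = n := by
  obtain ⟨x, hx, hne⟩ := h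
  rcases lt_or_gt_of_ne hne with hlt | hgt
  · exact ⟨(V.ordZ (ι x⁻¹)).toNat, by rw [map_inv₀, V.ordZ_inv]; omega, x⁻¹, inv_ne_zero hx,
      by rw [map_inv₀, V.ordZ_inv]; omega⟩
  · exact ⟨(V.ordZ (ι x)).toNat, by omega, x, hx, by omega⟩

open Classical in
/-- The positive generator of the value group on the image of `F`. -/
def valStep (h : Nontriv V ι) : ℕ := Nat.find h.exists_pos

theorem valStep_pos (h : Nontriv V ι) : 0 < valStep h := by
  classical exact (Nat.find_spec h.exists_pos).1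

theorem exists_valStep (h : Nontriv V ι) : ∃ x : F, x ≠ 0 ∧ V.ordZ (ι x) = valStep h := by
  classical exact (Nat.find_spec h.exists_pos).2

theorem valStep_min (h : Nontriv V ι) {x : F} (hx : x ≠ 0) {n : ℕ} (hn : 0 < n)
    (hxn : V.ordZ (ι x) = n) : valStep h ≤ n := by
  classical exact Nat.find_min' h.exists_pos ⟨hn, x, hx, hxn⟩

theorem map_ne_zero_of_ne {x : F} (hx : x ≠ 0) : ι x ≠ 0 :=
  fun h0 => hx (ι.toRingHom.injective (h0.trans (map_zero ι.toRingHom).symm))

theorem ordZ_map_zpow {x : F} (_ : x ≠ 0) (n : ℤ) : V.ordZ (ι (x ^ n)) = n * V.ordZ (ι x) := by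
  rcases n with n | n
  · simp only [Int.ofNat_eq_natCast, zpow_natCast]; rw [map_pow, V.ordZ_pow]
  · rw [zpow_negSucc, map_inv₀, map_pow, V.ordZ_inv, V.ordZ_pow, Int.negSucc_eq]
    push_cast; ring

theorem valStep_dvd (h : Nontriv V ι) (x : F) : (valStep h : ℤ) ∣ V.ordZ (ι x) := by
  rcases eq_or_ne x 0 with rfl | hx
  · simp [V.ordZ_zero]
  obtain ⟨t, ht, htk⟩ := exists_valStep h
  have hk := valStep_pos h
  set n := V.ordZ (ι x) with hn
  by_contra hnd
  have hy : x * t ^ (-(n / (valStep h : ℤ))) ≠ 0 := mul_ne_zero hx (zpow_ne_zero _ ht)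
  have hmpos : 0 < n % (valStep h : ℤ) :=
    lt_of_le_of_ne (Int.emod_nonneg _ (by omega)) fun h0 => hnd (Int.dvd_of_emod_eq_zero h0.symm)
  have hmlt : n % (valStep h : ℤ) < valStep h := Int.emod_lt_of_pos _ (by omega)
  have := valStep_min h hy (n := (n % (valStep h : ℤ)).toNat) (by omega) (by
    rw [map_mul, V.ordZ_mul (map_ne_zero_of_ne hx) (map_ne_zero_of_ne (zpow_ne_zero _ ht)),
      ordZ_map_zpow ht, htk, ← hn, Int.toNat_of_nonneg hmpos.le, Int.emod_def]
    ring)
  omega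

variable (V ι) in
/-- The valuation ring of `F` cut out by `v ∘ ι`. -/
def valRing : ValuationSubring F where
  carrier := {x | 0 ≤ V.v (ι x)}
  mul_mem' {a b} ha hb := by
    simp only [Set.mem_ofPred_eq, map_mul, AddValuation.map_mul] at *
    exact add_nonneg ha hb
  one_mem' := by simp
  add_mem' {a b} ha hb := by
    simp only [Set.mem_ofPred_eq, map_add] at *
    exact AddValuation.map_le_add _ ha hb
  zero_mem' := by simp
  neg_mem' {a} ha := by simpa using ha
  mem_or_inv_mem' x := by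
    simp only [Set.mem_ofPred_eq]
    rw [V.v_nonneg_iff, V.v_nonneg_iff, map_inv₀, V.ordZ_inv, inv_eq_zero]
    rcases le_total 0 (V.ordZ (ι x)) with h | h
    · exact Or.inl (Or.inr h)
    · exact Or.inr (Or.inr (by omega))

theorem mem_valRing {x : F} : x ∈ valRing V ι ↔ 0 ≤ V.v (ι x) := Iff.rfl

theorem valRing_isPrincipal : IsPrincipalIdealRing (valRing V ι) := by
  classical
  refine ⟨fun I => ?_⟩
  by_cases hI : I = ⊥
  · exact ⟨⟨0, by simp [hI]⟩⟩
  obtain ⟨a₀, ha₀I, ha₀⟩ : ∃ a ∈ I, a ≠ 0 := Submodule.exists_mem_ne_zero_of_ne_bot hI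
  have hex : ∃ n : ℕ, ∃ a ∈ I, a ≠ 0 ∧ (V.ordZ (ι (a : F))).toNat = n :=
    ⟨_, a₀, ha₀I, ha₀, rfl⟩
  obtain ⟨a, haI, ha, han⟩ := Nat.find_spec hex
  have haF : (a : F) ≠ 0 := fun h0 => ha (Subtype.ext h0)
  refine ⟨⟨a, le_antisymm (fun b hb => ?_) ((Submodule.span_singleton_le_iff_mem _ _).2 haI)⟩⟩
  rw [Submodule.mem_span_singleton]
  rcases eq_or_ne b 0 with rfl | hb0
  · exact ⟨0, by simp⟩
  have hbF : (b : F) ≠ 0 := fun h0 => hb0 (Subtype.ext h0)
  have hmin := Nat.find_min' hex (m := (V.ordZ (ι (b : F))).toNat) ⟨b, hb, hb0, rfl⟩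
  have hanneg := (V.v_nonneg_iff.1 a.2).resolve_left (map_ne_zero_of_ne haF)
  have hbnneg := (V.v_nonneg_iff.1 b.2).resolve_left (map_ne_zero_of_ne hbF)
  have hq : 0 ≤ V.v (ι ((b : F) / a)) := by
    rw [map_div₀, AddValuation.map_div, ← V.coe_ordZ (map_ne_zero_of_ne haF),
      ← V.coe_ordZ (map_ne_zero_of_ne hbF), ← WithTop.LinearOrderedAddCommGroup.coe_sub,
      WithTop.coe_nonneg]
    omega
  refine ⟨⟨(b : F) / a, hq⟩, Subtype.ext ?_⟩
  show (b : F) / a * a = b
  rw [div_mul_cancel₀ _ haF]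

/-- The place of `F/K` cut out by `v ∘ ι`. -/
def placeOfVal (h : Nontriv V ι) : Place K F where
  toValuationSubring := valRing V ι
  algebraMap_mem' c := by
    rw [mem_valRing, AlgHom.commutes]
    exact V.v_const_nonneg c
  ne_top' := by
    intro htop
    obtain ⟨x, hx, hk⟩ := exists_valStep h
    have hmem : x⁻¹ ∈ valRing V ι := htop ▸ ValuationSubring.mem_top _
    rw [mem_valRing, map_inv₀, V.v_nonneg_iff, V.ordZ_inv, hk, inv_eq_zero] at hmem
    have := valStep_pos h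
    rcases hmem with h0 | h0
    · exact map_ne_zero_of_ne hx h0
    · omega
  isPrincipalIdealRing' := valRing_isPrincipal

theorem ordZ_coe_unit (h : Nontriv V ι) (u : (placeOfVal h).toValuationSubringˣ) :
    V.ordZ (ι ((u : (placeOfVal h).toValuationSubring) : F)) = 0 := by
  have h1 : ((u : (placeOfVal h).toValuationSubring) : F) *
      ((↑u⁻¹ : (placeOfVal h).toValuationSubring) : F) = 1 :=
    congrArg Subtype.val u.mul_inv
  have hu : ((u : (placeOfVal h).toValuationSubring) : F) ≠ 0 := fun h0 => by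
    rw [h0, zero_mul] at h1; exact zero_ne_one h1
  have hv : ((↑u⁻¹ : (placeOfVal h).toValuationSubring) : F) ≠ 0 := fun h0 => by
    rw [h0, mul_zero] at h1; exact zero_ne_one h1
  have h2 := congrArg (fun y => V.ordZ (ι y)) h1
  simp only [map_mul, map_one, V.ordZ_one,
    V.ordZ_mul (map_ne_zero_of_ne hu) (map_ne_zero_of_ne hv)] at h2
  have ha := (V.v_nonneg_iff.1 (u : (placeOfVal h).toValuationSubring).2).resolve_left
    (map_ne_zero_of_ne hu)
  have hb := (V.v_nonneg_iff.1 (↑u⁻¹ : (placeOfVal h).toValuationSubring).2).resolve_left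
    (map_ne_zero_of_ne hv)
  omega

theorem ordZ_eq_ord (h : Nontriv V ι) (f : F) :
    V.ordZ (ι f) = valStep h * (placeOfVal h).ord f := by
  rcases eq_or_ne f 0 with rfl | hf
  · simp [V.ordZ_zero]
  obtain ⟨t, ht, htk⟩ := exists_valStep h
  set P := placeOfVal h
  obtain ⟨π, hπ⟩ := IsDiscreteValuationRing.exists_irreducible P.toValuationSubring
  have hπF : (π : F) ≠ 0 := fun h0 => hπ.ne_zero (Subtype.ext h0)
  obtain ⟨u, hu⟩ := P.exists_unit_mul_zpow hf hπ
  obtain ⟨ut, hut⟩ := P.exists_unit_mul_zpow ht hπ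
  have key : ∀ (w : P.toValuationSubringˣ) (n : ℤ),
      V.ordZ (ι (((w : P.toValuationSubring) : F) * (π : F) ^ n)) = n * V.ordZ (ι (π : F)) := by
    intro w n
    have hw : ((w : P.toValuationSubring) : F) ≠ 0 := fun h0 => w.ne_zero (Subtype.ext h0)
    rw [map_mul, V.ordZ_mul (map_ne_zero_of_ne hw) (map_ne_zero_of_ne (zpow_ne_zero _ hπF)),
      ordZ_coe_unit h w, ordZ_map_zpow hπF, zero_add]
  have ht1 : V.ordZ (ι t) = P.ord t * V.ordZ (ι (π : F)) := by
    conv_lhs => rw [hut]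
    exact key ut _
  have hπnn : 0 ≤ V.ordZ (ι (π : F)) :=
    (V.v_nonneg_iff.1 π.2).resolve_left (map_ne_zero_of_ne hπF)
  have hkpos := valStep_pos h
  have hπpos : 0 < V.ordZ (ι (π : F)) := by
    rcases hπnn.lt_or_eq with h1 | h1
    · exact h1
    · rw [← h1, mul_zero, htk] at ht1; omega
  have hle : (valStep h : ℤ) ≤ V.ordZ (ι (π : F)) := Int.le_of_dvd hπpos (valStep_dvd h _)
  have hπk : V.ordZ (ι (π : F)) = valStep h := by
    rw [htk] at ht1
    exact le_antisymm (Int.le_of_dvd (by omega) (Dvd.intro_left _ ht1.symm)) hle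
  calc V.ordZ (ι f) = P.ord f * V.ordZ (ι (π : F)) := by
        conv_lhs => rw [hu]
        exact key u _
    _ = _ := by rw [hπk, mul_comm]

end FermatAgent.ModCurve.Points
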