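import Fermat.Agent.ModCurve.Points.PlaceOfVal

/-!
# Rigidity of valued embeddings over a function field of transcendence degree one

Two `K`-embeddings `a b : F → Λ` which induce the same valuation on `F`, agree on one element `s`
of positive valuation and have the same leading coefficient at a uniformizer are equal.
-/

set_option autoImplicit false

noncomputable section

namespace FermatAgent.ModCurve.Points

variable {K F Λ : Type*} [Field K] [Field F] [Field Λ] [Algebra K F] [Algebra K Λ]
variable {V : ValTarget K Λ}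

theorem ValTarget.ordZ_natCast [CharZero K] (V : ValTarget K Λ) {n : ℕ} (hn : n ≠ 0) :
    V.v (n : Λ) = 0 := by
  rw [← map_natCast (algebraMap K Λ) n]
  exact V.map_const _ (Nat.cast_ne_zero.2 hn)

theorem ValTarget.map_sum_pow [CharZero K] (V : ValTarget K Λ) {r : Λ} (hr : 0 < V.v (r - 1))
    {m : ℕ} (hm : 0 < m) : V.v (∑ i ∈ Finset.range m, r ^ i) = 0 := by
  have hpow : ∀ i : ℕ, 0 < V.v (r ^ i - 1) := by
    intro i
    induction i with
    | zero => simp
    | succ i ih =>
      have hr0 : 0 ≤ V.v r := by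
        have h1 : (0 : WithTop ℤ) ≤ min (V.v (r - 1)) (V.v 1) := by simp [hr.le]
        have := h1.trans (V.v.map_add (r - 1) 1)
        rwa [sub_add_cancel] at this
      have heq : r ^ (i + 1) - 1 = (r ^ i - 1) * r + (r - 1) := by ring
      rw [heq]
      refine V.v.map_lt_add ?_ hr
      rw [V.v.map_mul]
      exact ih.trans_le (le_add_of_nonneg_right hr0)
  have hsum : 0 < V.v ((∑ i ∈ Finset.range m, r ^ i) - (m : Λ)) := by
    have heq : (∑ i ∈ Finset.range m, r ^ i) - (m : Λ) = ∑ i ∈ Finset.range m, (r ^ i - 1) := by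
      simp [Finset.sum_sub_distrib]
    rw [heq]
    exact V.v.map_lt_sum' WithTop.top_pos fun i _ => hpow i
  have h0 : V.v (m : Λ) = 0 := V.ordZ_natCast (by omega)
  have := V.v.map_eq_of_lt_sub (x := (m : Λ)) (y := ∑ i ∈ Finset.range m, r ^ i)
    (by rw [h0]; exact hsum)
  rw [this, h0]

/-- Successive approximation: if `a t` and `b t` agree to order `δ`, so do `a x` and `b x` for
every regular `x` (up to order `n * k`). -/
theorem le_v_sub_of_regular (a b : F →ₐ[K] Λ) (hv : ∀ x, V.v (a x) = V.v (b x))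
    {t : F} {k : ℕ} (_ : 0 < k) (htk : V.v (a t) = (k : ℤ))
    (hdvd : ∀ x, (k : ℤ) ∣ V.ordZ (a x)) {δ : WithTop ℤ} (hδ : δ ≤ V.v (a t - b t))
    (n : ℕ) : ∀ x : F, 0 ≤ V.v (a x) →
      min δ (((n * k : ℕ) : ℤ) : WithTop ℤ) ≤ V.v (a x - b x) := by
  induction n with
  | zero =>
    intro x hx
    refine (min_le_right _ _).trans ?_
    rw [Nat.zero_mul, Nat.cast_zero, WithTop.coe_zero]
    exact V.v.map_le_sub hx (hv x ▸ hx)
  | succ n ih =>
    intro x hx
    obtain ⟨c, hc⟩ := V.exists_residue (a x) hx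
    have hat : a t ≠ 0 := V.ne_zero_of_v_eq htk
    have ht : t ≠ 0 := fun h => hat (by simp [h])
    set y := (x - algebraMap K F c) / t with hy
    have hxy : x = algebraMap K F c + t * y := by rw [hy]; field_simp; ring
    have hay : a (x - algebraMap K F c) = a x - algebraMap K Λ c := by simp
    have hynn : 0 ≤ V.v (a y) := by
      rcases eq_or_ne (a (x - algebraMap K F c)) 0 with h0 | h0
      · rw [hy, map_div₀, h0, zero_div]; simp
      · rw [hy, map_div₀, V.v_nonneg_iff]
        refine Or.inr ?_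
        rw [div_eq_mul_inv, V.ordZ_mul h0 (inv_ne_zero hat), V.ordZ_inv, V.ordZ_eq htk]
        have hpos : 0 < V.ordZ (a (x - algebraMap K F c)) := by
          rw [← hay] at hc
          exact (V.v_pos_iff.1 hc).resolve_left h0
        have := Int.le_of_dvd hpos (hdvd _)
        omega
    have hD : a x - b x = (a t - b t) * a y + b t * (a y - b y) := by
      rw [hxy]; simp only [map_add, map_mul, AlgHom.commutes]; ring
    rw [hD]
    refine V.v.map_le_add ?_ ?_
    · rw [V.v.map_mul]
      exact (min_le_left _ _).trans (hδ.trans (le_add_of_nonneg_right hynn))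
    · rw [V.v.map_mul, ← hv t, htk]
      refine le_trans ?_ (add_le_add le_rfl (ih y hynn))
      rw [← min_add_add_left]
      refine le_min ((min_le_left _ _).trans (le_add_of_nonneg_left ?_))
        ((min_le_right _ _).trans ?_)
      · exact_mod_cast Nat.zero_le k
      · rw [← WithTop.coe_add]
        exact le_of_eq (by congr 1; push_cast; ring)

/-- **Rigidity.** -/
theorem algHom_eq_of_leading [CharZero K] (a b : F →ₐ[K] Λ) (hv : ∀ x, V.v (a x) = V.v (b x))
    {t : F} {k : ℕ} (hk : 0 < k) (htk : V.v (a t) = (k : ℤ))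
    (hdvd : ∀ x, (k : ℤ) ∣ V.ordZ (a x)) (hlead : ((k : ℤ) : WithTop ℤ) < V.v (a t - b t))
    {s : F} (hs : a s = b s) (hs_pos : 0 < V.ordZ (a s)) : a = b := by
  have hat : a t ≠ 0 := V.ne_zero_of_v_eq htk
  have ht : t ≠ 0 := fun h => hat (by simp [h])
  have hbtk : V.v (b t) = (k : ℤ) := hv t ▸ htk
  have hbt : b t ≠ 0 := V.ne_zero_of_v_eq hbtk
  have hcoe : ∀ n : ℕ, n ≤ n * k := fun n => Nat.le_mul_of_pos_right n hk
  have hDt : a t = b t := by
    by_contra hne
    have hd0 : a t - b t ≠ 0 := sub_ne_zero.2 hne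
    obtain ⟨δ, hδ⟩ := WithTop.ne_top_iff_exists.1 ((AddValuation.ne_top_iff V.v).2 hd0)
    obtain ⟨q, hq⟩ := hdvd s
    have hqpos : 0 < q := by
      by_contra hq0
      push Not at hq0
      have : (k : ℤ) * q ≤ 0 := mul_nonpos_of_nonneg_of_nonpos (by omega) hq0
      omega
    set m := q.toNat with hm
    have hmq : (m : ℤ) = q := by omega
    have has : a s ≠ 0 := fun h => by rw [h, V.ordZ_zero] at hs_pos; omega
    set w := s / t ^ m with hw
    have haw : a w ≠ 0 := by
      rw [hw, map_div₀, map_pow]; exact div_ne_zero has (pow_ne_zero _ hat)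
    have hvaw : V.v (a w) = 0 := by
      rw [← V.coe_ordZ haw]
      rw [hw, map_div₀, map_pow, div_eq_mul_inv, V.ordZ_mul has (inv_ne_zero (pow_ne_zero _ hat)),
        V.ordZ_inv, V.ordZ_pow, V.ordZ_eq htk, hq, hmq]
      exact_mod_cast show (k : ℤ) * q + -(q * k) = 0 by ring
    have hsw : s = t ^ m * w := by rw [hw]; field_simp
    have hzero : (a t ^ m - b t ^ m) * a w + b t ^ m * (a w - b w) = 0 := by
      have h1 := hs
      rw [hsw, map_mul, map_mul, map_pow, map_pow] at h1
      linear_combination h1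
    set r := a t / b t with hr
    have hr1 : 0 < V.v (r - 1) := by
      rw [hr, div_sub_one hbt, AddValuation.map_div, hbtk, ← hδ,
        ← WithTop.LinearOrderedAddCommGroup.coe_sub]
      rw [← hδ] at hlead
      exact_mod_cast sub_pos.2 (WithTop.coe_lt_coe.1 hlead)
    have hm0 : 0 < m := by omega
    have hfac : a t ^ m - b t ^ m =
        (a t - b t) * (b t ^ (m - 1) * ∑ i ∈ Finset.range m, r ^ i) := by
      obtain ⟨j, hj⟩ : ∃ j, m = j + 1 := ⟨m - 1, by omega⟩
      rw [hj, Nat.add_sub_cancel]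
      have hat' : a t = r * b t := by rw [hr, div_mul_cancel₀ _ hbt]
      rw [hat', mul_pow]
      have hg := geom_sum_mul r (j + 1)
      linear_combination (-(b t ^ (j + 1))) * hg
    have hvd : V.v (b t ^ m * (a w - b w)) =
        ((δ + ((m - 1 : ℕ) : ℤ) * k : ℤ) : WithTop ℤ) := by
      rw [eq_neg_of_add_eq_zero_right hzero, AddValuation.map_neg, hfac]
      simp only [AddValuation.map_mul, AddValuation.map_pow, V.map_sum_pow hr1 hm0, hvaw, hbtk,
        ← hδ, add_zero]
      rw [← WithTop.coe_nsmul, ← WithTop.coe_add, nsmul_eq_mul]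
    have hlow : ((δ : ℤ) : WithTop ℤ) ≤ V.v (a w - b w) := by
      have h := le_v_sub_of_regular a b hv hk htk hdvd hδ.le δ.toNat w hvaw.ge
      refine le_trans (le_min le_rfl ?_) h
      have := hcoe δ.toNat
      exact WithTop.coe_le_coe.2 (by omega)
    rw [AddValuation.map_mul, AddValuation.map_pow, hbtk] at hvd
    have hcon := (add_le_add (le_refl (m • ((k : ℤ) : WithTop ℤ))) hlow).trans hvd.le
    rw [← WithTop.coe_nsmul, ← WithTop.coe_add, WithTop.coe_le_coe, nsmul_eq_mul] at hcon
    have h2 : ((m - 1 : ℕ) : ℤ) * k = m * k - k := by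
      rw [Nat.cast_sub hm0]; ring
    omega
  have hreg : ∀ x : F, 0 ≤ V.v (a x) → a x = b x := by
    intro x hx
    by_contra hne
    obtain ⟨d, hd⟩ := WithTop.ne_top_iff_exists.1
      ((AddValuation.ne_top_iff V.v).2 (sub_ne_zero.2 hne))
    have h := le_v_sub_of_regular a b hv hk htk hdvd (δ := ⊤) (by simp [hDt]) (d.toNat + 1) x hx
    rw [min_eq_right le_top, ← hd, WithTop.coe_le_coe] at h
    have := hcoe (d.toNat + 1)
    omega
  ext x
  rcases le_total (0 : WithTop ℤ) (V.v (a x)) with h | h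
  · exact hreg x h
  · have h1 : 0 ≤ V.v (a x⁻¹) := by
      rcases eq_or_ne (a x) 0 with h0 | h0
      · rw [map_inv₀, h0]; simp
      · rw [map_inv₀, V.v_nonneg_iff, V.ordZ_inv]
        rw [← V.coe_ordZ h0] at h
        have : V.ordZ (a x) ≤ 0 := by exact_mod_cast h
        exact Or.inr (by omega)
    have h2 := hreg _ h1
    rwa [map_inv₀, map_inv₀, inv_inj] at h2

end FermatAgent.ModCurve.Points
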